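import Mathlib

/-!
# S16, lower bound by binary theta series: shared definitions

`d` is an auxiliary prime with `d ≡ 3 mod 4`.  `qf d` is the principal binary quadratic form
`x² + x y + ((d+1)/4) y²` of discriminant `-d` (the norm form of the ring of integers of
`ℚ(√-d)`), `thetaD d` its theta series and `thetaCoset d h` (`h` mod `d`) the theta series of
the cosets of the lattice in its dual:

`thetaCoset d h τ = ∑_{(x,y) ∈ ℤ²} exp(2πi τ (d (2x+y)² + (d y + 2h)²) / (4d))`,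

so that `thetaCoset d 0 = thetaD d`.
-/

set_option autoImplicit false

namespace Fermat.Agent.S16.ThetaLower

open UpperHalfPlane hiding I
open Complex
open scoped Real

noncomputable section

/-- The principal form `x² + x y + ((d+1)/4) y²` of discriminant `-d` (`d ≡ 3 mod 4`). -/
def qf (d : ℕ) (v : ℤ × ℤ) : ℤ := v.1 ^ 2 + v.1 * v.2 + (((d + 1) / 4 : ℕ) : ℤ) * v.2 ^ 2

/-- Number of representations of `n` by `qf d`. -/
def repCount (d n : ℕ) : ℕ := Nat.card {v : ℤ × ℤ // qf d v = (n : ℤ)}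

/-- Number of representations of `n` by the quaternary form `qf d ⊕ p · qf d`. -/
def repCount2 (p d n : ℕ) : ℕ :=
  Nat.card {w : (ℤ × ℤ) × (ℤ × ℤ) // qf d w.1 + (p : ℤ) * qf d w.2 = (n : ℤ)}

/-- `θ_d(τ) = ∑_{v ∈ ℤ²} exp(2πi τ · qf d v)`. -/
def thetaD (d : ℕ) (τ : ℍ) : ℂ := ∑' v : ℤ × ℤ, cexp (2 * π * I * (qf d v : ℂ) * τ)

/-- Numerator of the shifted form: `d (2x+y)² + (d y + 2h)²` (equal to `4 d · qf d (x, y)` for
`h = 0`). -/
def cosetNum (d : ℕ) (h : ℤ) (v : ℤ × ℤ) : ℤ :=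
  (d : ℤ) * (2 * v.1 + v.2) ^ 2 + ((d : ℤ) * v.2 + 2 * h) ^ 2

/-- The theta series of the coset `h` of the lattice in its dual. -/
def thetaCoset (d : ℕ) (h : ℤ) (τ : ℍ) : ℂ :=
  ∑' v : ℤ × ℤ, cexp (2 * π * I * ((cosetNum d h v : ℂ) / (4 * (d : ℂ))) * τ)

end

end Fermat.Agent.S16.ThetaLower
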