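import Mathlib
import Fermat.Prelude.Def_ModularForm_HeckeOperator
import Fermat.Agent.S16.ThetaLower.Defs

/-!
# S16, lower bound by binary theta series: package contracts

This file contains ONLY definitions: the contract of every package of the theta route, as a
`Prop`.  A package proves `theorem <name> … : <Contract>`; a package that USES another one takes
its contract as a hypothesis (so it can be written and landed before the other one exists).

Mathematics (board #678, #727).  `d` is an auxiliary prime, `d ≡ 3 mod 4`, `(p/d) = -1`.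
`θ_d` has weight 1 on `Γ₀(d)` with character `γ ↦ (γ₁₁/d)`; `F_d(τ) = θ_d(τ) θ_d(pτ)` lies in
`M₂(Γ₀(dp))` and is fixed by the Atkin–Lehner operator `W_d`, so its trace to `Γ₀(p)` is
`F_d + U_d F_d`, with constant term `2` and `n`-th coefficient `r(n) + r(dn) ≡ 0 mod 4`.
Hence `F₁ = (F_d + U_d F_d)/2 ∈ M₂(Γ₀(p))` has `a₀ = 1` and even higher coefficients
(`Fermat.Agent.S16.ThetaFormStmt p`).

Packages (file `Fermat/Agent/S16/ThetaLower/<File>.lean`, all in this namespace):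

* P1 `ThetaSeries.lean` : `thetaBasics (hd : d.Prime) (hd4 : d % 4 = 3) : ThetaBasics d`
* P2 `ThetaS.lean`      : `thetaSLaw (hd : d.Prime) (hd4 : d % 4 = 3) (hB : ThetaBasics d) : ThetaSLaw d`
* P3 `ThetaChar.lean`   : `thetaChar (hd : d.Prime) (hd4 : d % 4 = 3) (hB : ThetaBasics d)
                            (hS : ThetaSLaw d) : ThetaChar d`
* P4 `Trace.lean`       : `tracePrimeIndex : TracePrimeIndex`
* P5 `Fd.lean`          : `fdStmt (hp : p.Prime) (hd : d.Prime) (hd4 : d % 4 = 3) (hpd : p ≠ d)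
                            (hB : ThetaBasics d) (hC : ThetaChar d) (hR : RepArith p d) : FdStmt p d`
* P6 `Arith.lean`       : `repArith (hp : p.Prime) (hd : d.Prime) (hd4 : d % 4 = 3) (hpd : p ≠ d) :
                            RepArith p d`
* P7 `AuxPrime`         : `auxPrime (hp : p.Prime) (hp5 : 5 ≤ p) : AuxPrimeStmt p`
* P8 `FormOne.lean`     : the form `F₁` from P1–P7 (`Fermat.Agent.S16.ThetaFormStmt p`)
* P9 `Lower.lean`       : `Fermat.Agent.S16.LowerBound p` from `ThetaFormStmt`, `EisFormStmt`, `PairAPI`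
-/

set_option autoImplicit false

namespace Fermat.Agent.S16.ThetaLower

open UpperHalfPlane hiding I
open ModularForm CongruenceSubgroup Complex
open scoped MatrixGroups ModularForm Manifold Real

noncomputable section

/-- Contract of P1 (`ThetaSeries.lean`): basic analysis of the coset thetas. -/
structure ThetaBasics (d : ℕ) : Prop where
  /-- absolute convergence -/
  summable : ∀ (h : ℤ) (τ : ℍ),
    Summable fun v : ℤ × ℤ => cexp (2 * π * I * ((cosetNum d h v : ℂ) / (4 * (d : ℂ))) * τ)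
  coset_zero : thetaCoset d 0 = thetaD d
  /-- dependence on `h` mod `d` only -/
  coset_add : ∀ h : ℤ, thetaCoset d (h + d) = thetaCoset d h
  mdiff : ∀ h : ℤ, MDiff (thetaCoset d h)
  /-- T-law: `ϑ_h(τ + 1) = e(h²/d) ϑ_h(τ)` -/
  tLaw : ∀ (h : ℤ) (τ τ' : ℍ), (τ' : ℂ) = τ + 1 →
    thetaCoset d h τ' = cexp (2 * π * I * ((h : ℂ) ^ 2 / d)) * thetaCoset d h τ
  bdd : ∀ h : ℤ, IsBoundedAtImInfty (thetaCoset d h)
  /-- the `q`-expansion of `θ_d`: the `n`-th coefficient is the representation number `r_d(n)` -/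
  qexp : ∀ n : ℕ, (qExpansion 1 (thetaD d)).coeff n = (repCount d n : ℂ)
  /-- `∑_{h mod d} ϑ_h(dτ) = θ_d(τ)` (the dual lattice, rescaled by `d`, is the lattice) -/
  sum_mul : ∀ τ τ' : ℍ, (τ' : ℂ) = (d : ℂ) * τ →
    ∑ h ∈ Finset.range d, thetaCoset d (h : ℤ) τ' = thetaD d τ

/-- Contract of P2 (`ThetaS.lean`), the S-law:
`ϑ_h(-1/τ) = (-iτ/√d) ∑_{h' mod d} e(-2hh'/d) ϑ_{h'}(τ)`
(two applications of `Complex.tsum_exp_neg_quadratic`, first in `x`, then in `y`). -/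
def ThetaSLaw (d : ℕ) : Prop :=
  ∀ (h : ℤ) (τ τ' : ℍ), (τ' : ℂ) = -1 / τ →
    thetaCoset d h τ' = -I * τ / (Real.sqrt d : ℂ) *
      ∑ h' ∈ Finset.range d,
        cexp (2 * π * I * (-(2 * (h : ℂ) * h') / d)) * thetaCoset d (h' : ℤ) τ

/-- Contract of P3 (`ThetaChar.lean`): from the S- and T-laws to `Γ₀(d)` (pure algebra). -/
structure ThetaChar (d : ℕ) : Prop where
  /-- character law on `Γ₀(d)`: `θ_d ∣[1] γ = (γ₁₁ / d) θ_d` -/
  slash : ∀ γ : SL(2, ℤ), γ ∈ Gamma0 d →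
    thetaD d ∣[(1 : ℤ)] γ = ((jacobiSym (γ 1 1) d : ℤ) : ℂ) • thetaD d
  /-- Fricke law: `θ_d(-1/(dτ)) = -i √d τ θ_d(τ)` -/
  fricke : ∀ τ τ' : ℍ, (τ' : ℂ) = -1 / ((d : ℂ) * τ) →
    thetaD d τ' = -I * (Real.sqrt d : ℂ) * τ * thetaD d τ
  /-- boundedness at all cusps -/
  bdd : ∀ γ : SL(2, ℤ), IsBoundedAtImInfty (thetaD d ∣[(1 : ℤ)] γ)

/-- Contract of P4 (`Trace.lean`): trace from `Γ₀(dM)` to `Γ₀(M)`, `d` prime, `d ∤ M`.

`W = [d a, b; d M c, d δ]` with `d a δ - M b c = 1` is an Atkin–Lehner matrix; the cosets of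
`Γ₀(dM)` in `Γ₀(M)` are `1` and `β_j = d⁻¹ W [1, j; 0, d] = [a, a j + b; M c, M c j + d δ]`,
`j mod d`.  With `Fb(τ) := (M c τ + δ)^(-k) F(W τ)` one has
`F ∣[k] β_j = d^(-k) Fb((τ+j)/d)`, so the trace is `F + d^(1-k) U_d Fb`. -/
def TracePrimeIndex : Prop :=
  ∀ (d M : ℕ), d.Prime → M ≠ 0 → ¬ d ∣ M → ∀ (k : ℤ) (F : ModularForm (Gamma0 (d * M)) k)
    (Fb : ℍ → ℂ) (a b c δ : ℤ), (d : ℤ) * a * δ - M * b * c = 1 →
    (∀ τ τ' : ℍ, (τ' : ℂ) = ((d : ℂ) * a * τ + b) / ((d : ℂ) * M * c * τ + d * δ) →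
      Fb τ = ((M : ℂ) * c * τ + δ) ^ (-k) * F τ') →
    ∃ G : ModularForm (Gamma0 M) k,
      ∀ τ : ℍ, G τ = F τ + (d : ℂ) ^ (1 - k) * ModularForm.heckeU k d Fb τ

/-- Contract of P6 (`Arith.lean`): arithmetic of the representation numbers (no analysis). -/
structure RepArith (p d : ℕ) : Prop where
  finite : ∀ n : ℕ, Finite {v : ℤ × ℤ // qf d v = (n : ℤ)}
  finite2 : ∀ n : ℕ, Finite {w : (ℤ × ℤ) × (ℤ × ℤ) // qf d w.1 + (p : ℤ) * qf d w.2 = (n : ℤ)}
  /-- `r_d(0) = 1` -/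
  zero : repCount d 0 = 1
  /-- `r_d(n)` is even for `n ≥ 1` (`v ↦ -v`) -/
  even : ∀ n : ℕ, 1 ≤ n → Even (repCount d n)
  /-- `r_d(d n) = r_d(n)` (multiplication by `√-d`: `(x, y) ↦ (-x - ((d+1)/2) y, 2x + y)`) -/
  mul : ∀ n : ℕ, repCount d (d * n) = repCount d n
  /-- the quaternary count is the convolution of the binary counts -/
  conv : ∀ n : ℕ, repCount2 p d n =
    ∑ b ∈ Finset.range (n + 1), if p * b ≤ n then repCount d (n - p * b) * repCount d b else 0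
  zero2 : repCount2 p d 0 = 1
  /-- `r(n) + r(dn) ≡ 0 mod 4` for `n ≥ 1` -/
  four_dvd : ∀ n : ℕ, 1 ≤ n → 4 ∣ repCount2 p d n + repCount2 p d (d * n)

/-- Contract of P5 (`Fd.lean`): the form `F_d(τ) = θ_d(τ) θ_d(pτ)`. -/
structure FdStmt (p d : ℕ) : Prop where
  /-- `F_d` is a modular form of weight 2 on `Γ₀(dp)` with `q`-expansion `∑ r(n) qⁿ`. -/
  exists_form : ∃ F : ModularForm (Gamma0 (d * p)) 2,
    (∀ τ τ' : ℍ, (τ' : ℂ) = (p : ℂ) * τ → F τ = thetaD d τ * thetaD d τ') ∧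
      ∀ n : ℕ, (qExpansion 1 F).coeff n = (repCount2 p d n : ℂ)
  /-- `F_d ∣ W_d = -(p/d) F_d`: `F_d` is fixed by `W_d = [d a, b; d p c, d δ]` when `(p/d) = -1`. -/
  atkinLehner : jacobiSym p d = -1 → ∀ F : ℍ → ℂ,
    (∀ τ τ' : ℍ, (τ' : ℂ) = (p : ℂ) * τ → F τ = thetaD d τ * thetaD d τ') →
    ∀ a b c δ : ℤ, (d : ℤ) * a * δ - p * b * c = 1 → ∀ τ τ' : ℍ,
      (τ' : ℂ) = ((d : ℂ) * a * τ + b) / ((d : ℂ) * p * c * τ + d * δ) →
        F τ' = (d : ℂ) * ((p : ℂ) * c * τ + δ) ^ 2 * F τ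

/-- Contract of P7 (`AuxPrime`): Dirichlet + quadratic reciprocity. -/
def AuxPrimeStmt (p : ℕ) : Prop :=
  ∃ d : ℕ, d.Prime ∧ d % 4 = 3 ∧ p ≠ d ∧ jacobiSym p d = -1

end

end Fermat.Agent.S16.ThetaLower
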