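import Mathlib
import Fermat.Agent.S16.ThetaLower.Contracts

/-!
# S16, lower bound by binary theta series: package P6 (arithmetic of representation numbers)

`qf d (x, y) = x² + x y + ((d+1)/4) y²` (`d ≡ 3 mod 4`), `repCount d n = #{v | qf d v = n}`,
`repCount2 p d n = #{(u, w) | qf d u + p · qf d w = n}`.

Everything here is elementary (no analysis):

* `finite_rep`, `finite_rep2` : the representation sets are finite;
* `repCount_zero`  : `r(0) = 1`;
* `even_repCount`  : `r(n)` is even for `n ≥ 1` (`v ↦ -v`);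
* `repCount_mul`   : `r(d n) = r(n)` for `d` prime (multiplication by `√-d`);
* `repCount2_conv` : the quaternary count is the convolution of the binary counts;
* `repCount2_zero` : `r₂(0) = 1`;
* `repCount2_mod_four` : `r₂(n) ≡ r(n) + [p ∣ n] r(n/p) mod 4` for `n ≥ 1`;
* `four_dvd_repCount2` : `4 ∣ r₂(n) + r₂(d n)` for `n ≥ 1`;
* `repArith` : the contract `RepArith p d` of `Contracts.lean`.

All auxiliary lemmas live in the sub-namespace `Fermat.Agent.S16.ThetaLower.Arith` (so that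
they cannot collide with the other packages of the theta route); only `repArith` is in
`Fermat.Agent.S16.ThetaLower`.
-/

set_option autoImplicit false

namespace Fermat.Agent.S16.ThetaLower

noncomputable section

namespace Arith

/-! ### The quadratic form -/

theorem qf_coeff {d : ℕ} (hd : d % 4 = 3) : (((d + 1) / 4 : ℕ) : ℤ) * 4 = (d : ℤ) + 1 := by
  have h : (d + 1) / 4 * 4 = d + 1 := Nat.div_mul_cancel (by omega)
  exact_mod_cast h

/-- `4 Q(x, y) = (2x + y)² + d y²`. -/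
theorem four_qf {d : ℕ} (hd : d % 4 = 3) (v : ℤ × ℤ) :
    4 * qf d v = (2 * v.1 + v.2) ^ 2 + (d : ℤ) * v.2 ^ 2 := by
  have hc := qf_coeff hd
  unfold qf
  linear_combination (v.2 ^ 2) * hc

theorem qf_zero (d : ℕ) : qf d 0 = 0 := by simp [qf]

theorem qf_neg (d : ℕ) (v : ℤ × ℤ) : qf d (-v) = qf d v := by
  simp only [qf, Prod.fst_neg, Prod.snd_neg]
  ring

theorem qf_nonneg {d : ℕ} (hd : d % 4 = 3) (v : ℤ × ℤ) : 0 ≤ qf d v := by
  have h := four_qf hd v
  have h1 : 0 ≤ (2 * v.1 + v.2) ^ 2 := sq_nonneg _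
  have h2 : 0 ≤ (d : ℤ) * v.2 ^ 2 := mul_nonneg (Int.natCast_nonneg d) (sq_nonneg _)
  linarith

theorem qf_eq_zero_iff {d : ℕ} (hd : d % 4 = 3) (v : ℤ × ℤ) : qf d v = 0 ↔ v = 0 := by
  constructor
  · intro h
    have h4 := four_qf hd v
    have hd1 : (1 : ℤ) ≤ d := by
      have : 1 ≤ d := by omega
      exact_mod_cast this
    have h1 : 0 ≤ (2 * v.1 + v.2) ^ 2 := sq_nonneg _
    have h2 : 0 ≤ v.2 ^ 2 := sq_nonneg _
    have h2' : 0 ≤ ((d : ℤ) - 1) * v.2 ^ 2 := mul_nonneg (by linarith) h2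
    have h3 : v.2 ^ 2 = 0 := by linarith
    have h5 : v.2 = 0 := (pow_eq_zero_iff two_ne_zero).mp h3
    have h6 : (2 * v.1 + v.2) ^ 2 = 0 := by
      rw [h, h3] at h4
      linarith
    have h7 : 2 * v.1 + v.2 = 0 := (pow_eq_zero_iff two_ne_zero).mp h6
    have h8 : v.1 = 0 := by omega
    exact Prod.ext h8 h5
  · rintro rfl
    exact qf_zero d

/-- The box `[-4B, 4B]²`, which contains all `v` with `qf d v ≤ B`. -/
def qfBox (B : ℤ) : Finset (ℤ × ℤ) :=
  Finset.Icc (-(4 * B)) (4 * B) ×ˢ Finset.Icc (-(4 * B)) (4 * B)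

theorem mem_qfBox_of_qf_le {d : ℕ} (hd : d % 4 = 3) {v : ℤ × ℤ} {B : ℤ} (h : qf d v ≤ B) :
    v ∈ qfBox B := by
  have h4 := four_qf hd v
  have hd1 : (1 : ℤ) ≤ d := by
    have : 1 ≤ d := by omega
    exact_mod_cast this
  have h1 : 0 ≤ (2 * v.1 + v.2) ^ 2 := sq_nonneg _
  have h2 : 0 ≤ v.2 ^ 2 := sq_nonneg _
  have h2' : 0 ≤ ((d : ℤ) - 1) * v.2 ^ 2 := mul_nonneg (by linarith) h2
  have hy : v.2 ^ 2 ≤ 4 * B := by linarith
  have hx : (2 * v.1 + v.2) ^ 2 ≤ 4 * B := by
    have : 0 ≤ (d : ℤ) * v.2 ^ 2 := mul_nonneg (by linarith) h2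
    linarith
  have a1 := Int.le_self_sq v.2
  have a2 := Int.le_self_sq (-v.2)
  have a3 := Int.le_self_sq (2 * v.1 + v.2)
  have a4 := Int.le_self_sq (-(2 * v.1 + v.2))
  rw [neg_sq] at a2 a4
  simp only [qfBox, Finset.mem_product, Finset.mem_Icc]
  refine ⟨⟨?_, ?_⟩, ?_, ?_⟩ <;> linarith

/-! ### The binary representation sets as finsets -/

/-- The finset of representations of `z` by `qf d`. -/
def repFin (d : ℕ) (z : ℤ) : Finset (ℤ × ℤ) := (qfBox z).filter (fun w => qf d w = z)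

theorem mem_repFin {d : ℕ} (hd : d % 4 = 3) (z : ℤ) (w : ℤ × ℤ) :
    w ∈ repFin d z ↔ qf d w = z := by
  unfold repFin
  rw [Finset.mem_filter]
  exact ⟨fun h => h.2, fun h => ⟨mem_qfBox_of_qf_le hd h.le, h⟩⟩

theorem repCount_eq_card {d : ℕ} (hd : d % 4 = 3) (n : ℕ) :
    repCount d n = (repFin d n).card := by
  unfold repCount
  exact Nat.subtype_card _ (fun w => mem_repFin hd n w)

/-- L1.a / `RepArith.finite`: the representation sets are finite. -/
theorem finite_rep {d : ℕ} (hd : d % 4 = 3) (z : ℤ) : Finite {v : ℤ × ℤ // qf d v = z} :=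
  Finite.of_injective
    (fun v : {v : ℤ × ℤ // qf d v = z} =>
      (⟨v.1, (mem_repFin hd z v.1).mpr v.2⟩ : {w // w ∈ repFin d z}))
    (fun _ _ h => Subtype.ext (congrArg (fun t : {w // w ∈ repFin d z} => t.1) h))

/-- `r(0) = 1`. -/
theorem repCount_zero {d : ℕ} (hd : d % 4 = 3) : repCount d 0 = 1 := by
  rw [repCount_eq_card hd]
  have : repFin d ((0 : ℕ) : ℤ) = {0} := by
    ext w
    rw [mem_repFin hd, Finset.mem_singleton, Nat.cast_zero, qf_eq_zero_iff hd]
  rw [this, Finset.card_singleton]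

/-! ### Evenness: the involution `v ↦ -v` -/

/-- A finset with a fixed-point-free involution compatible with a predicate has even size. -/
theorem card_eq_two_mul_filter {α : Type*} (s : Finset α) (σ : α → α) (P : α → Prop)
    [DecidablePred P] (hσ : ∀ x ∈ s, σ x ∈ s) (hinv : ∀ x ∈ s, σ (σ x) = x)
    (hP : ∀ x ∈ s, (P (σ x) ↔ ¬ P x)) : s.card = 2 * (s.filter P).card := by
  have h1 := Finset.card_filter_add_card_filter_not (s := s) P
  have h2 : (s.filter (fun x => ¬ P x)).card = (s.filter P).card := by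
    apply Finset.card_bij (fun x _ => σ x)
    · intro x hx
      rw [Finset.mem_filter] at hx ⊢
      exact ⟨hσ x hx.1, (hP x hx.1).mpr hx.2⟩
    · intro x hx y hy hxy
      rw [Finset.mem_filter] at hx hy
      rw [← hinv x hx.1, ← hinv y hy.1, hxy]
    · intro y hy
      rw [Finset.mem_filter] at hy
      refine ⟨σ y, ?_, hinv y hy.1⟩
      rw [Finset.mem_filter]
      refine ⟨hσ y hy.1, ?_⟩
      rw [hP y hy.1]
      exact not_not.mpr hy.2
  omega

/-- Lexicographic positivity on `ℤ²`. -/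
def lexPos (v : ℤ × ℤ) : Prop := 0 < v.1 ∨ (v.1 = 0 ∧ 0 < v.2)

instance : DecidablePred lexPos := fun v => by
  unfold lexPos
  infer_instance

theorem lexPos_neg {v : ℤ × ℤ} (hv : v ≠ 0) : lexPos (-v) ↔ ¬ lexPos v := by
  have h : v.1 ≠ 0 ∨ v.2 ≠ 0 := by
    by_contra h
    rcases not_or.mp h with ⟨h1, h2⟩
    exact hv (Prod.ext (not_not.mp h1) (not_not.mp h2))
  simp only [lexPos, Prod.fst_neg, Prod.snd_neg]
  omega

/-- L4.c / `RepArith.even`: `r(n)` is even for `n ≥ 1`. -/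
theorem even_repCount {d : ℕ} (hd : d % 4 = 3) {n : ℕ} (hn : 1 ≤ n) : Even (repCount d n) := by
  rw [repCount_eq_card hd]
  have hne : ∀ w ∈ repFin d n, w ≠ 0 := by
    intro w hw h0
    rw [mem_repFin hd, h0, qf_zero] at hw
    have : (n : ℤ) = 0 := hw.symm
    omega
  have key := card_eq_two_mul_filter (repFin d n) (fun w => -w) lexPos
    (fun w hw => by
      rw [mem_repFin hd] at hw ⊢
      rw [qf_neg]
      exact hw)
    (fun w _ => neg_neg w)
    (fun w hw => lexPos_neg (hne w hw))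
  rw [key]
  exact even_two_mul _

/-! ### Multiplication by `√-d` -/

/-- Multiplication by `√-d = 2ω - 1` on `ℤ[ω]`, `ω = (1 + √-d)/2`, in the basis `(1, ω)`. -/
def mulSqrt (d : ℕ) (v : ℤ × ℤ) : ℤ × ℤ :=
  (-v.1 - 2 * (((d + 1) / 4 : ℕ) : ℤ) * v.2, 2 * v.1 + v.2)

theorem qf_mulSqrt {d : ℕ} (hd : d % 4 = 3) (v : ℤ × ℤ) :
    qf d (mulSqrt d v) = (d : ℤ) * qf d v := by
  have hc := qf_coeff hd
  simp only [qf, mulSqrt]
  linear_combination (v.1 ^ 2 + v.1 * v.2 + (((d + 1) / 4 : ℕ) : ℤ) * v.2 ^ 2) * hc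

/-- L4.d / `RepArith.mul`: `r(d n) = r(n)`. -/
theorem repCount_mul {d : ℕ} (hd : d.Prime) (hd4 : d % 4 = 3) (n : ℕ) :
    repCount d (d * n) = repCount d n := by
  rw [repCount_eq_card hd4, repCount_eq_card hd4]
  symm
  have hdpos : (0 : ℤ) < d := by exact_mod_cast hd.pos
  have hc := qf_coeff hd4
  apply Finset.card_bij (fun v _ => mulSqrt d v)
  · intro v hv
    rw [mem_repFin hd4] at hv ⊢
    rw [qf_mulSqrt hd4, hv]
    push_cast
    ring
  · intro v _ w _ h
    have h1 : -v.1 - 2 * (((d + 1) / 4 : ℕ) : ℤ) * v.2 = -w.1 - 2 * (((d + 1) / 4 : ℕ) : ℤ) * w.2 :=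
      congrArg Prod.fst h
    have h2 : 2 * v.1 + v.2 = 2 * w.1 + w.2 := congrArg Prod.snd h
    have h3 : (d : ℤ) * (v.2 - w.2) = 0 := by
      linear_combination (-2) * h1 - h2 - (v.2 - w.2) * hc
    have h4 : v.2 = w.2 := by
      have := (mul_eq_zero.mp h3).resolve_left hdpos.ne'
      linarith
    have h5 : v.1 = w.1 := by
      rw [h4] at h2
      linarith
    exact Prod.ext h5 h4
  · intro w hw
    rw [mem_repFin hd4] at hw
    have h4 := four_qf hd4 w
    have hdvd : (d : ℤ) ∣ (2 * w.1 + w.2) ^ 2 := by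
      refine ⟨4 * n - w.2 ^ 2, ?_⟩
      rw [hw] at h4
      push_cast at h4
      linarith
    have hprime : Prime (d : ℤ) := Nat.prime_iff_prime_int.mp hd
    obtain ⟨k, hk⟩ := hprime.dvd_of_dvd_pow hdvd
    have hv : mulSqrt d (2 * (((d + 1) / 4 : ℕ) : ℤ) * k - w.1, -k) = w := by
      apply Prod.ext
      · simp only [mulSqrt]
        ring
      · simp only [mulSqrt]
        linear_combination k * hc - hk
    refine ⟨(2 * (((d + 1) / 4 : ℕ) : ℤ) * k - w.1, -k), ?_, hv⟩
    rw [mem_repFin hd4]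
    have h5 := qf_mulSqrt hd4 (2 * (((d + 1) / 4 : ℕ) : ℤ) * k - w.1, -k)
    rw [hv, hw] at h5
    push_cast at h5
    exact (mul_left_cancel₀ hdpos.ne' h5).symm

/-! ### The quaternary representation sets -/

/-- The finset of representations of `z` by `qf d ⊕ p · qf d`. -/
def rep2Fin (p d : ℕ) (z : ℤ) : Finset ((ℤ × ℤ) × (ℤ × ℤ)) :=
  (qfBox z ×ˢ qfBox z).filter (fun u => qf d u.1 + (p : ℤ) * qf d u.2 = z)

theorem mem_rep2Fin {p d : ℕ} (hp : 0 < p) (hd : d % 4 = 3) (z : ℤ) (u : (ℤ × ℤ) × (ℤ × ℤ)) :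
    u ∈ rep2Fin p d z ↔ qf d u.1 + (p : ℤ) * qf d u.2 = z := by
  unfold rep2Fin
  rw [Finset.mem_filter]
  refine ⟨fun h => h.2, fun h => ⟨?_, h⟩⟩
  have h1 := qf_nonneg hd u.1
  have h2 := qf_nonneg hd u.2
  have hp1 : (1 : ℤ) ≤ p := by exact_mod_cast hp
  have h3 : 0 ≤ ((p : ℤ) - 1) * qf d u.2 := mul_nonneg (by linarith) h2
  rw [Finset.mem_product]
  exact ⟨mem_qfBox_of_qf_le hd (by linarith), mem_qfBox_of_qf_le hd (by linarith)⟩

theorem repCount2_eq_card {p d : ℕ} (hp : 0 < p) (hd : d % 4 = 3) (n : ℕ) :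
    repCount2 p d n = (rep2Fin p d n).card := by
  unfold repCount2
  exact Nat.subtype_card _ (fun u => mem_rep2Fin hp hd n u)

/-- `RepArith.finite2`: the quaternary representation sets are finite. -/
theorem finite_rep2 {p d : ℕ} (hp : 0 < p) (hd : d % 4 = 3) (z : ℤ) :
    Finite {w : (ℤ × ℤ) × (ℤ × ℤ) // qf d w.1 + (p : ℤ) * qf d w.2 = z} :=
  Finite.of_injective
    (fun v : {w : (ℤ × ℤ) × (ℤ × ℤ) // qf d w.1 + (p : ℤ) * qf d w.2 = z} =>
      (⟨v.1, (mem_rep2Fin hp hd z v.1).mpr v.2⟩ : {w // w ∈ rep2Fin p d z}))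
    (fun _ _ h => Subtype.ext (congrArg (fun t : {w // w ∈ rep2Fin p d z} => t.1) h))

/-- `RepArith.conv`: the quaternary count is the convolution of the binary counts. -/
theorem repCount2_conv {p d : ℕ} (hp : 0 < p) (hd : d % 4 = 3) (n : ℕ) :
    repCount2 p d n =
      ∑ b ∈ Finset.range (n + 1),
        if p * b ≤ n then repCount d (n - p * b) * repCount d b else 0 := by
  rw [repCount2_eq_card hp hd]
  have hp1 : (1 : ℤ) ≤ p := by exact_mod_cast hp
  have H : ((rep2Fin p d n : Finset ((ℤ × ℤ) × (ℤ × ℤ))) : Set ((ℤ × ℤ) × (ℤ × ℤ))).MapsTo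
      (fun u => (qf d u.2).toNat) (Finset.range (n + 1)) := by
    intro u hu
    rw [Finset.mem_coe, mem_rep2Fin hp hd] at hu
    have h1 := qf_nonneg hd u.1
    have h2 := qf_nonneg hd u.2
    have h3 : 0 ≤ ((p : ℤ) - 1) * qf d u.2 := mul_nonneg (by linarith) h2
    have h4 : qf d u.2 ≤ n := by linarith
    rw [Finset.mem_coe, Finset.mem_range]
    show (qf d u.2).toNat < n + 1
    omega
  rw [Finset.card_eq_sum_card_fiberwise H]
  apply Finset.sum_congr rfl
  intro b _
  split_ifs with hpb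
  · rw [repCount_eq_card hd, repCount_eq_card hd, ← Finset.card_product]
    congr 1
    ext u
    rw [Finset.mem_filter, mem_rep2Fin hp hd, Finset.mem_product, mem_repFin hd, mem_repFin hd]
    have h2 := qf_nonneg hd u.2
    rw [Nat.cast_sub hpb]
    push_cast
    constructor
    · rintro ⟨h, hb'⟩
      have hb2 : qf d u.2 = b := by omega
      refine ⟨?_, hb2⟩
      rw [hb2] at h
      linarith
    · rintro ⟨h1, h2'⟩
      refine ⟨?_, ?_⟩
      · rw [h1, h2']
        ring
      · rw [h2']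
        exact Int.toNat_natCast b
  · rw [Finset.card_eq_zero, Finset.filter_eq_empty_iff]
    intro u hu hb'
    rw [mem_rep2Fin hp hd] at hu
    have h1 := qf_nonneg hd u.1
    have h2 := qf_nonneg hd u.2
    have hb2 : qf d u.2 = b := by omega
    rw [hb2] at hu
    have h3 : (n : ℤ) < (p : ℤ) * b := by exact_mod_cast not_le.mp hpb
    linarith

/-- `RepArith.zero2`: `r₂(0) = 1`. -/
theorem repCount2_zero {p d : ℕ} (hp : 0 < p) (hd : d % 4 = 3) : repCount2 p d 0 = 1 := by
  rw [repCount2_conv hp hd]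
  simp [repCount_zero hd]

/-! ### The congruence modulo 4 -/

/-- `r₂(n) ≡ r(n) + [p ∣ n] r(n/p) mod 4` for `n ≥ 1`. -/
theorem repCount2_mod_four {p d : ℕ} (hp : 0 < p) (hd : d % 4 = 3) {n : ℕ} (hn : 1 ≤ n) :
    ((repCount2 p d n : ℕ) : ZMod 4) =
      (repCount d n : ZMod 4) + (if p ∣ n then (repCount d (n / p) : ZMod 4) else 0) := by
  have h4 : (4 : ZMod 4) = 0 := rfl
  have hterm : ∀ b ∈ Finset.range (n + 1),
      (((if p * b ≤ n then repCount d (n - p * b) * repCount d b else 0 : ℕ)) : ZMod 4) =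
        (if b = 0 then (repCount d n : ZMod 4) else 0) +
          (if p * b = n then (repCount d b : ZMod 4) else 0) := by
    intro b _
    rcases Nat.eq_zero_or_pos b with rfl | hb0
    · have h0 : ¬ (p * 0 = n) := by omega
      rw [if_pos (by omega), if_pos rfl, if_neg h0, Nat.mul_zero, Nat.sub_zero, repCount_zero hd]
      simp
    · rcases lt_trichotomy (p * b) n with h | h | h
      · obtain ⟨x, hx⟩ := even_repCount hd (n := n - p * b) (by omega)
        obtain ⟨y, hy⟩ := even_repCount hd (n := b) hb0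
        rw [if_pos h.le, if_neg (by omega), if_neg h.ne, hx, hy]
        have h5 : (x + x) * (y + y) = 4 * (x * y) := by ring
        rw [h5]
        push_cast
        rw [h4]
        simp
      · rw [if_pos h.le, if_neg (by omega), if_pos h, h, Nat.sub_self, repCount_zero hd]
        simp
      · rw [if_neg (by omega), if_neg (by omega), if_neg (by omega)]
        simp
  rw [repCount2_conv hp hd, Nat.cast_sum, Finset.sum_congr rfl hterm, Finset.sum_add_distrib]
  congr 1
  · rw [Finset.sum_ite_eq' (Finset.range (n + 1)) 0 (fun _ => (repCount d n : ZMod 4))]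
    simp
  · split_ifs with hdiv
    · obtain ⟨c, rfl⟩ := hdiv
      have hc : c ∈ Finset.range (p * c + 1) := by
        rw [Finset.mem_range]
        have : c ≤ p * c := Nat.le_mul_of_pos_left c hp
        omega
      rw [Nat.mul_div_cancel_left c hp, Finset.sum_eq_single_of_mem c hc]
      · simp
      · intro b _ hbc
        rw [if_neg]
        intro h
        exact hbc (Nat.eq_of_mul_eq_mul_left hp h)
    · apply Finset.sum_eq_zero
      intro b _
      rw [if_neg]
      rintro rfl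
      exact hdiv (dvd_mul_right p b)

/-- L4.e / `RepArith.four_dvd`: `4 ∣ r₂(n) + r₂(d n)` for `n ≥ 1`. -/
theorem four_dvd_repCount2 {p d : ℕ} (hp : p.Prime) (hd : d.Prime) (hd4 : d % 4 = 3)
    (hpd : p ≠ d) {n : ℕ} (hn : 1 ≤ n) : 4 ∣ repCount2 p d n + repCount2 p d (d * n) := by
  rw [← ZMod.natCast_eq_zero_iff]
  have hdn : 1 ≤ d * n := Nat.mul_pos hd.pos hn
  have h4 : (4 : ZMod 4) = 0 := rfl
  have hcop : Nat.Coprime p d := (Nat.coprime_primes hp hd).mpr hpd
  have hiff : p ∣ d * n ↔ p ∣ n := hcop.dvd_mul_left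
  obtain ⟨x, hx⟩ := even_repCount hd4 hn
  rw [Nat.cast_add, repCount2_mod_four hp.pos hd4 hn, repCount2_mod_four hp.pos hd4 hdn,
    repCount_mul hd hd4]
  by_cases hdiv : p ∣ n
  · rw [if_pos hdiv, if_pos (hiff.mpr hdiv)]
    have h5 : d * n / p = d * (n / p) := Nat.mul_div_assoc d hdiv
    have hnp : 1 ≤ n / p := Nat.div_pos (Nat.le_of_dvd hn hdiv) hp.pos
    obtain ⟨y, hy⟩ := even_repCount hd4 hnp
    rw [h5, repCount_mul hd hd4, hx, hy]
    push_cast
    have h6 : ((x : ZMod 4) + x + (y + y) + (x + x + (y + y))) = 4 * (x + y) := by ring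
    rw [h6, h4, zero_mul]
  · rw [if_neg hdiv, if_neg (fun h => hdiv (hiff.mp h)), hx]
    push_cast
    have h6 : ((x : ZMod 4) + x + 0 + (x + x + 0)) = 4 * x := by ring
    rw [h6, h4, zero_mul]

end Arith

/-! ### The contract -/

/-- Package P6: the arithmetic of the representation numbers. -/
theorem repArith {p d : ℕ} (hp : p.Prime) (hd : d.Prime) (hd4 : d % 4 = 3) (hpd : p ≠ d) :
    RepArith p d where
  finite := fun n => Arith.finite_rep hd4 n
  finite2 := fun n => Arith.finite_rep2 hp.pos hd4 n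
  zero := Arith.repCount_zero hd4
  even := fun _ hn => Arith.even_repCount hd4 hn
  mul := fun n => Arith.repCount_mul hd hd4 n
  conv := fun n => Arith.repCount2_conv hp.pos hd4 n
  zero2 := Arith.repCount2_zero hp.pos hd4
  four_dvd := fun _ hn => Arith.four_dvd_repCount2 hp hd hd4 hpd hn

end

end Fermat.Agent.S16.ThetaLower
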