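import Mathlib
import Fermat.Prelude.Thm_CongruenceSubgroup_one_mem_strictPeriods_Gamma0
import Fermat.Agent.S16.Plan
import Fermat.Agent.S16.PairFricke
import Fermat.Agent.S16.TraceDirect
import Fermat.Agent.S16.TracePair

/-!
# S16, theta route, package P9a: a form of weight 2 and prime level with `a₀ = 0` is a cusp form

`G ∈ M₂(Γ₀(p))`, `a₀(G) = 0`.  The Fricke image `G♭(z) = (p z)⁻² G(-1/(p z))` is `-U_p G / p`
(the field `weightTwo` of `PairAPI`, i.e. the trace principle and `M₂(SL₂(ℤ)) = 0`), so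
`a₀(G♭) = 0` as well.  Every `γ ∈ SL₂(ℤ)` outside `Γ₀(p)` is `g · S T^j` with `g ∈ Γ₀(p)`, and
`(G ∣ S T^j)(z) = G♭((z + j)/p)`.  Hence every `SL₂(ℤ)`-translate of `G` vanishes at `i∞`.
-/

set_option autoImplicit false

namespace Fermat.Agent.S16.ThetaLower

open UpperHalfPlane hiding I
open ModularForm CongruenceSubgroup Complex Filter Topology
open scoped MatrixGroups ModularForm Manifold Real

noncomputable section

namespace CuspZero

/-- A modular form on `Γ₀(N)` whose `q`-expansion has constant term `0` vanishes at `i∞`. -/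
theorem isZeroAtImInfty_of_coeff_zero {N : ℕ} {k : ℤ} (G : ModularForm (Gamma0 N) k)
    (h0 : (qExpansion 1 G).coeff 0 = 0) : IsZeroAtImInfty (G : ℍ → ℂ) := by
  have hΓ := CongruenceSubgroup.one_mem_strictPeriods_Gamma0 N
  have hanal := ModularFormClass.analyticAt_cuspFunction_zero G one_pos hΓ
  have hper := SlashInvariantFormClass.periodic_comp_ofComplex G hΓ
  have hval : valueAtInfty (G : ℍ → ℂ) = 0 := by
    rw [← qExpansion_coeff_zero one_pos hanal hper]; exact h0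
  simp_rw [IsZeroAtImInfty, ZeroAtFilter, ← hval, ← cuspFunction_apply_zero one_pos hanal hper]
  exact (hanal.continuousAt.tendsto.comp (UpperHalfPlane.qParam_tendsto_atImInfty one_pos)).congr
    (fun τ ↦ SlashInvariantFormClass.eq_cuspFunction G τ hΓ one_ne_zero)

/-- `z ↦ (z + j)/p` tends to `i∞` at `i∞`. -/
theorem tendsto_shiftPt (p : ℕ) [NeZero p] (j : ℤ) :
    Tendsto (Fermat.Agent.S16.TraceDirect.shiftPt p j) atImInfty atImInfty := by
  have hp : (0 : ℝ) < p := Nat.cast_pos.mpr (NeZero.pos p)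
  rw [atImInfty, tendsto_comap_iff]
  have h1 : (UpperHalfPlane.im ∘ Fermat.Agent.S16.TraceDirect.shiftPt p j) =
      fun z : ℍ => z.im / p := by
    funext z
    change (((z : ℂ) + j) / p).im = z.im / p
    rw [show ((p : ℕ) : ℂ) = ((p : ℝ) : ℂ) by norm_cast, Complex.div_ofReal_im]
    simp
  rw [h1]
  exact tendsto_comap.atTop_div_const hp

/-- Every matrix of `SL₂(ℤ)` outside `Γ₀(p)` is `g · S T^j` with `g ∈ Γ₀(p)`. -/
theorem exists_mul_cj {p : ℕ} (hp : p.Prime) (γ : SL(2, ℤ)) (hγ : ¬ (p : ℤ) ∣ γ 1 0) :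
    ∃ (g : SL(2, ℤ)) (j : ℤ), g ∈ Gamma0 p ∧ γ = g * Fermat.Agent.S16.TraceDirect.cj j := by
  -- `u` with `c u ≡ 1 mod p`
  have hcop : IsCoprime (γ 1 0) (p : ℤ) := by
    rw [isCoprime_comm]
    exact (Nat.prime_iff_prime_int.mp hp).coprime_iff_not_dvd.mpr hγ
  obtain ⟨u, v, huv⟩ := hcop
  have hdet : γ 0 0 * γ 1 1 - γ 0 1 * γ 1 0 = 1 := by
    have := γ.det_coe
    rw [Matrix.det_fin_two] at this
    exact this
  set j : ℤ := γ 1 1 * u with hj
  have hdet' : (!![γ 0 0 * j - γ 0 1, γ 0 0; γ 1 0 * j - γ 1 1, γ 1 0] :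
      Matrix (Fin 2) (Fin 2) ℤ).det = 1 := by
    rw [Matrix.det_fin_two_of]
    linear_combination hdet
  let g : SL(2, ℤ) := ⟨!![γ 0 0 * j - γ 0 1, γ 0 0; γ 1 0 * j - γ 1 1, γ 1 0], hdet'⟩
  refine ⟨g, j, ?_, ?_⟩
  · apply Fermat.Agent.S16.TraceDirect.mem_Gamma0_of_dvd
    refine ⟨-(γ 1 1 * v), ?_⟩
    change γ 1 0 * j - γ 1 1 = (p : ℤ) * -(γ 1 1 * v)
    rw [hj]
    linear_combination (γ 1 1) * huv
  · ext a b
    rw [Matrix.SpecialLinearGroup.coe_mul]
    fin_cases a <;> fin_cases b <;>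
      simp [g, Fermat.Agent.S16.TraceDirect.cj, Matrix.mul_apply, Fin.sum_univ_two]

end CuspZero

open CuspZero in
/-- **P9a**: a modular form of weight 2 and prime level whose `q`-expansion has constant term `0`
is a cusp form. -/
theorem cuspForm_of_coeff_zero (p : ℕ) [Fact p.Prime] (G : ModularForm (Gamma0 p) 2)
    (h0 : (qExpansion 1 G).coeff 0 = 0) :
    ∃ f : CuspForm (Gamma0 p) 2, (f : ℍ → ℂ) = G := by
  have hp : p.Prime := Fact.out
  obtain ⟨F, F', hflat, hFA, hFB⟩ := Fermat.Agent.S16.isPair_weightTwo p G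
  have hFG : (F : ℍ → ℂ) = G :=
    (Fermat.Agent.S16.PairFricke.nice_coe p F).eq_of_qExp_eq
      (Fermat.Agent.S16.PairFricke.nice_coe p G) hFA
  have hF'0 : (qExpansion 1 F').coeff 0 = 0 := by
    rw [hFB, map_smul, Fermat.Agent.S16.psU, PowerSeries.coeff_mk, mul_zero, h0, smul_zero]
  have hzG := isZeroAtImInfty_of_coeff_zero G h0
  have hzF' := isZeroAtImInfty_of_coeff_zero F' hF'0
  have hrel : ∀ z w : ℍ, (w : ℂ) = -1 / ((p : ℂ) * z) →
      F' z = ((p : ℂ) * z) ^ (-(2 : ℤ)) * G w := by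
    intro z w hw
    have hwz : w = Fermat.Agent.S16.frickePt p z := UpperHalfPlane.ext hw
    rw [hflat z, hFG, hwz]
  have hz : ∀ γ : SL(2, ℤ), IsZeroAtImInfty ((G : ℍ → ℂ) ∣[(2 : ℤ)] γ) := by
    intro γ
    by_cases hγ : (p : ℤ) ∣ γ 1 0
    · rw [Fermat.Agent.S16.TraceDirect.slash_mem G
        (Fermat.Agent.S16.TraceDirect.mem_Gamma0_of_dvd hγ)]
      exact hzG
    · obtain ⟨g, j, hg, rfl⟩ := exists_mul_cj hp γ hγ
      rw [Fermat.Agent.S16.TraceDirect.slash_mem_mul G hg]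
      have hfun : ((G : ℍ → ℂ) ∣[(2 : ℤ)] Fermat.Agent.S16.TraceDirect.cj j) =
          (F' : ℍ → ℂ) ∘ Fermat.Agent.S16.TraceDirect.shiftPt p j := by
        funext z
        exact Fermat.Agent.S16.TraceDirect.slash_cj_apply G F' hrel j z
      rw [hfun]
      exact hzF'.comp (tendsto_shiftPt p j)
  refine ⟨{ toSlashInvariantForm := G.toSlashInvariantForm
            holo' := G.holo'
            zero_at_cusps' := ?_ }, rfl⟩
  intro c hc
  rw [Subgroup.IsArithmetic.isCusp_iff_isCusp_SL2Z] at hc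
  rw [OnePoint.isZeroAt_iff_forall_SL2Z hc]
  intro γ _
  exact hz γ

end

end Fermat.Agent.S16.ThetaLower
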