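/-
S16, lower bound by binary theta series — package P5 (owner: helper75):
the form `F_d(τ) = θ_d(τ) θ_d(pτ)` on `Γ₀(dp)`: modularity, `q`-expansion, Atkin–Lehner law.

Contract: `fdStmt : FdStmt p d` from `ThetaBasics d`, `ThetaChar d`, `RepArith p d`.
-/
import Mathlib
import Fermat.Agent.S16.ThetaLower.Contracts
import Fermat.Agent.Lib.DeltaSlash
import Fermat.Agent.Lib.DeltaLevelN
import Fermat.Agent.Lib.VVAnalytic
import Fermat.Agent.Lib.CuspLaurent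

set_option autoImplicit false

namespace Fermat.Agent.S16.ThetaLower

open UpperHalfPlane hiding I
open ModularForm CongruenceSubgroup Complex Filter
open scoped MatrixGroups ModularForm Manifold Real Topology
open Fermat.Agent.Lib.DeltaSlash (exists_decomp coe_sl_smul sl_denom_ne_zero im_affine_pos)
open Fermat.Agent.S23 (IsMF G0)

noncomputable section

namespace Fd

/-! ### Points of `ℍ` -/

/-- The point `n τ` of `ℍ`. -/
def scale (n : ℕ) (τ : ℍ) : ℍ := ofComplex ((n : ℂ) * τ)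

theorem im_scale_pos {n : ℕ} (hn : n ≠ 0) (τ : ℍ) : 0 < ((n : ℂ) * (τ : ℂ)).im := by
  have h : ((n : ℂ) * (τ : ℂ)).im = n * τ.im := by simp
  rw [h]
  have := τ.im_pos
  have hn' : (0 : ℝ) < n := Nat.cast_pos.mpr (Nat.pos_of_ne_zero hn)
  positivity

theorem coe_scale {n : ℕ} (hn : n ≠ 0) (τ : ℍ) : ((scale n τ : ℍ) : ℂ) = (n : ℂ) * τ := by
  rw [scale, ofComplex_apply_of_im_pos (im_scale_pos hn τ)]

theorem scale_eq_of_coe {n : ℕ} (hn : n ≠ 0) {τ τ' : ℍ} (h : (τ' : ℂ) = (n : ℂ) * τ) :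
    τ' = scale n τ :=
  UpperHalfPlane.ext (h.trans (coe_scale hn τ).symm)

/-- `τ ↦ f (n τ)`. -/
def comp (n : ℕ) (f : ℍ → ℂ) : ℍ → ℂ := fun τ => f (scale n τ)

theorem mdiff_comp {n : ℕ} (hn : n ≠ 0) {f : ℍ → ℂ} (hf : MDiff f) : MDiff (comp n f) := by
  rw [UpperHalfPlane.mdifferentiable_iff]
  have hΔ : DifferentiableOn ℂ (f ∘ ofComplex) {z | 0 < z.im} :=
    (UpperHalfPlane.mdifferentiable_iff).mp hf
  have hN0 : (0 : ℝ) < n := Nat.cast_pos.mpr (Nat.pos_of_ne_zero hn)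
  have hmaps : Set.MapsTo (fun w : ℂ => (n : ℂ) * w) {z | 0 < z.im} {z | 0 < z.im} := by
    intro w hw
    simp only [Set.mem_ofPred_eq] at hw ⊢
    have : ((n : ℂ) * w).im = n * w.im := by simp
    rw [this]
    positivity
  have hmap : DifferentiableOn ℂ (fun w : ℂ => (n : ℂ) * w) {z | 0 < z.im} :=
    (differentiable_id.const_mul _).differentiableOn
  refine (hΔ.comp hmap hmaps).congr ?_
  intro w hw
  simp only [Set.mem_ofPred_eq] at hw
  simp [comp, scale, ofComplex_apply_of_im_pos hw]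

/-! ### The transformation law of `θ_d` at a point -/

/-- The nebentypus of `θ_d`. -/
def chi (d : ℕ) (γ : SL(2, ℤ)) : ℂ := ((jacobiSym (γ 1 1) d : ℤ) : ℂ)

theorem denom_eq (γ : SL(2, ℤ)) (τ : ℍ) : denom γ τ = (γ 1 0 : ℂ) * τ + (γ 1 1 : ℂ) := by
  simp [denom]

/-- `θ_d (γ τ) = χ(γ) (c τ + δ) θ_d(τ)` for `γ ∈ Γ₀(d)`. -/
theorem theta_smul {d : ℕ} (hC : ThetaChar d) {γ : SL(2, ℤ)} (hγ : γ ∈ Gamma0 d) (τ : ℍ) :
    thetaD d (γ • τ) = chi d γ * ((γ 1 0 : ℂ) * τ + (γ 1 1 : ℂ)) * thetaD d τ := by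
  have h := congrFun (hC.slash γ hγ) τ
  rw [SL_slash_apply, denom_eq, Pi.smul_apply, smul_eq_mul, zpow_neg, zpow_one] at h
  have hne := sl_denom_ne_zero γ τ
  rw [chi]
  field_simp at h
  rw [h]
  ring

/-- `(θ_d ∣[1] g)(τ) (c τ + δ) = θ_d (g τ)` for every `g`. -/
theorem theta_slash_mul {d : ℕ} (g : SL(2, ℤ)) (τ : ℍ) :
    (thetaD d ∣[(1 : ℤ)] g) τ * ((g 1 0 : ℂ) * τ + (g 1 1 : ℂ)) = thetaD d (g • τ) := by
  rw [SL_slash_apply, denom_eq, zpow_neg, zpow_one]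
  have hne := sl_denom_ne_zero g τ
  field_simp

/-! ### Invariance of `F_d` under `Γ₀(d p)` -/

/-- `F_d(τ) = θ_d(τ) θ_d(pτ)`. -/
def fdFun (p d : ℕ) : ℍ → ℂ := fun τ => thetaD d τ * thetaD d (scale p τ)

/-- The matrix `[a, n b; c / n, δ]` attached to `γ = [a, b; c, δ]` with `n ∣ c`. -/
def conjMat (n : ℕ) (γ : SL(2, ℤ)) (c' : ℤ) (hc : γ 1 0 = n * c') : SL(2, ℤ) :=
  ⟨!![γ 0 0, n * γ 0 1; c', γ 1 1], by
    rw [Matrix.det_fin_two_of]
    have h := γ.det_coe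
    rw [Matrix.det_fin_two, hc] at h
    linarith⟩

theorem scale_smul {n : ℕ} (hn : n ≠ 0) (γ : SL(2, ℤ)) (c' : ℤ) (hc : γ 1 0 = n * c') (τ : ℍ) :
    scale n (γ • τ) = conjMat n γ c' hc • scale n τ := by
  apply UpperHalfPlane.ext
  rw [coe_scale hn, coe_sl_smul, coe_sl_smul, coe_scale hn]
  have h1 := sl_denom_ne_zero γ τ
  have hcC : (γ 1 0 : ℂ) = (n : ℂ) * (c' : ℂ) := by exact_mod_cast hc
  have e00 : ((conjMat n γ c' hc) 0 0 : ℤ) = γ 0 0 := rfl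
  have e01 : ((conjMat n γ c' hc) 0 1 : ℤ) = n * γ 0 1 := rfl
  have e10 : ((conjMat n γ c' hc) 1 0 : ℤ) = c' := rfl
  have e11 : ((conjMat n γ c' hc) 1 1 : ℤ) = γ 1 1 := rfl
  rw [e00, e01, e10, e11]
  have h2 : (c' : ℂ) * ((n : ℂ) * τ) + (γ 1 1 : ℂ) = (γ 1 0 : ℂ) * τ + (γ 1 1 : ℂ) := by
    rw [hcC]; ring
  push_cast
  rw [h2]
  field_simp

theorem fdFun_smul {p d : ℕ} (hp : p ≠ 0) (hC : ThetaChar d) {γ : SL(2, ℤ)}
    (hγ : γ ∈ Gamma0 (d * p)) (τ : ℍ) :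
    fdFun p d (γ • τ) = ((γ 1 0 : ℂ) * τ + (γ 1 1 : ℂ)) ^ 2 * fdFun p d τ := by
  rw [Fermat.Agent.Lib.DeltaLevelN.mem_Gamma0_iff_dvd] at hγ
  obtain ⟨c'', hc''⟩ := hγ
  have hγd : γ ∈ Gamma0 d := by
    rw [Fermat.Agent.Lib.DeltaLevelN.mem_Gamma0_iff_dvd]
    exact ⟨p * c'', by rw [hc'']; push_cast; ring⟩
  have hc : γ 1 0 = p * ((d : ℤ) * c'') := by rw [hc'']; push_cast; ring
  have hγ'd : conjMat p γ ((d : ℤ) * c'') hc ∈ Gamma0 d := by
    rw [Fermat.Agent.Lib.DeltaLevelN.mem_Gamma0_iff_dvd]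
    exact ⟨c'', rfl⟩
  have hcop : Int.gcd (γ 1 1) d = 1 := by
    have h := γ.det_coe
    rw [Matrix.det_fin_two, hc''] at h
    rw [← Int.isCoprime_iff_gcd_eq_one]
    exact ⟨γ 0 0, -(γ 0 1 * p * c''), by push_cast at h ⊢; linear_combination h⟩
  have hchi : chi d γ * chi d γ = 1 := by
    have h := jacobiSym.sq_one hcop
    rw [chi]
    have h' : ((jacobiSym (γ 1 1) d : ℤ) : ℂ) ^ 2 = 1 := by exact_mod_cast h
    rw [← sq]; exact h'
  have hchi' : chi d (conjMat p γ ((d : ℤ) * c'') hc) = chi d γ := rfl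
  rw [fdFun, fdFun, theta_smul hC hγd, scale_smul hp γ _ hc, theta_smul hC hγ'd, hchi']
  have e10 : ((conjMat p γ ((d : ℤ) * c'') hc) 1 0 : ℤ) = (d : ℤ) * c'' := rfl
  have e11 : ((conjMat p γ ((d : ℤ) * c'') hc) 1 1 : ℤ) = γ 1 1 := rfl
  rw [e10, e11, coe_scale hp]
  have hcC : (γ 1 0 : ℂ) = (p : ℂ) * (((d : ℤ) * c'' : ℤ) : ℂ) := by exact_mod_cast hc
  have h2 : (((d : ℤ) * c'' : ℤ) : ℂ) * ((p : ℂ) * τ) + (γ 1 1 : ℂ)
      = (γ 1 0 : ℂ) * τ + (γ 1 1 : ℂ) := by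
    rw [hcC]; ring
  rw [h2]
  linear_combination ((γ 1 0 : ℂ) * τ + (γ 1 1 : ℂ)) ^ 2 * thetaD d τ * thetaD d (scale p τ) * hchi

theorem fdFun_slash {p d : ℕ} (hp : p ≠ 0) (hC : ThetaChar d) {γ : SL(2, ℤ)}
    (hγ : γ ∈ Gamma0 (d * p)) : fdFun p d ∣[(2 : ℤ)] γ = fdFun p d := by
  funext τ
  rw [slash_action_eq'_iff]
  exact_mod_cast fdFun_smul hp hC hγ τ

/-! ### The cusps -/

/-- Every `SL(2,ℤ)`-translate of `F_d` is a product of translates of `θ_d`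
(Hermite decomposition `diag(p,1) g = δ [a, b; 0, e]`). -/
theorem fdFun_slash_apply {p d : ℕ} [NeZero p] (g : SL(2, ℤ)) :
    ∃ (a b e : ℕ) (δ : SL(2, ℤ)), a ≠ 0 ∧ e ≠ 0 ∧ ∀ τ : ℍ,
      (fdFun p d ∣[(2 : ℤ)] g) τ = (thetaD d ∣[(1 : ℤ)] g) τ *
        ((e : ℂ)⁻¹ * (thetaD d ∣[(1 : ℤ)] δ) (ofComplex (((a : ℂ) * τ + b) / e))) := by
  obtain ⟨a, b, e, δ, hae, hbe, -, h00, h01, h10, h11⟩ := exists_decomp p g
  have hp0 : p ≠ 0 := NeZero.ne p
  have ha0 : a ≠ 0 := by rintro rfl; simp at hae; exact hp0 hae.symm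
  have he0 : e ≠ 0 := by rintro rfl; simp at hae; exact hp0 hae.symm
  refine ⟨a, b, e, δ, ha0, he0, fun τ => ?_⟩
  have haC : (a : ℂ) ≠ 0 := by exact_mod_cast ha0
  have heC : (e : ℂ) ≠ 0 := by exact_mod_cast he0
  have hwim : 0 < (((a : ℂ) * τ + b) / e).im := im_affine_pos ha0 he0 b τ
  obtain ⟨w, hw⟩ : ∃ w : ℍ, (w : ℂ) = ((a : ℂ) * τ + b) / e := ⟨⟨_, hwim⟩, rfl⟩
  have hden := sl_denom_ne_zero g τ
  have c00 : (δ 0 0 : ℂ) * a = p * (g 0 0 : ℂ) := by exact_mod_cast h00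
  have c01 : (δ 0 0 : ℂ) * b + (δ 0 1 : ℂ) * e = p * (g 0 1 : ℂ) := by exact_mod_cast h01
  have c10 : (δ 1 0 : ℂ) * a = (g 1 0 : ℂ) := by exact_mod_cast h10
  have c11 : (δ 1 0 : ℂ) * b + (δ 1 1 : ℂ) * e = (g 1 1 : ℂ) := by exact_mod_cast h11
  have hdenrel : (δ 1 0 : ℂ) * w + (δ 1 1 : ℂ) = ((g 1 0 : ℂ) * τ + (g 1 1 : ℂ)) / e := by
    rw [hw]; field_simp; linear_combination (τ : ℂ) * c10 + c11
  have key : scale p (g • τ) = δ • w := by
    apply UpperHalfPlane.ext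
    rw [coe_scale hp0, coe_sl_smul, coe_sl_smul, hdenrel]
    have hnum : (δ 0 0 : ℂ) * w + (δ 0 1 : ℂ) =
        ((p : ℂ) * ((g 0 0 : ℂ) * τ + (g 0 1 : ℂ))) / e := by
      rw [hw]; field_simp; linear_combination (τ : ℂ) * c00 + c01
    rw [hnum]
    field_simp
  have hw' : ofComplex (((a : ℂ) * τ + b) / e) = w := by
    rw [ofComplex_apply_of_im_pos hwim]; exact UpperHalfPlane.ext hw.symm
  rw [hw']
  have h1 := theta_slash_mul (d := d) g τ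
  have h2 := theta_slash_mul (d := d) δ w
  rw [hdenrel] at h2
  rw [SL_slash_apply (f := fdFun p d), denom_eq, fdFun, key, ← h1, ← h2, zpow_neg]
  have hz2 : ((g 1 0 : ℂ) * τ + (g 1 1 : ℂ)) ^ (2 : ℤ) = ((g 1 0 : ℂ) * τ + (g 1 1 : ℂ)) ^ 2 := by
    norm_cast
  rw [hz2]
  field_simp

theorem isBounded_fdFun_slash {p d : ℕ} [NeZero p] (hC : ThetaChar d) (g : SL(2, ℤ)) :
    IsBoundedAtImInfty (fdFun p d ∣[(2 : ℤ)] g) := by
  obtain ⟨a, b, e, δ, ha0, he0, hform⟩ := fdFun_slash_apply (p := p) (d := d) g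
  have h1 : (thetaD d ∣[(1 : ℤ)] g) =O[atImInfty] (fun _ : ℍ => (1 : ℝ)) := hC.bdd g
  have h2 : (thetaD d ∣[(1 : ℤ)] δ) =O[atImInfty] (fun _ : ℍ => (1 : ℝ)) := hC.bdd δ
  have h3 : (fun z : ℍ => (thetaD d ∣[(1 : ℤ)] δ) (ofComplex (((a : ℂ) * z + b) / e)))
      =O[atImInfty] (fun _ : ℍ => (1 : ℝ)) :=
    h2.comp_tendsto (Fermat.Agent.Lib.DeltaLevelN.tendsto_ofComplex_affine ha0 he0 b)
  have h4 := h1.mul (h3.const_mul_left ((e : ℂ)⁻¹))
  have h5 : (fdFun p d ∣[(2 : ℤ)] g) = fun z : ℍ => (thetaD d ∣[(1 : ℤ)] g) z *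
      ((e : ℂ)⁻¹ * (thetaD d ∣[(1 : ℤ)] δ) (ofComplex (((a : ℂ) * z + b) / e))) := funext hform
  rw [h5]
  have h6 : (fun _ : ℍ => (1 : ℝ) * 1) = (1 : ℍ → ℝ) := by funext; simp
  show _ =O[atImInfty] (1 : ℍ → ℝ)
  rw [← h6]
  exact h4

theorem mdiff_thetaD {d : ℕ} (hB : ThetaBasics d) : MDiff (thetaD d) := by
  have h := hB.mdiff 0
  rwa [hB.coset_zero] at h

/-- `F_d` is a modular form of weight `2` on `Γ₀(d p)`. -/
theorem isMF_fdFun {p d : ℕ} (hp : p ≠ 0) (hd : d ≠ 0) (hB : ThetaBasics d) (hC : ThetaChar d) :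
    IsMF (G0 (d * p)) 2 (fdFun p d) := by
  have : NeZero p := ⟨hp⟩
  have : NeZero (d * p) := ⟨Nat.mul_ne_zero hd hp⟩
  have hθ : MDiff (thetaD d) := mdiff_thetaD hB
  have hF : MDiff (fdFun p d) := hθ.mul (mdiff_comp hp hθ)
  exact Fermat.Agent.Lib.VVAnalytic.isMF_G0_of (d * p) 2 (fdFun p d) hF
    (fun γ hγ => fdFun_slash hp hC hγ) (isBounded_fdFun_slash hC)

/-! ### The `q`-expansion -/

open Fermat.Agent.Lib.CuspLaurent (IsHolCusp)

theorem periodic_of_vadd {f : ℍ → ℂ}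
    (hf : ∀ τ τ' : ℍ, (τ' : ℂ) = τ + 1 → f τ' = f τ) :
    Function.Periodic (f ∘ ofComplex) (1 : ℝ) := by
  intro w
  simp only [Function.comp_apply]
  by_cases hw : 0 < w.im
  · have hw' : 0 < (w + ((1 : ℝ) : ℂ)).im := by simpa using hw
    rw [ofComplex_apply_of_im_pos hw, ofComplex_apply_of_im_pos hw']
    exact hf _ _ (by simp)
  · have hw' : ¬ 0 < (w + ((1 : ℝ) : ℂ)).im := by simpa using hw
    rw [ofComplex_apply_eq_of_im_nonpos (not_lt.mp hw') (not_lt.mp hw)]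

theorem thetaD_vadd_one {d : ℕ} (hB : ThetaBasics d) (τ τ' : ℍ) (h : (τ' : ℂ) = τ + 1) :
    thetaD d τ' = thetaD d τ := by
  have h1 := hB.tLaw 0 τ τ' h
  rw [hB.coset_zero] at h1
  rw [h1]
  simp

theorem isHolCusp_thetaD {d : ℕ} (hB : ThetaBasics d) : IsHolCusp (1 : ℝ) (thetaD d) where
  holo := mdiff_thetaD hB
  per := periodic_of_vadd (thetaD_vadd_one hB)
  bdd := by
    have h := hB.bdd 0
    rwa [hB.coset_zero] at h

theorem isHolCusp_comp {n : ℕ} (hn : n ≠ 0) {f : ℍ → ℂ} (hf : IsHolCusp (1 : ℝ) f) :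
    IsHolCusp (1 : ℝ) (comp n f) where
  holo := mdiff_comp hn hf.holo
  per := by
    intro w
    simp only [Function.comp_apply, comp, scale]
    by_cases hw : 0 < w.im
    · have hw' : 0 < (w + ((1 : ℝ) : ℂ)).im := by simpa using hw
      rw [ofComplex_apply_of_im_pos hw, ofComplex_apply_of_im_pos hw']
      have h1 := (hf.per.nat_mul n) ((n : ℂ) * w)
      simp only [Function.comp_apply] at h1
      have h2 : (n : ℂ) * ((⟨w + ((1 : ℝ) : ℂ), hw'⟩ : ℍ) : ℂ) = (n : ℂ) * w + ((n : ℝ) * (1 : ℝ) : ℝ) := by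
        show (n : ℂ) * (w + ((1 : ℝ) : ℂ)) = _
        push_cast; ring
      have h3 : (n : ℂ) * ((⟨w, hw⟩ : ℍ) : ℂ) = (n : ℂ) * w := rfl
      rw [h2, h3]
      exact_mod_cast h1
    · have hw' : ¬ 0 < (w + ((1 : ℝ) : ℂ)).im := by simpa using hw
      rw [ofComplex_apply_eq_of_im_nonpos (not_lt.mp hw') (not_lt.mp hw)]
  bdd := by
    have h2 : f =O[atImInfty] (fun _ : ℍ => (1 : ℝ)) := hf.bdd
    have h3 := h2.comp_tendsto
      (Fermat.Agent.Lib.DeltaLevelN.tendsto_ofComplex_affine hn one_ne_zero 0)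
    have h4 : (f ∘ fun z : ℍ => ofComplex (((n : ℂ) * z + ((0 : ℕ) : ℂ)) / ((1 : ℕ) : ℂ)))
        = comp n f := by
      funext z
      simp [comp, scale]
    rw [h4] at h3
    exact h3

/-- The coefficients of `θ_d(p τ)`. -/
def coeffV (p d : ℕ) (j : ℕ) : ℂ := if p ∣ j then (repCount d (j / p) : ℂ) else 0

theorem hasSum_thetaD {d : ℕ} (hB : ThetaBasics d) (τ : ℍ) :
    HasSum (fun m : ℕ => (repCount d m : ℂ) • Function.Periodic.qParam 1 τ ^ m) (thetaD d τ) := by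
  have h := UpperHalfPlane.hasSum_qExpansion (h := 1) one_pos (isHolCusp_thetaD hB).per
    (isHolCusp_thetaD hB).holo (isHolCusp_thetaD hB).bdd τ
  simpa [hB.qexp] using h

theorem qParam_scale {n : ℕ} (hn : n ≠ 0) (τ : ℍ) :
    Function.Periodic.qParam 1 (scale n τ) = Function.Periodic.qParam 1 τ ^ n := by
  rw [coe_scale hn, Function.Periodic.qParam, Function.Periodic.qParam, ← Complex.exp_nat_mul]
  congr 1
  push_cast
  ring

theorem hasSum_comp_thetaD {p d : ℕ} (hp : p ≠ 0) (hB : ThetaBasics d) (τ : ℍ) :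
    HasSum (fun j : ℕ => coeffV p d j • Function.Periodic.qParam 1 τ ^ j)
      (comp p (thetaD d) τ) := by
  have h := hasSum_thetaD hB (scale p τ)
  rw [qParam_scale hp] at h
  have hinj : Function.Injective (fun m : ℕ => p * m) :=
    fun a b hab => Nat.eq_of_mul_eq_mul_left (Nat.pos_of_ne_zero hp) hab
  refine (hinj.hasSum_iff ?_).mp ?_
  · intro j hj
    have hpj : ¬ p ∣ j := fun ⟨m, hm⟩ => hj ⟨m, hm.symm⟩
    simp [coeffV, hpj]
  · show HasSum _ (thetaD d (scale p τ))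
    convert h using 2 with m
    simp only [Function.comp_apply, coeffV, dvd_mul_right, if_true,
      Nat.mul_div_cancel_left _ (Nat.pos_of_ne_zero hp), pow_mul]

theorem qExpansion_comp_thetaD {p d : ℕ} (hp : p ≠ 0) (hB : ThetaBasics d) (j : ℕ) :
    (qExpansion 1 (comp p (thetaD d))).coeff j = coeffV p d j :=
  (Fermat.Agent.Lib.CuspLaurent.qExpansion_coeff_unique' one_pos
    ((isHolCusp_comp hp (isHolCusp_thetaD hB)).analyticAt one_pos)
    (hasSum_comp_thetaD hp hB) j).symm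

theorem fdFun_eq (p d : ℕ) : fdFun p d = thetaD d * comp p (thetaD d) := rfl

/-- A sum over the multiples of `p` up to `n`. -/
theorem sum_range_dvd {p : ℕ} (hp : p ≠ 0) (n : ℕ) (g : ℕ → ℂ) :
    ∑ j ∈ Finset.range (n + 1), (if p ∣ j then g j else 0)
      = ∑ b ∈ Finset.range (n + 1), if p * b ≤ n then g (p * b) else 0 := by
  rw [← Finset.sum_filter, ← Finset.sum_filter]
  symm
  refine Finset.sum_nbij' (fun b => p * b) (fun j => j / p) ?_ ?_ ?_ ?_ ?_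
  · intro b hb
    simp only [Finset.mem_filter, Finset.mem_range] at hb ⊢
    exact ⟨by omega, dvd_mul_right _ _⟩
  · intro j hj
    simp only [Finset.mem_filter, Finset.mem_range] at hj ⊢
    obtain ⟨hj1, m, rfl⟩ := hj
    rw [Nat.mul_div_cancel_left _ (Nat.pos_of_ne_zero hp)]
    have hpm : m ≤ p * m := Nat.le_mul_of_pos_left m (Nat.pos_of_ne_zero hp)
    exact ⟨by omega, by omega⟩
  · intro b _
    exact Nat.mul_div_cancel_left _ (Nat.pos_of_ne_zero hp)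
  · intro j hj
    simp only [Finset.mem_filter, Finset.mem_range] at hj
    exact Nat.mul_div_cancel' hj.2
  · intro b _
    rfl

theorem qExpansion_fdFun {p d : ℕ} (hp : p ≠ 0) (hB : ThetaBasics d) (hR : RepArith p d)
    (n : ℕ) : (qExpansion 1 (fdFun p d)).coeff n = (repCount2 p d n : ℂ) := by
  have hθ := isHolCusp_thetaD hB
  rw [fdFun_eq, hθ.qExpansion_mul one_pos (isHolCusp_comp hp hθ), mul_comm,
    PowerSeries.coeff_mul, Finset.Nat.sum_antidiagonal_eq_sum_range_succ_mk, hR.conv n]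
  have h1 : ∀ j ∈ Finset.range n.succ,
      (qExpansion 1 (comp p (thetaD d))).coeff (j, n - j).1
          * (qExpansion 1 (thetaD d)).coeff (j, n - j).2
        = if p ∣ j then (repCount d (n - j) : ℂ) * (repCount d (j / p) : ℂ) else 0 := by
    intro j _
    show (qExpansion 1 (comp p (thetaD d))).coeff j * (qExpansion 1 (thetaD d)).coeff (n - j) = _
    rw [hB.qexp, qExpansion_comp_thetaD hp hB, coeffV]
    split_ifs
    · ring
    · simp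
  rw [Finset.sum_congr rfl h1, Nat.succ_eq_add_one, sum_range_dvd hp n
    (fun j => (repCount d (n - j) : ℂ) * (repCount d (j / p) : ℂ))]
  push_cast
  refine Finset.sum_congr rfl fun b _ => ?_
  rw [Nat.mul_div_cancel_left _ (Nat.pos_of_ne_zero hp)]

/-! ### The Atkin–Lehner law -/

/-- The point `-1/(n τ)`. -/
def frickePt (n : ℕ) (τ : ℍ) : ℍ := ⟨(-(scale n τ : ℂ))⁻¹, (scale n τ).im_inv_neg_coe_pos⟩

theorem coe_frickePt {n : ℕ} (hn : n ≠ 0) (τ : ℍ) :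
    ((frickePt n τ : ℍ) : ℂ) = -1 / ((n : ℂ) * τ) := by
  show (-(scale n τ : ℂ))⁻¹ = _
  rw [coe_scale hn, neg_div, one_div, neg_inv]

/-- The matrix `[-B, a; -d δ, C]` of determinant `d a δ - B C = 1`; it lies in `Γ₀(d)`. -/
def alMat (d : ℕ) (a δ B C : ℤ) (h : (d : ℤ) * a * δ - B * C = 1) : SL(2, ℤ) :=
  ⟨!![-B, a; -((d : ℤ) * δ), C], by
    rw [Matrix.det_fin_two_of]
    linarith⟩

theorem alMat_mem (d : ℕ) (a δ B C : ℤ) (h : (d : ℤ) * a * δ - B * C = 1) :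
    alMat d a δ B C h ∈ Gamma0 d := by
  rw [Fermat.Agent.Lib.DeltaLevelN.mem_Gamma0_iff_dvd]
  exact ⟨-δ, by show -((d : ℤ) * δ) = _; ring⟩

theorem al_ne_zero {d : ℕ} (hd : d ≠ 0) (a δ B C : ℤ) (h : (d : ℤ) * a * δ - B * C = 1)
    (z : ℍ) : (C : ℂ) * z + δ ≠ 0 := by
  have hdC : (d : ℂ) ≠ 0 := by exact_mod_cast hd
  have hz0 : (z : ℂ) ≠ 0 := z.ne_zero
  have e10 : ((alMat d a δ B C h) 1 0 : ℤ) = -((d : ℤ) * δ) := rfl
  have e11 : ((alMat d a δ B C h) 1 1 : ℤ) = C := rfl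
  have hden := sl_denom_ne_zero (alMat d a δ B C h) (frickePt d z)
  rw [e10, e11, coe_frickePt hd z] at hden
  have hden' : ((-((d : ℤ) * δ) : ℤ) : ℂ) * (-1 / ((d : ℂ) * z)) + (C : ℂ)
      = ((C : ℂ) * z + δ) / z := by
    push_cast
    field_simp
    ring
  rw [hden'] at hden
  exact fun h0 => hden (by rw [h0, zero_div])

/-- `θ_d((d a z + B)/(d (C z + δ))) = (C/d) (-i√d) (C z + δ) θ_d(z)` when `d a δ - B C = 1`. -/
theorem theta_al {d : ℕ} (hd : d ≠ 0) (hC : ThetaChar d) (a δ B C : ℤ)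
    (h : (d : ℤ) * a * δ - B * C = 1) (z z' : ℍ)
    (hz' : (z' : ℂ) = ((d : ℂ) * a * z + B) / ((d : ℂ) * ((C : ℂ) * z + δ))) :
    thetaD d z' = ((jacobiSym C d : ℤ) : ℂ) * (-I * (Real.sqrt d : ℂ)) * ((C : ℂ) * z + δ)
      * thetaD d z := by
  have hdC : (d : ℂ) ≠ 0 := by exact_mod_cast hd
  have hz0 : (z : ℂ) ≠ 0 := z.ne_zero
  have hσ := coe_frickePt hd z
  have e10 : ((alMat d a δ B C h) 1 0 : ℤ) = -((d : ℤ) * δ) := rfl
  have e11 : ((alMat d a δ B C h) 1 1 : ℤ) = C := rfl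
  have e00 : ((alMat d a δ B C h) 0 0 : ℤ) = -B := rfl
  have e01 : ((alMat d a δ B C h) 0 1 : ℤ) = a := rfl
  have hden' : ((-((d : ℤ) * δ) : ℤ) : ℂ) * (-1 / ((d : ℂ) * z)) + (C : ℂ)
      = ((C : ℂ) * z + δ) / z := by
    push_cast
    field_simp
    ring
  have hne : (C : ℂ) * z + δ ≠ 0 := al_ne_zero hd a δ B C h z
  have hpt : z' = alMat d a δ B C h • frickePt d z := by
    apply UpperHalfPlane.ext
    rw [hz', coe_sl_smul, e00, e01, e10, e11, hσ, hden']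
    push_cast
    field_simp
    ring
  rw [hpt, theta_smul hC (alMat_mem d a δ B C h), e10, e11, hσ, hden',
    hC.fricke z (frickePt d z) hσ, chi, e11]
  field_simp

/-- `F_d ∣ W_d = -(p/d) F_d`, in the form of the contract. -/
theorem atkinLehner {p d : ℕ} (hp : p ≠ 0) (hd : d ≠ 0) (hC : ThetaChar d)
    (hjac : jacobiSym p d = -1) (F : ℍ → ℂ)
    (hF : ∀ τ τ' : ℍ, (τ' : ℂ) = (p : ℂ) * τ → F τ = thetaD d τ * thetaD d τ')
    (a b c δ : ℤ) (hdet : (d : ℤ) * a * δ - p * b * c = 1) (τ τ' : ℍ)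
    (hτ' : (τ' : ℂ) = ((d : ℂ) * a * τ + b) / ((d : ℂ) * p * c * τ + d * δ)) :
    F τ' = (d : ℂ) * ((p : ℂ) * c * τ + δ) ^ 2 * F τ := by
  have hdC : (d : ℂ) ≠ 0 := by exact_mod_cast hd
  have hpC : (p : ℂ) ≠ 0 := by exact_mod_cast hp
  have h1 : (d : ℤ) * a * δ - b * ((p : ℤ) * c) = 1 := by linarith
  have h2 : (d : ℤ) * a * δ - ((p : ℤ) * b) * c = 1 := by linarith
  have hne0 : (p : ℂ) * c * τ + δ ≠ 0 := by
    have h := al_ne_zero hd a δ b ((p : ℤ) * c) h1 τ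
    push_cast at h
    exact h
  have t1 := theta_al hd hC a δ b ((p : ℤ) * c) h1 τ τ' (by
    rw [hτ']
    push_cast
    congr 1
    ring)
  have t2 := theta_al hd hC a δ ((p : ℤ) * b) c h2 (scale p τ) (scale p τ') (by
    rw [coe_scale hp, coe_scale hp, hτ']
    push_cast
    have hne : (d : ℂ) * p * c * τ + d * δ ≠ 0 := by
      have h : (d : ℂ) * p * c * τ + d * δ = (d : ℂ) * ((p : ℂ) * c * τ + δ) := by ring
      rw [h]
      exact mul_ne_zero hdC hne0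
    have hne' : (c : ℂ) * ((p : ℂ) * τ) + δ ≠ 0 := by
      have h : (c : ℂ) * ((p : ℂ) * τ) + δ = (p : ℂ) * c * τ + δ := by ring
      rw [h]
      exact hne0
    field_simp)
  have hcop : Int.gcd c d = 1 := by
    rw [← Int.isCoprime_iff_gcd_eq_one]
    exact ⟨-((p : ℤ) * b), a * δ, by linear_combination hdet⟩
  have hJ : ((jacobiSym ((p : ℤ) * c) d : ℤ) : ℂ) * ((jacobiSym c d : ℤ) : ℂ) = -1 := by
    rw [jacobiSym.mul_left, hjac]
    have hsq := jacobiSym.sq_one hcop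
    have hsq' : ((jacobiSym c d : ℤ) : ℂ) ^ 2 = 1 := by exact_mod_cast hsq
    push_cast
    linear_combination -hsq'
  have hsqrt : ((Real.sqrt d : ℝ) : ℂ) * ((Real.sqrt d : ℝ) : ℂ) = (d : ℂ) := by
    rw [← Complex.ofReal_mul, Real.mul_self_sqrt (Nat.cast_nonneg d)]
    simp
  rw [hF τ' (scale p τ') (coe_scale hp τ'), hF τ (scale p τ) (coe_scale hp τ), t1, t2,
    coe_scale hp]
  push_cast
  linear_combination
    (-(((p : ℂ) * c * τ + δ) ^ 2) * thetaD d τ * thetaD d (scale p τ)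
        * ((Real.sqrt d : ℝ) : ℂ) * ((Real.sqrt d : ℝ) : ℂ)) * hJ
      + (((p : ℂ) * c * τ + δ) ^ 2 * thetaD d τ * thetaD d (scale p τ)) * hsqrt
      + (((p : ℂ) * c * τ + δ) ^ 2 * thetaD d τ * thetaD d (scale p τ)
          * (((jacobiSym ((p : ℤ) * c) d : ℤ) : ℂ) * ((jacobiSym c d : ℤ) : ℂ))
          * ((Real.sqrt d : ℝ) : ℂ) * ((Real.sqrt d : ℝ) : ℂ)) * (Complex.I_mul_I)

end Fd

/-- **P5.** The form `F_d(τ) = θ_d(τ) θ_d(pτ)`: a modular form of weight `2` on `Γ₀(d p)` with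
`q`-expansion `∑ r(n) qⁿ`, fixed by the Atkin–Lehner operator `W_d` when `(p/d) = -1`. -/
theorem fdStmt {p d : ℕ} (hp : p.Prime) (hd : d.Prime) (_hd4 : d % 4 = 3) (_hpd : p ≠ d)
    (hB : ThetaBasics d) (hC : ThetaChar d) (hR : RepArith p d) : FdStmt p d where
  exists_form := by
    obtain ⟨G, hG⟩ := Fd.isMF_fdFun hp.ne_zero hd.ne_zero hB hC
    refine ⟨G, fun τ τ' h => ?_, fun n => ?_⟩
    · rw [hG, Fd.scale_eq_of_coe hp.ne_zero h]
      rfl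
    · rw [hG]
      exact Fd.qExpansion_fdFun hp.ne_zero hB hR n
  atkinLehner := fun hjac F hF a b c δ hdet τ τ' hτ' =>
    Fd.atkinLehner hp.ne_zero hd.ne_zero hC hjac F hF a b c δ hdet τ τ' hτ'

end

end Fermat.Agent.S16.ThetaLower
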