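import Mathlib
import Fermat.Prelude.Def_ModularForm_HeckeOperatorForms
import Fermat.Prelude.Def_FLTPrelim_Modularity
import Fermat.Prelude.Thm_ModularFormClass_qCoeff_heckeU
import Fermat.Prelude.Thm_CongruenceSubgroup_one_mem_strictPeriods_Gamma0
import Fermat.Agent.S16.Plan
import Fermat.Agent.S16.ThetaLower.Contracts

/-!
# S16, theta route, package P8: the form `F₁ = (F_d + U_d F_d)/2` of level `p`

From the contracts of P4 (`TracePrimeIndex`), P5 (`FdStmt p d`) and P6 (`RepArith p d`) for one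
auxiliary prime `d` with `(p/d) = -1` we get `Fermat.Agent.S16.ThetaFormStmt p`:
a form `F₁ ∈ M₂(Γ₀(p))` with `a₀ = 1` and `a_n ∈ 2ℤ` for `n ≥ 1`.

`F_d ∣ W_d = F_d` (Atkin–Lehner, P5) makes the trace of `F_d` from `Γ₀(dp)` to `Γ₀(p)` equal to
`F_d + U_d F_d` (P4), whose `n`-th coefficient is `r(n) + r(dn)`; it is `2` for `n = 0` and
divisible by `4` for `n ≥ 1` (P6).
-/

set_option autoImplicit false

namespace Fermat.Agent.S16.ThetaLower

open UpperHalfPlane hiding I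
open ModularForm CongruenceSubgroup Complex
open scoped MatrixGroups ModularForm Manifold Real

noncomputable section

/-- The `q`-expansion of the trace `F + U_d F` (as a function on `ℍ`). -/
theorem qExpansion_add_heckeU {N d : ℕ} [NeZero N] (hd : d ≠ 0) (hdN : d ∣ N)
    (F : ModularForm (Gamma0 N) 2) (G : ℍ → ℂ)
    (hG : ∀ τ : ℍ, G τ = F τ + ModularForm.heckeU 2 d F τ) (n : ℕ) :
    (qExpansion 1 G).coeff n = (qExpansion 1 F).coeff n + (qExpansion 1 F).coeff (n * d) := by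
  have hΓ := CongruenceSubgroup.one_mem_strictPeriods_Gamma0 N
  have hGeq : G = ((F + ModularForm.heckeULin 2 hdN F : ModularForm (Gamma0 N) 2) : ℍ → ℂ) := by
    funext τ
    rw [hG τ]
    rfl
  rw [hGeq, FunLike.coe_add,
    ModularForm.qExpansion_add one_pos hΓ F (ModularForm.heckeULin 2 hdN F), map_add]
  congr 1
  have h := ModularFormClass.qCoeff_heckeU F hΓ hd n
  rw [ModularForm.coeffHeckeU_apply] at h
  exact h

/-- **P8** (conditional form): `F₁ = (F_d + U_d F_d)/2`. -/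
theorem thetaForm_of_aux {p d : ℕ} (hp : p.Prime) (hd : d.Prime) (hpd : p ≠ d)
    (hjac : jacobiSym p d = -1) (hF : FdStmt p d) (hR : RepArith p d) (hTr : TracePrimeIndex) :
    Fermat.Agent.S16.ThetaFormStmt p := by
  obtain ⟨F, hFprod, hFcoeff⟩ := hF.exists_form
  have hd0 : d ≠ 0 := hd.ne_zero
  have hdC : (d : ℂ) ≠ 0 := by exact_mod_cast hd0
  have hp0 : p ≠ 0 := hp.ne_zero
  have : NeZero (d * p) := ⟨Nat.mul_ne_zero hd0 hp0⟩
  have hndvd : ¬ d ∣ p := fun h => hpd ((Nat.prime_dvd_prime_iff_eq hd hp).1 h).symm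
  -- Bezout
  have hcop : Nat.Coprime d p := (Nat.coprime_primes hd hp).2 (Ne.symm hpd)
  obtain ⟨a, b, hdet⟩ : ∃ a b : ℤ, (d : ℤ) * a * 1 - p * b * 1 = 1 := by
    refine ⟨Int.gcdA d p, -Int.gcdB d p, ?_⟩
    have h := Int.gcd_eq_gcd_ab (d : ℤ) (p : ℤ)
    rw [Int.gcd_natCast_natCast, hcop] at h
    rw [mul_one, mul_one, mul_neg, sub_neg_eq_add]
    exact_mod_cast h.symm
  -- `F♭ = d F` by Atkin–Lehner
  have hAL := hF.atkinLehner hjac (F : ℍ → ℂ) hFprod a b 1 1 hdet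
  have hFb : ∀ τ τ' : ℍ,
      (τ' : ℂ) = ((d : ℂ) * a * τ + b) / ((d : ℂ) * p * ((1 : ℤ) : ℂ) * τ + d * ((1 : ℤ) : ℂ)) →
        (fun τ : ℍ => (d : ℂ) * F τ) τ =
          ((p : ℂ) * ((1 : ℤ) : ℂ) * τ + ((1 : ℤ) : ℂ)) ^ (-(2 : ℤ)) * F τ' := by
    intro τ τ' hτ'
    have hne : (p : ℂ) * ((1 : ℤ) : ℂ) * τ + ((1 : ℤ) : ℂ) ≠ 0 := by
      intro h0
      have him := congrArg Complex.im h0
      simp at him
      rcases him with h | h
      · exact hp0 h
      · exact τ.im_ne_zero h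
    rw [hAL τ τ' hτ']
    simp only [Int.cast_one, mul_one] at hne ⊢
    field_simp
  obtain ⟨G, hG⟩ := hTr d p hd hp0 hndvd 2 F (fun τ : ℍ => (d : ℂ) * F τ) a b 1 1 hdet hFb
  have hG' : ∀ τ : ℍ, G τ = F τ + ModularForm.heckeU 2 d F τ := by
    intro τ
    rw [hG τ]
    congr 1
    have h1 : (fun τ : ℍ => (d : ℂ) * F τ) = (d : ℂ) • (F : ℍ → ℂ) := rfl
    rw [h1, ModularForm.heckeU_smul, Pi.smul_apply, smul_eq_mul, ← mul_assoc]
    have h2 : (d : ℂ) ^ ((1 : ℤ) - 2) * (d : ℂ) = 1 := by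
      rw [show ((1 : ℤ) - 2) = -1 by norm_num, zpow_neg_one, inv_mul_cancel₀ hdC]
    rw [h2, one_mul]
  have hcoeff : ∀ n : ℕ, (qExpansion 1 G).coeff n =
      (repCount2 p d n : ℂ) + (repCount2 p d (d * n) : ℂ) := by
    intro n
    rw [qExpansion_add_heckeU hd0 (dvd_mul_right d p) F G hG' n, hFcoeff, hFcoeff, mul_comm n d]
  have hΓ := CongruenceSubgroup.one_mem_strictPeriods_Gamma0 p
  refine ⟨(1 / 2 : ℂ) • G, ?_, ?_⟩
  · rw [FunLike.coe_smul, ModularForm.qExpansion_smul one_pos hΓ, map_smul,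
      hcoeff 0, mul_zero, hR.zero2]
    norm_num
  · intro n hn
    obtain ⟨m, hm⟩ := hR.four_dvd n hn
    refine ⟨(m : ℤ), ?_⟩
    rw [FunLike.coe_smul, ModularForm.qExpansion_smul one_pos hΓ, map_smul,
      hcoeff n]
    have h4 : (repCount2 p d n : ℂ) + (repCount2 p d (d * n) : ℂ) = 4 * (m : ℂ) := by
      exact_mod_cast congrArg (Nat.cast : ℕ → ℂ) hm
    rw [h4]
    push_cast
    simp only [smul_eq_mul]
    ring

/-- **P8** (conditional form, with the auxiliary prime chosen by P7). -/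
theorem thetaForm_of {p : ℕ} (hp : p.Prime) (hA : AuxPrimeStmt p)
    (hF : ∀ d : ℕ, d.Prime → d % 4 = 3 → p ≠ d → FdStmt p d)
    (hR : ∀ d : ℕ, d.Prime → d % 4 = 3 → p ≠ d → RepArith p d) (hTr : TracePrimeIndex) :
    Fermat.Agent.S16.ThetaFormStmt p := by
  obtain ⟨d, hd, hd4, hpd, hjac⟩ := hA
  exact thetaForm_of_aux hp hd hpd hjac (hF d hd hd4 hpd) (hR d hd hd4 hpd) hTr

end

end Fermat.Agent.S16.ThetaLower
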