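import Mathlib
import Fermat.Prelude.Def_FLTPrelim_Modularity
import Fermat.Prelude.Thm_CongruenceSubgroup_one_mem_strictPeriods_Gamma0
import Fermat.Agent.S16.Plan

/-!
# S16, theta route, package P9: from `F₁` to the congruence `f ≡ ∑ σ'(k) q^k mod n`

With `E ∈ M₂(Γ₀(p))`, `a₀(E) = (p-1)/24`, `a_k(E) = σ'(k)` (`EisFormStmt p`) and
`F₁ ∈ M₂(Γ₀(p))`, `a₀(F₁) = 1`, `a_k(F₁) ∈ 2ℤ` (`ThetaFormStmt p`), write
`ν = gcd(p-1,12) = x (p-1) + 12 y`, `n = (p-1)/ν`.  Then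

  `G = (1 - n x) E - (n y / 2) F₁`

has `a₀(G) = 0` and `a_k(G) = σ'(k) - n (x σ'(k) + y m_k)`.  A form of weight 2 and level `p` with
`a₀ = 0` is a cusp form (hypothesis `hcusp`, package P9a), which gives the cusp form congruent
to the Eisenstein series modulo `n = eisensteinNumerator p`.
-/

set_option autoImplicit false

namespace Fermat.Agent.S16.ThetaLower

open UpperHalfPlane hiding I
open ModularForm CongruenceSubgroup Complex ModularCurve
open scoped MatrixGroups ModularForm Manifold Real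

noncomputable section

/-- **P9**: the cusp form congruent to `∑ σ'(k) q^k` modulo `n = eisensteinNumerator p`. -/
theorem congSigma_of_theta (p : ℕ) [Fact p.Prime]
    (hθ : 5 ≤ p → Fermat.Agent.S16.ThetaFormStmt p) (hE : Fermat.Agent.S16.EisFormStmt p)
    (hcusp : ∀ G : ModularForm (Gamma0 p) 2, (qExpansion 1 G).coeff 0 = 0 →
      ∃ f : CuspForm (Gamma0 p) 2, (f : ℍ → ℂ) = G) :
    ∃ f : CuspForm (Gamma0 p) 2, ∀ k : ℕ, 1 ≤ k → ∃ c : ℤ,
      ModularFormClass.qCoeff (⇑f) k =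
        (Fermat.Agent.S16.sigmaP p k : ℂ) + (eisensteinNumerator p : ℂ) * (c : ℂ) := by
  have hp : p.Prime := Fact.out
  by_cases h5 : 5 ≤ p
  · obtain ⟨F₁, hF0, hFn⟩ := hθ h5
    obtain ⟨E, hE0, hEn⟩ := hE
    have hΓ := CongruenceSubgroup.one_mem_strictPeriods_Gamma0 p
    set ν : ℕ := Nat.gcd (p - 1) 12 with hν
    set n : ℕ := eisensteinNumerator p with hn
    have hnν : n * ν = p - 1 := Nat.div_mul_cancel (Nat.gcd_dvd_left (p - 1) 12)
    have hnνC : (n : ℂ) * (ν : ℂ) = (p : ℂ) - 1 := by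
      have h1 : ((n * ν : ℕ) : ℂ) = ((p - 1 : ℕ) : ℂ) := by rw [hnν]
      rw [Nat.cast_mul, Nat.cast_sub hp.one_le, Nat.cast_one] at h1
      exact h1
    -- Bezout
    set x : ℤ := Int.gcdA ((p - 1 : ℕ) : ℤ) 12 with hx
    set y : ℤ := Int.gcdB ((p - 1 : ℕ) : ℤ) 12 with hy
    have hbez : (ν : ℤ) = ((p - 1 : ℕ) : ℤ) * x + 12 * y := by
      have h := Int.gcd_eq_gcd_ab ((p - 1 : ℕ) : ℤ) 12
      rw [show Int.gcd ((p - 1 : ℕ) : ℤ) 12 = Nat.gcd (p - 1) 12 from rfl] at h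
      exact h
    have hbezC : (ν : ℂ) = ((p : ℂ) - 1) * (x : ℂ) + 12 * (y : ℂ) := by
      have h := congrArg (Int.cast : ℤ → ℂ) hbez
      push_cast [Nat.cast_sub hp.one_le] at h
      exact h
    let G : ModularForm (Gamma0 p) 2 :=
      ((1 : ℂ) - (n : ℂ) * (x : ℂ)) • E - ((n : ℂ) * (y : ℂ) / 2) • F₁
    have hGcoeff : ∀ k : ℕ, (qExpansion 1 G).coeff k =
        ((1 : ℂ) - (n : ℂ) * (x : ℂ)) * (qExpansion 1 E).coeff k -
          ((n : ℂ) * (y : ℂ) / 2) * (qExpansion 1 F₁).coeff k := by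
      intro k
      have h1 : (G : ℍ → ℂ) = ⇑(((1 : ℂ) - (n : ℂ) * (x : ℂ)) • E) -
          ⇑(((n : ℂ) * (y : ℂ) / 2) • F₁) := rfl
      rw [h1, ModularForm.qExpansion_sub one_pos hΓ, map_sub, FunLike.coe_smul, FunLike.coe_smul,
        ModularForm.qExpansion_smul one_pos hΓ, ModularForm.qExpansion_smul one_pos hΓ,
        map_smul, map_smul, smul_eq_mul, smul_eq_mul]
    have hG0 : (qExpansion 1 G).coeff 0 = 0 := by
      rw [hGcoeff 0, hE0, hF0]
      have : ((1 : ℂ) - (n : ℂ) * (x : ℂ)) * (((p : ℂ) - 1) / 24) - (n : ℂ) * (y : ℂ) / 2 * 1 =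
          (((p : ℂ) - 1) - (n : ℂ) * (((p : ℂ) - 1) * (x : ℂ) + 12 * (y : ℂ))) / 24 := by ring
      rw [this, ← hbezC, hnνC, sub_self, zero_div]
    obtain ⟨f, hf⟩ := hcusp G hG0
    refine ⟨f, fun k hk => ?_⟩
    obtain ⟨m, hm⟩ := hFn k hk
    refine ⟨-(x * (Fermat.Agent.S16.sigmaP p k : ℤ)) - y * m, ?_⟩
    rw [ModularFormClass.qCoeff, hf, hGcoeff k, hEn k hk, hm]
    push_cast
    ring
  · -- `p ∈ {2, 3}`: `n = 1`
    have hn1 : eisensteinNumerator p = 1 := by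
      have hp2 := hp.two_le
      have hlt : p < 5 := Nat.lt_of_not_le h5
      interval_cases p
      · decide
      · decide
      · exact absurd hp (by decide)
    refine ⟨0, fun k _ => ⟨-(Fermat.Agent.S16.sigmaP p k : ℤ), ?_⟩⟩
    rw [hn1, ModularFormClass.qCoeff]
    have h0 : ((0 : CuspForm (Gamma0 p) 2) : ℍ → ℂ) = 0 := rfl
    rw [h0, qExpansion_zero]
    push_cast
    simp

end

end Fermat.Agent.S16.ThetaLower
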