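import Mathlib
import Fermat.Agent.S16.ThetaLower.Contracts
import Fermat.Agent.Lib.WeilOrbit

/-!
# S16, theta route, package P3: the character law of `θ_d` on `Γ₀(d)` (helper77)

From the contracts `ThetaBasics d` (T-law, coset sum, boundedness, `q`-expansion) and
`ThetaSLaw d` (S-law) of the coset theta functions we deduce `ThetaChar d`:

* `θ_d ∣[1] γ = (γ₁₁ / d) θ_d` for `γ ∈ Γ₀(d)`,
* the Fricke law `θ_d(-1/(dτ)) = -i √d τ θ_d(τ)`,
* boundedness at `i∞` of every `SL(2, ℤ)`-translate of `θ_d`.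

The family `thetaFam d j = thetaCoset d j.val` (`j : ZMod d`) is a Weil family in the sense of
`Fermat.Agent.Lib.WeilOrbit` (`CharLaw.isWeilFamily_thetaFam`), and everything follows from the
orbit formula proved there.
-/

set_option autoImplicit false

namespace Fermat.Agent.S16.ThetaLower

open UpperHalfPlane hiding I
open ModularForm CongruenceSubgroup Complex
open scoped MatrixGroups ModularForm Manifold Real
open Fermat.Agent.Lib.WeilOrbit

noncomputable section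

namespace CharLaw

/-- The coset theta family indexed by `ZMod d`. -/
def thetaFam (d : ℕ) (j : ZMod d) : ℍ → ℂ := thetaCoset d (j.val : ℤ)

/-- The constant `-i/√d` of the S-law. -/
def cSd (d : ℕ) : ℂ := -I / (Real.sqrt d : ℂ)

/-! ## Slashes by `T` and `S` pointwise -/

theorem slash_one_T_apply (f : ℍ → ℂ) (τ : ℍ) :
    (f ∣[(1 : ℤ)] ModularGroup.T) τ = f (ModularGroup.T • τ) := by
  rw [ModularForm.SL_slash_apply]
  have h1 : denom ModularGroup.T τ = 1 := by
    rw [ModularGroup.denom_apply]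
    simp [ModularGroup.T]
  rw [h1]
  simp

theorem slash_one_S_apply (f : ℍ → ℂ) (τ : ℍ) :
    (f ∣[(1 : ℤ)] ModularGroup.S) τ = f (ModularGroup.S • τ) * (τ : ℂ)⁻¹ := by
  rw [ModularForm.SL_slash_apply, ModularGroup.denom_S]
  simp

theorem sum_range_eq_sum_zmod {d : ℕ} [NeZero d] {M : Type*} [AddCommMonoid M] (f : ℕ → M) :
    ∑ n ∈ Finset.range d, f n = ∑ i : ZMod d, f i.val := by
  symm
  refine Finset.sum_nbij' (fun i => i.val) (fun n => (n : ZMod d)) ?_ ?_ ?_ ?_ ?_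
  · intro i _
    exact Finset.mem_range.mpr (ZMod.val_lt i)
  · intro n _
    exact Finset.mem_univ _
  · intro i _
    exact ZMod.natCast_zmod_val i
  · intro n hn
    exact ZMod.val_natCast_of_lt (Finset.mem_range.mp hn)
  · intro i _
    rfl

/-! ## The laws in slash form -/

theorem thetaFam_slash_T {d : ℕ} [NeZero d] (hB : ThetaBasics d) (j : ZMod d) :
    thetaFam d j ∣[(1 : ℤ)] ModularGroup.T
      = (ZMod.stdAddChar (N := d)) (j ^ 2) • thetaFam d j := by
  ext τ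
  rw [slash_one_T_apply, Pi.smul_apply, smul_eq_mul]
  have h1 := hB.tLaw (j.val : ℤ) τ (ModularGroup.T • τ)
    (by rw [modular_T_smul, coe_vadd]; push_cast; ring)
  unfold thetaFam
  rw [h1]
  congr 1
  have h2 : (j ^ 2 : ZMod d) = (((j.val : ℤ) ^ 2 : ℤ) : ZMod d) := by
    push_cast
    rw [ZMod.natCast_zmod_val]
  rw [h2, ZMod.stdAddChar_coe]
  congr 1
  push_cast
  ring

theorem thetaFam_slash_S {d : ℕ} [NeZero d] (hS : ThetaSLaw d) (j : ZMod d) :
    thetaFam d j ∣[(1 : ℤ)] ModularGroup.S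
      = cSd d • ∑ i : ZMod d, (ZMod.stdAddChar (N := d)) (-2 * i * j) • thetaFam d i := by
  ext τ
  rw [slash_one_S_apply, Pi.smul_apply, Finset.sum_apply, smul_eq_mul]
  have h1 := hS (j.val : ℤ) τ (ModularGroup.S • τ)
    (by rw [modular_S_smul, coe_mk, inv_neg, neg_div, one_div])
  unfold thetaFam
  rw [h1, sum_range_eq_sum_zmod]
  have hτ : (τ : ℂ) ≠ 0 := UpperHalfPlane.ne_zero τ
  have hterm : ∀ i : ZMod d,
      cexp (2 * π * I * (-(2 * ((j.val : ℤ) : ℂ) * (i.val : ℕ)) / d)) * thetaCoset d (i.val : ℤ) τ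
        = ((ZMod.stdAddChar (N := d)) (-2 * i * j) • thetaCoset d (i.val : ℤ)) τ := by
    intro i
    rw [Pi.smul_apply, smul_eq_mul]
    congr 1
    have h2 : (-2 * i * j : ZMod d) = ((-(2 * (j.val : ℤ) * (i.val : ℤ)) : ℤ) : ZMod d) := by
      push_cast
      rw [ZMod.natCast_zmod_val, ZMod.natCast_zmod_val]
      ring
    rw [h2, ZMod.stdAddChar_coe]
    congr 1
    push_cast
    ring
  rw [Finset.sum_congr rfl (fun i _ => hterm i)]
  unfold cSd
  field_simp

theorem cSd_sq {d : ℕ} (hd : d ≠ 0) : cSd d ^ 2 * (d : ℂ) = -1 := by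
  unfold cSd
  have h1 : ((Real.sqrt d : ℝ) : ℂ) ^ 2 = (d : ℂ) := by
    rw [← Complex.ofReal_pow, Real.sq_sqrt (Nat.cast_nonneg d)]
    simp
  have h2 : (d : ℂ) ≠ 0 := Nat.cast_ne_zero.mpr hd
  rw [div_pow, h1, neg_sq, I_sq]
  field_simp

/-! ## `θ_d ≠ 0` -/

theorem qf_eq_zero {d : ℕ} (hd4 : d % 4 = 3) (v : ℤ × ℤ) (h : qf d v = 0) : v = 0 := by
  obtain ⟨x, y⟩ := v
  simp only [qf] at h
  have hm : (4 : ℤ) * (((d + 1) / 4 : ℕ) : ℤ) = d + 1 := by
    have : 4 * ((d + 1) / 4) = d + 1 := by omega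
    exact_mod_cast this
  have h4 : (2 * x + y) ^ 2 + (d : ℤ) * y ^ 2 = 0 := by
    linear_combination 4 * h - y ^ 2 * hm
  have hdpos : (0 : ℤ) < d := by
    have : 0 < d := by omega
    exact_mod_cast this
  have hy2 : y ^ 2 = 0 := by
    have h5 : 0 ≤ (2 * x + y) ^ 2 := sq_nonneg _
    have h6 : 0 ≤ y ^ 2 := sq_nonneg _
    nlinarith
  have hy : y = 0 := pow_eq_zero_iff (two_ne_zero) |>.mp hy2
  subst hy
  have hx2 : (2 * x) ^ 2 = 0 := by simpa using h4
  have hx : x = 0 := by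
    have := pow_eq_zero_iff (two_ne_zero) |>.mp hx2
    omega
  subst hx
  rfl

theorem repCount_zero_eq_one {d : ℕ} (hd4 : d % 4 = 3) : repCount d 0 = 1 := by
  unfold repCount
  rw [Nat.card_eq_one_iff_unique]
  refine ⟨⟨fun a b => ?_⟩, ⟨⟨0, by simp [qf]⟩⟩⟩
  apply Subtype.ext
  have ha := qf_eq_zero hd4 a.1 (by simpa using a.2)
  have hb := qf_eq_zero hd4 b.1 (by simpa using b.2)
  rw [ha, hb]

theorem thetaD_ne_zero {d : ℕ} (hd4 : d % 4 = 3) (hB : ThetaBasics d) : thetaD d ≠ 0 := by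
  intro h0
  have h1 := hB.qexp 0
  rw [h0, qExpansion_zero, repCount_zero_eq_one hd4] at h1
  simp at h1

theorem thetaFam_zero {d : ℕ} (hB : ThetaBasics d) : thetaFam d 0 = thetaD d := by
  unfold thetaFam
  rw [ZMod.val_zero, Nat.cast_zero, hB.coset_zero]

theorem stdAddChar_ne_one {d : ℕ} [Fact d.Prime] : (ZMod.stdAddChar (N := d)) ≠ 1 := by
  intro h
  have h1 : (ZMod.stdAddChar (N := d)) 1 = (ZMod.stdAddChar (N := d)) 0 := by
    rw [h]
    simp
  exact one_ne_zero (ZMod.injective_stdAddChar h1)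

/-- **The coset thetas form a Weil family** (weight `1`, `ψ = e(·/d)`, S-kernel `e(-2ij/d)`,
`cS = -i/√d`). -/
theorem isWeilFamily_thetaFam {d : ℕ} [Fact d.Prime] (hd4 : d % 4 = 3) (hB : ThetaBasics d)
    (hS : ThetaSLaw d) :
    IsWeilFamily d 1 (ZMod.stdAddChar (N := d)) (-2) (cSd d) (thetaFam d) where
  slash_T := thetaFam_slash_T hB
  slash_S := thetaFam_slash_S hS
  b_sq := by norm_num
  cS_sq := cSd_sq (Fact.out : d.Prime).ne_zero
  ne_zero := by
    rw [thetaFam_zero hB]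
    exact thetaD_ne_zero hd4 hB

theorem mdiff_thetaFam {d : ℕ} (hB : ThetaBasics d) (j : ZMod d) : MDiff (thetaFam d j) :=
  hB.mdiff _

theorem isBoundedAtImInfty_thetaFam {d : ℕ} (hB : ThetaBasics d) (j : ZMod d) :
    IsBoundedAtImInfty (thetaFam d j) :=
  hB.bdd _

/-! ## The Fricke law -/

theorem thetaD_fricke_of {d : ℕ} [NeZero d] (hB : ThetaBasics d) (hS : ThetaSLaw d) (τ τ' : ℍ)
    (h : (τ' : ℂ) = -1 / ((d : ℂ) * τ)) :
    thetaD d τ' = -I * (Real.sqrt d : ℂ) * τ * thetaD d τ := by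
  have hdpos : (0 : ℝ) < d := Nat.cast_pos.mpr (NeZero.pos d)
  have him : 0 < ((d : ℂ) * (τ : ℂ)).im := by
    have : ((d : ℂ) * (τ : ℂ)).im = (d : ℝ) * τ.im := by simp
    rw [this]
    exact mul_pos hdpos τ.im_pos
  have h1 := hS 0 (UpperHalfPlane.mk ((d : ℂ) * τ) him) τ' (by rw [h])
  have h2 := hB.sum_mul τ (UpperHalfPlane.mk ((d : ℂ) * τ) him) (by rw [coe_mk])
  have hsq : ((Real.sqrt d : ℝ) : ℂ) * ((Real.sqrt d : ℝ) : ℂ) = (d : ℂ) := by
    rw [← Complex.ofReal_mul, Real.mul_self_sqrt (Nat.cast_nonneg d)]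
    simp
  have hne : ((Real.sqrt d : ℝ) : ℂ) ≠ 0 := by
    intro h0
    rw [h0, zero_mul] at hsq
    exact (Nat.cast_ne_zero.mpr (NeZero.ne d)) hsq.symm
  calc thetaD d τ' = thetaCoset d 0 τ' := by rw [hB.coset_zero]
    _ = -I * (UpperHalfPlane.mk ((d : ℂ) * τ) him : ℂ) / (Real.sqrt d : ℂ) *
          ∑ h' ∈ Finset.range d, thetaCoset d (h' : ℤ) (UpperHalfPlane.mk ((d : ℂ) * τ) him) := by
        rw [h1]
        congr 1
        refine Finset.sum_congr rfl fun h' _ => ?_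
        simp
    _ = -I * ((d : ℂ) * τ) / (Real.sqrt d : ℂ) * thetaD d τ := by rw [h2, coe_mk]
    _ = -I * (Real.sqrt d : ℂ) * τ * thetaD d τ := by
        rw [← hsq]
        field_simp

end CharLaw

/-! ## The contract -/

open CharLaw

/-- **Package P3**: the character law, the Fricke law and boundedness at all cusps for `θ_d`. -/
theorem thetaChar {d : ℕ} (hd : d.Prime) (hd4 : d % 4 = 3) (hB : ThetaBasics d)
    (hS : ThetaSLaw d) : ThetaChar d := by
  have : Fact d.Prime := ⟨hd⟩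
  have hW := isWeilFamily_thetaFam hd4 hB hS
  have hψ : (ZMod.stdAddChar (N := d)) ≠ 1 := stdAddChar_ne_one
  have h0 : thetaFam d 0 = thetaD d := thetaFam_zero hB
  refine ⟨?_, ?_, ?_⟩
  · intro γ hγ
    have h1 := hW.slash_zero_of_mem_Gamma0 hd4 hψ γ hγ
    rwa [h0] at h1
  · exact fun τ τ' h => thetaD_fricke_of hB hS τ τ' h
  · intro γ
    have h1 := hW.isBoundedAtImInfty_slash_zero hd4 hψ (fun j => hB.bdd _) γ
    rwa [h0] at h1

end

end Fermat.Agent.S16.ThetaLower
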