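import Mathlib

/-!
# One-variable theta series with a congruence condition (helper1; for the S-law P2 of S16)

`th M r t = ∑_{n ≡ r mod M} exp(π i n² t / M) = ∑_{k ∈ ℤ} exp(π i (M k + r)² t / M)`.

* `th_eq_jacobiTheta₂` : `th M r t = exp(π i r² t / M) · jacobiTheta₂ (r t) (M t)`;
* `th_add_mul_period`   : `th M (r + M k) t = th M r t`;
* `th_add_int`          : `th M r (t + n) = exp(π i r² n / M) · th M r t` for even `M`;
* `th_S`                : `th M r (-1/t) = (-i t / M)^(1/2) ∑_{b < M} exp(-2π i r b / M) th M b t`;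
* `th_mul_arg`, `sum_th_coarse` : rescaling / coarsening of the congruence condition;
* `tsum_int_eq_sum_range_tsum` : splitting a sum over `ℤ` into residue classes.
-/

set_option autoImplicit false

namespace Fermat.Agent.S16.ThetaLower.ThOne

open Complex
open scoped Real

noncomputable section

/-- `th M r t = ∑_{n ≡ r mod M} exp(π i n² t / M)`. -/
def th (M : ℕ) (r : ℤ) (t : ℂ) : ℂ :=
  ∑' k : ℤ, cexp (π * I * ((M : ℂ) * k + r) ^ 2 * t / M)

/-- The summand of `th` in terms of Mathlib's `jacobiTheta₂_term`. -/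
theorem th_term_eq {M : ℕ} (hM : M ≠ 0) (r k : ℤ) (t : ℂ) :
    cexp (π * I * ((M : ℂ) * k + r) ^ 2 * t / M) =
      cexp (π * I * (r : ℂ) ^ 2 * t / M) * jacobiTheta₂_term k (r * t) (M * t) := by
  have hM' : (M : ℂ) ≠ 0 := Nat.cast_ne_zero.mpr hM
  rw [jacobiTheta₂_term, ← Complex.exp_add]
  congr 1
  field_simp
  ring

theorem summable_th_term {M : ℕ} (hM : M ≠ 0) (r : ℤ) {t : ℂ} (ht : 0 < t.im) :
    Summable fun k : ℤ => cexp (π * I * ((M : ℂ) * k + r) ^ 2 * t / M) := by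
  have h1 : Summable fun k : ℤ => jacobiTheta₂_term k (r * t) (M * t) := by
    rw [summable_jacobiTheta₂_term_iff]
    have : ((M : ℂ) * t).im = (M : ℝ) * t.im := by simp
    rw [this]
    exact mul_pos (Nat.cast_pos.mpr (Nat.pos_of_ne_zero hM)) ht
  have h2 := h1.mul_left (cexp (π * I * (r : ℂ) ^ 2 * t / M))
  refine h2.congr fun k => ?_
  rw [th_term_eq hM]

theorem th_eq_jacobiTheta₂ {M : ℕ} (hM : M ≠ 0) (r : ℤ) (t : ℂ) :
    th M r t = cexp (π * I * (r : ℂ) ^ 2 * t / M) * jacobiTheta₂ (r * t) (M * t) := by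
  rw [th, jacobiTheta₂, ← tsum_mul_left]
  exact tsum_congr fun k => th_term_eq hM r k t

theorem th_add_period (M : ℕ) (r : ℤ) (t : ℂ) : th M (r + M) t = th M r t := by
  conv_rhs => rw [th, ← (Equiv.addRight (1 : ℤ)).tsum_eq]
  rw [th]
  refine tsum_congr fun k => ?_
  simp only [Equiv.coe_addRight]
  congr 2
  push_cast
  ring

theorem th_sub_period (M : ℕ) (r : ℤ) (t : ℂ) : th M (r - M) t = th M r t := by
  have := th_add_period M (r - M) t
  rw [sub_add_cancel] at this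
  exact this.symm

theorem th_add_mul_period (M : ℕ) (r k : ℤ) (t : ℂ) : th M (r + M * k) t = th M r t := by
  induction k using Int.induction_on with
  | zero => simp
  | succ n ih =>
    rw [show r + (M : ℤ) * ((n : ℤ) + 1) = (r + M * n) + M by ring, th_add_period, ih]
  | pred n ih =>
    rw [show r + (M : ℤ) * (-(n : ℤ) - 1) = (r + M * (-(n : ℤ))) - M by ring, th_sub_period, ih]

/-- `th` depends on `r` only modulo `M`. -/
theorem th_congr {M : ℕ} {r r' : ℤ} (h : r ≡ r' [ZMOD M]) (t : ℂ) : th M r t = th M r' t := by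
  obtain ⟨k, hk⟩ := h.symm.dvd
  have : r = r' + M * k := by linarith
  rw [this, th_add_mul_period]

/-- The `T`-law: for even `M`, `th M r (t + n) = exp(π i r² n / M) th M r t`. -/
theorem th_add_int {M : ℕ} (hM : M ≠ 0) (hM2 : Even M) (r : ℤ) (t : ℂ) (n : ℤ) :
    th M r (t + n) = cexp (π * I * (r : ℂ) ^ 2 * n / M) * th M r t := by
  obtain ⟨M', hMM⟩ := hM2
  have hc : (M : ℂ) = 2 * (M' : ℂ) := by rw [hMM]; push_cast; ring
  have hM'0 : (M' : ℂ) ≠ 0 := by
    rintro h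
    apply hM
    have : M' = 0 := by exact_mod_cast h
    omega
  rw [th, th, ← tsum_mul_left]
  refine tsum_congr fun k => ?_
  rw [← Complex.exp_add]
  have key : π * I * ((M : ℂ) * k + r) ^ 2 * (t + n) / (M : ℂ) =
      (π * I * (r : ℂ) ^ 2 * n / (M : ℂ) +
        π * I * ((M : ℂ) * k + r) ^ 2 * t / (M : ℂ)) +
        (((M' : ℤ) * k ^ 2 + k * r) * n : ℤ) * (2 * π * I) := by
    rw [hc]
    push_cast
    field_simp
    ring
  rw [key, Complex.exp_add, exp_int_mul_two_pi_mul_I, mul_one]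

/-! ### Splitting a sum over `ℤ` into residue classes -/

theorem summable_residue {M : ℕ} (hM : M ≠ 0) {f : ℤ → ℂ} (hf : Summable f) (b : ℤ) :
    Summable fun k : ℤ => f (M * k + b) := by
  refine hf.comp_injective ?_
  intro k k' hkk
  have hM' : (M : ℤ) ≠ 0 := by exact_mod_cast hM
  exact mul_left_cancel₀ hM' (add_right_cancel hkk)

theorem tsum_int_eq_sum_range_tsum {M : ℕ} (hM : M ≠ 0) {f : ℤ → ℂ} (hf : Summable f) :
    ∑' n : ℤ, f n = ∑ b ∈ Finset.range M, ∑' k : ℤ, f (M * k + b) := by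
  have : NeZero M := ⟨hM⟩
  have hs : Summable (fun p : ℤ × Fin M => f ((Int.divModEquiv M).symm p)) :=
    (Int.divModEquiv M).symm.summable_iff.mpr hf
  have hs' : Summable (fun p : Fin M × ℤ => f ((Int.divModEquiv M).symm (p.2, p.1))) :=
    (Equiv.prodComm (Fin M) ℤ).summable_iff.mpr hs
  calc ∑' n : ℤ, f n = ∑' p : ℤ × Fin M, f ((Int.divModEquiv M).symm p) :=
        ((Int.divModEquiv M).symm.tsum_eq f).symm
    _ = ∑' p : Fin M × ℤ, f ((Int.divModEquiv M).symm (p.2, p.1)) :=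
        ((Equiv.prodComm (Fin M) ℤ).tsum_eq
          (fun p : ℤ × Fin M => f ((Int.divModEquiv M).symm p))).symm
    _ = ∑' b : Fin M, ∑' k : ℤ, f ((Int.divModEquiv M).symm (k, b)) := hs'.tsum_prod
    _ = ∑ b ∈ Finset.range M, ∑' k : ℤ, f (M * k + b) := by
        rw [tsum_fintype, Finset.sum_range]
        refine Finset.sum_congr rfl fun b _ => tsum_congr fun k => ?_
        simp only [Int.divModEquiv_symm_apply]
        congr 1
        ring

/-! ### The `S`-law -/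

theorem th_S_aux {M : ℕ} (hM : M ≠ 0) (r : ℤ) {t : ℂ} (ht : 0 < t.im) :
    th M r (-1 / t) = (-I * (t / M)) ^ (1 / 2 : ℂ) * jacobiTheta₂ (r / M) (t / M) := by
  have hM' : (M : ℂ) ≠ 0 := Nat.cast_ne_zero.mpr hM
  have ht0 : t ≠ 0 := by
    rintro rfl
    simp at ht
  have hfe := jacobiTheta₂_functional_equation ((r : ℂ) / M) (t / M)
  have e1 : (r : ℂ) * (-1 / t) = -(((r : ℂ) / M) / (t / M)) := by
    field_simp
  have e2 : (M : ℂ) * (-1 / t) = -1 / (t / M) := by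
    field_simp
  have e3 : cexp (π * I * (r : ℂ) ^ 2 * (-1 / t) / M) =
      cexp (-π * I * ((r : ℂ) / M) ^ 2 / (t / M)) := by
    congr 1
    field_simp
  have hc : (-I * (t / M)) ^ (1 / 2 : ℂ) ≠ 0 := by
    rw [Ne, Complex.cpow_eq_zero_iff]
    rintro ⟨h, -⟩
    have : t / (M : ℂ) ≠ 0 := div_ne_zero ht0 hM'
    simp [this] at h
  rw [th_eq_jacobiTheta₂ hM, e1, e2, jacobiTheta₂_neg_left, e3]
  conv_rhs => rw [hfe]
  rw [← mul_assoc, ← mul_assoc, mul_one_div_cancel hc, one_mul]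

theorem jacobiTheta₂_div_eq_sum_th {M : ℕ} (hM : M ≠ 0) (r : ℤ) {t : ℂ} (ht : 0 < t.im) :
    jacobiTheta₂ (r / M) (t / M) =
      ∑ b ∈ Finset.range M, cexp (2 * π * I * r * b / M) * th M (b : ℤ) t := by
  have hM' : (M : ℂ) ≠ 0 := Nat.cast_ne_zero.mpr hM
  have him : 0 < (t / (M : ℂ)).im := by
    have : (t / (M : ℂ)).im = t.im / M := by
      rw [div_natCast_im]
    rw [this]
    exact div_pos ht (Nat.cast_pos.mpr (Nat.pos_of_ne_zero hM))
  have hsum : Summable fun n : ℤ => jacobiTheta₂_term n ((r : ℂ) / M) (t / M) :=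
    (summable_jacobiTheta₂_term_iff _ _).mpr him
  rw [jacobiTheta₂, tsum_int_eq_sum_range_tsum hM hsum]
  refine Finset.sum_congr rfl fun b _ => ?_
  rw [th, ← tsum_mul_left]
  refine tsum_congr fun k => ?_
  rw [jacobiTheta₂_term, ← Complex.exp_add]
  have key : 2 * π * I * (((M : ℤ) * k + (b : ℤ) : ℤ) : ℂ) * ((r : ℂ) / M) +
      π * I * (((M : ℤ) * k + (b : ℤ) : ℤ) : ℂ) ^ 2 * (t / M) =
      (2 * π * I * r * b / M + π * I * ((M : ℂ) * k + ((b : ℤ) : ℂ)) ^ 2 * t / M) +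
        ((k * r : ℤ) : ℂ) * (2 * π * I) := by
    push_cast
    field_simp
    ring
  rw [key, Complex.exp_add, exp_int_mul_two_pi_mul_I, mul_one]

/-- The `S`-law for `th`. -/
theorem th_S {M : ℕ} (hM : M ≠ 0) (r : ℤ) {t : ℂ} (ht : 0 < t.im) :
    th M r (-1 / t) = (-I * (t / M)) ^ (1 / 2 : ℂ) *
      ∑ b ∈ Finset.range M, cexp (-(2 * π * I * r * b / M)) * th M (b : ℤ) t := by
  rw [th_S_aux hM r ht]
  congr 1
  have h := jacobiTheta₂_div_eq_sum_th hM (-r) ht
  have e : (((-r : ℤ) : ℂ) / M) = -((r : ℂ) / M) := by push_cast; ring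
  rw [e, jacobiTheta₂_neg_left] at h
  rw [h]
  refine Finset.sum_congr rfl fun b _ => ?_
  congr 2
  push_cast
  ring

/-! ### The product of the two square roots -/

theorem ofReal_mul_cpow' {a : ℝ} (ha : 0 < a) {w : ℂ} (hw : w ≠ 0) (s : ℂ) :
    ((a : ℂ) * w) ^ s = (a : ℂ) ^ s * w ^ s := by
  have ha'' : (a : ℂ) ≠ 0 := ofReal_ne_zero.mpr ha.ne'
  rw [cpow_def_of_ne_zero (mul_ne_zero ha'' hw), log_ofReal_mul ha hw, ofReal_log ha.le,
    add_mul, Complex.exp_add, ← cpow_def_of_ne_zero ha'', ← cpow_def_of_ne_zero hw]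

theorem ofReal_cpow_half {a : ℝ} (ha : 0 ≤ a) : (a : ℂ) ^ (1 / 2 : ℂ) = (Real.sqrt a : ℂ) := by
  rw [Real.sqrt_eq_rpow, Complex.ofReal_cpow ha]
  norm_num

theorem sqrt_mul_sqrt {t : ℂ} (ht : 0 < t.im) {d : ℕ} (hd : d ≠ 0) :
    (-I * (t / ((2 : ℕ) : ℂ))) ^ (1 / 2 : ℂ) * (-I * (t / ((2 * d : ℕ) : ℂ))) ^ (1 / 2 : ℂ) =
      -I * t / (2 * (Real.sqrt d : ℂ)) := by
  have ht0 : t ≠ 0 := by
    rintro rfl
    simp at ht
  have hw : -I * t ≠ 0 := mul_ne_zero (neg_ne_zero.mpr I_ne_zero) ht0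
  have hd' : (0 : ℝ) < d := Nat.cast_pos.mpr (Nat.pos_of_ne_zero hd)
  have hdC : (d : ℂ) ≠ 0 := Nat.cast_ne_zero.mpr hd
  have e1 : -I * (t / ((2 : ℕ) : ℂ)) = ((1 / 2 : ℝ) : ℂ) * (-I * t) := by
    push_cast; ring
  have e2 : -I * (t / ((2 * d : ℕ) : ℂ)) = ((1 / (2 * d) : ℝ) : ℂ) * (-I * t) := by
    push_cast; field_simp
  have hsq : (Real.sqrt d : ℂ) ≠ 0 := by
    rw [Ne, ofReal_eq_zero, Real.sqrt_eq_zero']
    exact not_le.mpr hd'
  have hmul : (-I * t) ^ (1 / 2 : ℂ) * (-I * t) ^ (1 / 2 : ℂ) = -I * t := by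
    rw [← Complex.cpow_add _ _ hw]
    norm_num
  have hreal : Real.sqrt (1 / 2) * Real.sqrt (1 / (2 * d)) = 1 / (2 * Real.sqrt d) := by
    rw [← Real.sqrt_mul (by positivity)]
    have : (1 / 2 : ℝ) * (1 / (2 * d)) = (1 / 2) ^ 2 * (d : ℝ)⁻¹ := by field_simp
    rw [this, Real.sqrt_mul (by positivity), Real.sqrt_sq (by positivity), Real.sqrt_inv]
    field_simp
  rw [e1, e2, ofReal_mul_cpow' (by positivity) hw, ofReal_mul_cpow' (by positivity) hw,
    ofReal_cpow_half (by positivity), ofReal_cpow_half (by positivity)]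
  have hreal' : (Real.sqrt (1 / 2) : ℂ) * (Real.sqrt (1 / (2 * d)) : ℂ) =
      1 / (2 * (Real.sqrt d : ℂ)) := by
    rw [← ofReal_mul, hreal]
    push_cast
    ring
  calc (Real.sqrt (1 / 2) : ℂ) * (-I * t) ^ (1 / 2 : ℂ) *
        ((Real.sqrt (1 / (2 * d)) : ℂ) * (-I * t) ^ (1 / 2 : ℂ))
      = ((Real.sqrt (1 / 2) : ℂ) * (Real.sqrt (1 / (2 * d)) : ℂ)) *
          ((-I * t) ^ (1 / 2 : ℂ) * (-I * t) ^ (1 / 2 : ℂ)) := by ring
    _ = -I * t / (2 * (Real.sqrt d : ℂ)) := by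
        rw [hreal', hmul]
        field_simp

/-! ### Finite reindexing lemmas -/

/-- The sum of a `d`-periodic function over a period does not depend on the starting point. -/
theorem sum_range_periodic_shift {d : ℕ} {G : ℤ → ℂ} (hG : ∀ s, G (s + d) = G s) (m : ℤ) :
    ∑ s ∈ Finset.range d, G (s + m) = ∑ s ∈ Finset.range d, G s := by
  have step : ∀ m : ℤ, ∑ s ∈ Finset.range d, G (s + (m + 1)) = ∑ s ∈ Finset.range d, G (s + m) := by
    intro m
    have h1 : ∑ s ∈ Finset.range (d + 1), G ((s : ℤ) + m) =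
        ∑ s ∈ Finset.range d, G (((s + 1 : ℕ) : ℤ) + m) + G (((0 : ℕ) : ℤ) + m) :=
      Finset.sum_range_succ' (fun s : ℕ => G ((s : ℤ) + m)) d
    have h2 : ∑ s ∈ Finset.range (d + 1), G ((s : ℤ) + m) =
        ∑ s ∈ Finset.range d, G ((s : ℤ) + m) + G ((d : ℤ) + m) :=
      Finset.sum_range_succ (fun s : ℕ => G ((s : ℤ) + m)) d
    have h3 : G ((d : ℤ) + m) = G (((0 : ℕ) : ℤ) + m) := by
      rw [show (d : ℤ) + m = (((0 : ℕ) : ℤ) + m) + d by push_cast; ring, hG]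
    have h4 : ∑ s ∈ Finset.range d, G ((s : ℤ) + (m + 1)) =
        ∑ s ∈ Finset.range d, G (((s + 1 : ℕ) : ℤ) + m) := by
      refine Finset.sum_congr rfl fun s _ => ?_
      congr 1
      push_cast
      ring
    rw [h4]
    have := h1.symm.trans h2
    rw [h3] at this
    exact add_right_cancel this
  induction m using Int.induction_on with
  | zero => simp
  | succ n ih => rw [step, ih]
  | pred n ih =>
    have := step (-(n : ℤ) - 1)
    rw [show -(n : ℤ) - 1 + 1 = -(n : ℤ) by ring] at this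
    rw [← this, ih]

/-- Splitting a sum over `range (2 d)` into even and odd indices. -/
theorem sum_range_two_mul (d : ℕ) (g : ℕ → ℂ) :
    ∑ b ∈ Finset.range (2 * d), g b = ∑ s ∈ Finset.range d, (g (2 * s) + g (2 * s + 1)) := by
  induction d with
  | zero => simp
  | succ n ih =>
    rw [show 2 * (n + 1) = 2 * n + 1 + 1 by ring, Finset.sum_range_succ, Finset.sum_range_succ, ih,
      Finset.sum_range_succ]
    ring

end

end Fermat.Agent.S16.ThetaLower.ThOne
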