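import Mathlib
import Fermat.Prelude.Def_ModularForm_HeckeOperator
import Fermat.Agent.S16.ThetaLower.Defs
import Fermat.Agent.S16.ThetaLower.Contracts
import Fermat.Agent.S16.ThetaLower.ThOne

/-!
# S16, theta route, package P2: the `S`-law for the coset thetas (helper1)

`thetaSLaw : ThetaSLaw d`, i.e.
`ϑ_h(-1/τ) = (-iτ/√d) ∑_{h' mod d} e(-2hh'/d) ϑ_{h'}(τ)`.

Route: Fubini + a parity split write `ϑ_h = th 2 0 · th (2d) (2h) + th 2 1 · th (2d) (d + 2h)`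
(`thetaCoset_eq_th`) with the one-variable series `th` of `ThOne.lean`; each factor has an
`S`-law (`th_S`, from Mathlib's `jacobiTheta₂_functional_equation`); the two square roots multiply
to `-iτ/(2√d)` and a finite reindexing (`finite_S_identity`) recombines the result.
-/

set_option autoImplicit false

namespace Fermat.Agent.S16.ThetaLower

open UpperHalfPlane hiding I
open Complex
open scoped Real

noncomputable section

namespace SLaw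

open ThOne

/-- The summand of `thetaCoset` is a product of two one-variable summands. -/
theorem cosetTerm_eq {d : ℕ} (hd : d ≠ 0) (h : ℤ) (x y : ℤ) (τ : ℂ) :
    cexp (2 * π * I * ((cosetNum d h (x, y) : ℂ) / (4 * (d : ℂ))) * τ) =
      cexp (π * I * (((2 : ℕ) : ℂ) * x + y) ^ 2 * τ / ((2 : ℕ) : ℂ)) *
        cexp (π * I * ((d : ℂ) * y + 2 * h) ^ 2 * τ / (2 * d)) := by
  have hd' : (d : ℂ) ≠ 0 := Nat.cast_ne_zero.mpr hd
  rw [← Complex.exp_add]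
  congr 1
  simp only [cosetNum]
  push_cast
  field_simp
  ring

/-- `ϑ_h = th 2 0 · th (2d) (2h) + th 2 1 · th (2d) (d + 2h)`. -/
theorem thetaCoset_eq_th {d : ℕ} (hd : d ≠ 0) (h : ℤ) (τ : ℍ)
    (hsum : Summable fun v : ℤ × ℤ =>
      cexp (2 * π * I * ((cosetNum d h v : ℂ) / (4 * (d : ℂ))) * τ)) :
    thetaCoset d h τ =
      th 2 0 τ * th (2 * d) (2 * h) τ + th 2 1 τ * th (2 * d) (d + 2 * h) τ := by
  have hd' : (d : ℂ) ≠ 0 := Nat.cast_ne_zero.mpr hd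
  set F : ℤ × ℤ → ℂ := fun v =>
    cexp (2 * π * I * ((cosetNum d h v : ℂ) / (4 * (d : ℂ))) * τ) with hF
  set E : ℤ → ℂ := fun y => cexp (π * I * ((d : ℂ) * y + 2 * h) ^ 2 * τ / (2 * d)) with hE
  have hs' : Summable (fun p : ℤ × ℤ => F (p.2, p.1)) :=
    (Equiv.prodComm ℤ ℤ).summable_iff.mpr hsum
  have hinner : ∀ y : ℤ, ∑' x : ℤ, F (x, y) = th 2 y τ * E y := by
    intro y
    rw [th, ← tsum_mul_right]
    exact tsum_congr fun x => cosetTerm_eq hd h x y τ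
  have hsy : Summable fun y : ℤ => th 2 y τ * E y := by
    have := hs'.prod
    refine this.congr fun y => ?_
    exact hinner y
  have hE2 : ∀ ε : ℤ, ∑' k : ℤ, E (2 * k + ε) = th (2 * d) (d * ε + 2 * h) τ := by
    intro ε
    rw [th]
    refine tsum_congr fun k => ?_
    simp only [hE]
    congr 1
    push_cast
    ring
  calc thetaCoset d h τ = ∑' v : ℤ × ℤ, F v := rfl
    _ = ∑' p : ℤ × ℤ, F (p.2, p.1) := ((Equiv.prodComm ℤ ℤ).tsum_eq F).symm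
    _ = ∑' y : ℤ, ∑' x : ℤ, F (x, y) := hs'.tsum_prod
    _ = ∑' y : ℤ, th 2 y τ * E y := tsum_congr hinner
    _ = ∑ ε ∈ Finset.range 2, ∑' k : ℤ, th 2 (((2 : ℕ) : ℤ) * k + (ε : ℤ)) τ *
          E (((2 : ℕ) : ℤ) * k + (ε : ℤ)) := tsum_int_eq_sum_range_tsum two_ne_zero hsy
    _ = ∑ ε ∈ Finset.range 2, th 2 (ε : ℤ) τ * th (2 * d) (d * (ε : ℤ) + 2 * h) τ := by
        refine Finset.sum_congr rfl fun ε _ => ?_
        rw [← hE2, ← tsum_mul_left]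
        refine tsum_congr fun k => ?_
        rw [show ((2 : ℕ) : ℤ) * k + (ε : ℤ) = (ε : ℤ) + ((2 : ℕ) : ℤ) * k by ring,
          th_add_mul_period]
        push_cast
        ring_nf
    _ = th 2 0 τ * th (2 * d) (2 * h) τ + th 2 1 τ * th (2 * d) (d + 2 * h) τ := by
        rw [Finset.sum_range_succ, Finset.sum_range_one]
        push_cast
        ring_nf

/-- The finite recombination behind the `S`-law. -/
theorem finite_S_identity {d : ℕ} (e : ℕ) (hde : d = 2 * e + 1) (h : ℤ) (A0 A1 : ℂ) (B : ℤ → ℂ)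
    (hB : ∀ b, B (b + ((2 * d : ℕ) : ℤ)) = B b) :
    (A0 + A1) * ∑ b ∈ Finset.range (2 * d),
        cexp (-(2 * π * I * ((2 * h : ℤ) : ℂ) * (b : ℂ) / ((2 * d : ℕ) : ℂ))) * B (b : ℤ) +
      (A0 - A1) * ∑ b ∈ Finset.range (2 * d),
        cexp (-(2 * π * I * (((d : ℤ) + 2 * h : ℤ) : ℂ) * (b : ℂ) / ((2 * d : ℕ) : ℂ))) *
          B (b : ℤ) =
    2 * ∑ h' ∈ Finset.range d, cexp (2 * π * I * (-(2 * (h : ℂ) * (h' : ℂ)) / (d : ℂ))) *
      (A0 * B (2 * (h' : ℤ)) + A1 * B ((d : ℤ) + 2 * (h' : ℤ))) := by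
  have hd0 : d ≠ 0 := by omega
  have hd' : (d : ℂ) ≠ 0 := Nat.cast_ne_zero.mpr hd0
  -- the four exponentials
  have hE1 : ∀ s : ℕ, cexp (-(2 * π * I * ((2 * h : ℤ) : ℂ) * ((2 * s : ℕ) : ℂ) /
      ((2 * d : ℕ) : ℂ))) = cexp (2 * π * I * (-(2 * (h : ℂ) * (s : ℂ)) / (d : ℂ))) := by
    intro s
    congr 1
    push_cast
    field_simp
  have hE3 : ∀ s : ℕ, cexp (-(2 * π * I * (((d : ℤ) + 2 * h : ℤ) : ℂ) * ((2 * s : ℕ) : ℂ) /
      ((2 * d : ℕ) : ℂ))) = cexp (2 * π * I * (-(2 * (h : ℂ) * (s : ℂ)) / (d : ℂ))) := by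
    intro s
    have key : -(2 * π * I * (((d : ℤ) + 2 * h : ℤ) : ℂ) * ((2 * s : ℕ) : ℂ) /
        ((2 * d : ℕ) : ℂ)) = 2 * π * I * (-(2 * (h : ℂ) * (s : ℂ)) / (d : ℂ)) +
          ((-(s : ℤ) : ℤ) : ℂ) * (2 * π * I) := by
      push_cast
      field_simp
      ring
    rw [key, Complex.exp_add, exp_int_mul_two_pi_mul_I, mul_one]
  have hE4 : ∀ s : ℕ, cexp (-(2 * π * I * (((d : ℤ) + 2 * h : ℤ) : ℂ) * ((2 * s + 1 : ℕ) : ℂ) /
      ((2 * d : ℕ) : ℂ))) = -cexp (-(2 * π * I * ((2 * h : ℤ) : ℂ) * ((2 * s + 1 : ℕ) : ℂ) /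
      ((2 * d : ℕ) : ℂ))) := by
    intro s
    have key : -(2 * π * I * (((d : ℤ) + 2 * h : ℤ) : ℂ) * ((2 * s + 1 : ℕ) : ℂ) /
        ((2 * d : ℕ) : ℂ)) = -(2 * π * I * ((2 * h : ℤ) : ℂ) * ((2 * s + 1 : ℕ) : ℂ) /
        ((2 * d : ℕ) : ℂ)) + π * I + ((-(s : ℤ) - 1 : ℤ) : ℂ) * (2 * π * I) := by
      push_cast
      field_simp
      ring
    rw [key, Complex.exp_add, exp_int_mul_two_pi_mul_I, mul_one, Complex.exp_add, exp_pi_mul_I]
    ring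
  -- the periodic function
  set G : ℤ → ℂ := fun s =>
    cexp (2 * π * I * (-(2 * (h : ℂ) * (s : ℂ)) / (d : ℂ))) * B ((d : ℤ) + 2 * s) with hG
  have hGper : ∀ s, G (s + d) = G s := by
    intro s
    simp only [hG]
    have key : 2 * π * I * (-(2 * (h : ℂ) * ((s + (d : ℤ) : ℤ) : ℂ)) / (d : ℂ)) =
        2 * π * I * (-(2 * (h : ℂ) * (s : ℂ)) / (d : ℂ)) + ((-(2 * h) : ℤ) : ℂ) * (2 * π * I) := by
      push_cast
      field_simp
      ring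
    rw [key, Complex.exp_add, exp_int_mul_two_pi_mul_I, mul_one]
    congr 1
    rw [show (d : ℤ) + 2 * (s + d) = ((d : ℤ) + 2 * s) + ((2 * d : ℕ) : ℤ) by push_cast; ring, hB]
  have hodd : ∀ s : ℕ, cexp (-(2 * π * I * ((2 * h : ℤ) : ℂ) * ((2 * s + 1 : ℕ) : ℂ) /
      ((2 * d : ℕ) : ℂ))) * B ((2 * s + 1 : ℕ) : ℤ) = G ((s : ℤ) + (-(e : ℤ))) := by
    intro s
    simp only [hG]
    have key : -(2 * π * I * ((2 * h : ℤ) : ℂ) * ((2 * s + 1 : ℕ) : ℂ) / ((2 * d : ℕ) : ℂ)) =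
        2 * π * I * (-(2 * (h : ℂ) * (((s : ℤ) + (-(e : ℤ)) : ℤ) : ℂ)) / (d : ℂ)) +
          ((-h : ℤ) : ℂ) * (2 * π * I) := by
      have hdc : (d : ℂ) = 2 * (e : ℂ) + 1 := by rw [hde]; push_cast; ring
      push_cast
      field_simp
      rw [hdc]
      ring
    rw [key, Complex.exp_add, exp_int_mul_two_pi_mul_I, mul_one]
    congr 2
    rw [hde]
    push_cast
    ring
  have hshift := sum_range_periodic_shift hGper (-(e : ℤ))
  rw [sum_range_two_mul, sum_range_two_mul]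
  simp only [hE1, hE3, hE4]
  have hR : ∑ s ∈ Finset.range d, cexp (-(2 * π * I * ((2 * h : ℤ) : ℂ) * ((2 * s + 1 : ℕ) : ℂ) /
      ((2 * d : ℕ) : ℂ))) * B ((2 * s + 1 : ℕ) : ℤ) =
      ∑ s ∈ Finset.range d, cexp (2 * π * I * (-(2 * (h : ℂ) * (s : ℂ)) / (d : ℂ))) *
        B ((d : ℤ) + 2 * (s : ℤ)) := by
    rw [Finset.sum_congr rfl fun s _ => hodd s, hshift]
    simp only [hG, Int.cast_natCast]
  simp only [Finset.sum_add_distrib, mul_add, neg_mul, Finset.sum_neg_distrib]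
  rw [hR]
  simp only [Nat.cast_mul, Nat.cast_ofNat]
  have h3 : ∀ s : ℕ, cexp (2 * π * I * (-(2 * (h : ℂ) * (s : ℂ)) / (d : ℂ))) * (A0 * B (2 * (s : ℤ)))
      = A0 * (cexp (2 * π * I * (-(2 * (h : ℂ) * (s : ℂ)) / (d : ℂ))) * B (2 * (s : ℤ))) := by
    intro s; ring
  have h4 : ∀ s : ℕ, cexp (2 * π * I * (-(2 * (h : ℂ) * (s : ℂ)) / (d : ℂ))) *
      (A1 * B ((d : ℤ) + 2 * (s : ℤ)))
      = A1 * (cexp (2 * π * I * (-(2 * (h : ℂ) * (s : ℂ)) / (d : ℂ))) *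
        B ((d : ℤ) + 2 * (s : ℤ))) := by
    intro s; ring
  simp only [h3, h4, ← Finset.mul_sum]
  ring

end SLaw

open ThOne SLaw in
/-- **P2**: the `S`-law for the coset thetas. -/
theorem thetaSLaw {d : ℕ} (hd : d.Prime) (hd4 : d % 4 = 3) (hB : ThetaBasics d) :
    ThetaSLaw d := by
  intro h τ τ' hτ'
  have hd0 : d ≠ 0 := hd.ne_zero
  have h2d : 2 * d ≠ 0 := by omega
  have him : 0 < (τ : ℂ).im := τ.im_pos
  obtain ⟨e, hde⟩ : ∃ e : ℕ, d = 2 * e + 1 := ⟨d / 2, by omega⟩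
  have hS0 : th 2 0 (-1 / (τ : ℂ)) =
      (-I * ((τ : ℂ) / ((2 : ℕ) : ℂ))) ^ (1 / 2 : ℂ) * (th 2 0 τ + th 2 1 τ) := by
    rw [th_S two_ne_zero 0 him, Finset.sum_range_succ, Finset.sum_range_one]
    have e0 : cexp (-(2 * π * I * ((0 : ℤ) : ℂ) * ((0 : ℕ) : ℂ) / ((2 : ℕ) : ℂ))) = 1 := by simp
    have e1 : cexp (-(2 * π * I * ((0 : ℤ) : ℂ) * ((1 : ℕ) : ℂ) / ((2 : ℕ) : ℂ))) = 1 := by simp
    rw [e0, e1, one_mul, one_mul, Nat.cast_zero, Nat.cast_one]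
  have hS1 : th 2 1 (-1 / (τ : ℂ)) =
      (-I * ((τ : ℂ) / ((2 : ℕ) : ℂ))) ^ (1 / 2 : ℂ) * (th 2 0 τ - th 2 1 τ) := by
    rw [th_S two_ne_zero 1 him, Finset.sum_range_succ, Finset.sum_range_one]
    have e0 : cexp (-(2 * π * I * ((1 : ℤ) : ℂ) * ((0 : ℕ) : ℂ) / ((2 : ℕ) : ℂ))) = 1 := by simp
    have e1 : cexp (-(2 * π * I * ((1 : ℤ) : ℂ) * ((1 : ℕ) : ℂ) / ((2 : ℕ) : ℂ))) = -1 := by
      have : -(2 * π * I * ((1 : ℤ) : ℂ) * ((1 : ℕ) : ℂ) / ((2 : ℕ) : ℂ)) = -(π * I) := by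
        push_cast; ring
      rw [this, Complex.exp_neg, exp_pi_mul_I]
      norm_num
    rw [e0, e1, one_mul, Nat.cast_zero, Nat.cast_one]
    ring
  have hcc : (-I * ((τ : ℂ) / ((2 : ℕ) : ℂ))) ^ (1 / 2 : ℂ) *
      (-I * ((τ : ℂ) / ((2 * d : ℕ) : ℂ))) ^ (1 / 2 : ℂ) = -I * τ / (2 * (Real.sqrt d : ℂ)) :=
    sqrt_mul_sqrt him hd0
  have hper : ∀ b : ℤ, th (2 * d) (b + ((2 * d : ℕ) : ℤ)) τ = th (2 * d) b τ :=
    fun b => th_add_period (2 * d) b τ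
  have hfin := finite_S_identity e hde h (th 2 0 τ) (th 2 1 τ) (fun b => th (2 * d) b τ) hper
  have hL : thetaCoset d h τ' = th 2 0 (-1 / (τ : ℂ)) * th (2 * d) (2 * h) (-1 / (τ : ℂ)) +
      th 2 1 (-1 / (τ : ℂ)) * th (2 * d) ((d : ℤ) + 2 * h) (-1 / (τ : ℂ)) := by
    rw [thetaCoset_eq_th hd0 h τ' (hB.summable h τ'), hτ']
  have hsumR : ∑ h' ∈ Finset.range d,
      cexp (2 * π * I * (-(2 * (h : ℂ) * h') / d)) * thetaCoset d (h' : ℤ) τ =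
      ∑ h' ∈ Finset.range d, cexp (2 * π * I * (-(2 * (h : ℂ) * (h' : ℂ)) / (d : ℂ))) *
        (th 2 0 τ * th (2 * d) (2 * (h' : ℤ)) τ +
          th 2 1 τ * th (2 * d) ((d : ℤ) + 2 * (h' : ℤ)) τ) :=
    Finset.sum_congr rfl fun h' _ => by
      rw [thetaCoset_eq_th hd0 h' τ (hB.summable h' τ)]
  have hsq : (Real.sqrt d : ℂ) ≠ 0 := by
    rw [Ne, ofReal_eq_zero, Real.sqrt_eq_zero']
    exact not_le.mpr (Nat.cast_pos.mpr hd.pos)
  rw [hL, hsumR, hS0, hS1, th_S h2d (2 * h) him, th_S h2d ((d : ℤ) + 2 * h) him]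
  have key : ∀ c1 c2 a0 a1 X Y : ℂ,
      c1 * (a0 + a1) * (c2 * X) + c1 * (a0 - a1) * (c2 * Y) =
        (c1 * c2) * ((a0 + a1) * X + (a0 - a1) * Y) := by
    intros; ring
  rw [key, hfin, hcc]
  field_simp

end

end Fermat.Agent.S16.ThetaLower
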