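import Mathlib
import Fermat.Prelude.Def_ModularForm_HeckeOperator
import Fermat.Agent.Lib.Gamma0Count
import Fermat.Agent.S16.ThetaLower.Contracts

/-!
# S16, theta lower bound, package P4: the trace from `Γ₀(dM)` to `Γ₀(M)`

For a prime `d ∤ M`, `F ∈ M_k(Γ₀(dM))` and an Atkin–Lehner matrix
`W = [d a, b; d M c, d δ]` (`d a δ - M b c = 1`), put `Fb(τ) = (M c τ + δ)^(-k) F(W τ)`.  Then
`F + d^(1-k) U_d Fb ∈ M_k(Γ₀(M))`: it is the trace of `F`, the cosets of `Γ₀(dM)` in `Γ₀(M)`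
being represented by `1` and `β_j = [a, a j + b; M c, M c j + d δ]`, `0 ≤ j < d`.
-/

set_option autoImplicit false

namespace Fermat.Agent.S16.ThetaLower

open UpperHalfPlane hiding I
open ModularForm CongruenceSubgroup Complex Matrix.SpecialLinearGroup
open scoped MatrixGroups ModularForm Manifold Real

noncomputable section

namespace Trace

/-- The coset representative `β_j = [a, a j + b; M c, M c j + d δ]`. -/
def beta (d M : ℕ) (a b c δ : ℤ) (hdet : (d : ℤ) * a * δ - M * b * c = 1) (j : ℤ) : SL(2, ℤ) :=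
  ⟨!![a, a * j + b; M * c, M * c * j + d * δ], by
    rw [Matrix.det_fin_two_of]; linear_combination hdet⟩

variable {d M : ℕ} {a b c δ : ℤ} (hdet : (d : ℤ) * a * δ - M * b * c = 1)

@[simp] lemma beta_00 (j : ℤ) : beta d M a b c δ hdet j 0 0 = a := rfl
@[simp] lemma beta_01 (j : ℤ) : beta d M a b c δ hdet j 0 1 = a * j + b := rfl
@[simp] lemma beta_10 (j : ℤ) : beta d M a b c δ hdet j 1 0 = M * c := rfl
@[simp] lemma beta_11 (j : ℤ) : beta d M a b c δ hdet j 1 1 = M * c * j + d * δ := rfl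

lemma beta_mem (j : ℤ) : beta d M a b c δ hdet j ∈ Gamma0 M := by
  apply Fermat.Agent.Lib.Gamma0Count.mem_Gamma0_of_dvd
  simp

include hdet in
lemma not_dvd_c (hd : d.Prime) : ¬ (d : ℤ) ∣ c := by
  intro h
  obtain ⟨e, rfl⟩ := h
  have h1 : (d : ℤ) ∣ 1 := ⟨a * δ - M * b * e, by linear_combination -hdet⟩
  have := Int.eq_one_of_dvd_one (by positivity) h1
  have := hd.one_lt
  omega

include hdet in
lemma not_dvd_M (hd : d.Prime) : ¬ (d : ℤ) ∣ M := by
  intro h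
  obtain ⟨e, he⟩ := h
  have h1 : (d : ℤ) ∣ 1 := ⟨a * δ - e * b * c, by rw [he] at hdet; linear_combination -hdet⟩
  have := Int.eq_one_of_dvd_one (by positivity) h1
  have := hd.one_lt
  omega

lemma beta_not_mem (hd : d.Prime) (hM : M ≠ 0) (j : ℤ) :
    beta d M a b c δ hdet j ∉ Gamma0 (d * M) := by
  intro h
  have h1 := Fermat.Agent.Lib.Gamma0Count.dvd_of_mem_Gamma0 h
  simp only [beta_10, Nat.cast_mul] at h1
  have hM' : (M : ℤ) ≠ 0 := by exact_mod_cast hM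
  rw [mul_comm (d : ℤ) (M : ℤ)] at h1
  exact not_dvd_c hdet hd ((mul_dvd_mul_iff_left hM').mp h1)

lemma beta_mul_inv_10 (j j' : ℤ) :
    (beta d M a b c δ hdet j * (beta d M a b c δ hdet j')⁻¹) 1 0 = (M : ℤ) * c * (M * c) * (j' - j) := by
  rw [Matrix.SpecialLinearGroup.coe_mul, Matrix.SpecialLinearGroup.coe_inv,
    Matrix.adjugate_fin_two, Matrix.mul_apply, Fin.sum_univ_two]
  simp
  ring

lemma beta_mul_inv_mem_iff (hd : d.Prime) (hM : M ≠ 0) (j j' : ℤ) :
    beta d M a b c δ hdet j * (beta d M a b c δ hdet j')⁻¹ ∈ Gamma0 (d * M) ↔ (d : ℤ) ∣ j' - j := by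
  have hM' : (M : ℤ) ≠ 0 := by exact_mod_cast hM
  have hdp : Prime (d : ℤ) := Nat.prime_iff_prime_int.mp hd
  constructor
  · intro h
    have h1 := Fermat.Agent.Lib.Gamma0Count.dvd_of_mem_Gamma0 h
    rw [beta_mul_inv_10] at h1
    simp only [Nat.cast_mul] at h1
    rw [show (M : ℤ) * c * (M * c) * (j' - j) = (M : ℤ) * (c * (M * c) * (j' - j)) by ring,
      mul_comm (d : ℤ) (M : ℤ)] at h1
    have h2 := (mul_dvd_mul_iff_left hM').mp h1
    rcases hdp.dvd_or_dvd h2 with h3 | h3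
    · rcases hdp.dvd_or_dvd h3 with h4 | h4
      · exact absurd h4 (not_dvd_c hdet hd)
      · rcases hdp.dvd_or_dvd h4 with h5 | h5
        · exact absurd h5 (not_dvd_M hdet hd)
        · exact absurd h5 (not_dvd_c hdet hd)
    · exact h3
  · intro h
    apply Fermat.Agent.Lib.Gamma0Count.mem_Gamma0_of_dvd
    rw [beta_mul_inv_10]
    obtain ⟨e, he⟩ := h
    rw [he]
    exact ⟨c * c * M * e, by push_cast; ring⟩


/-- `Γ₀(N)` as a subgroup of `GL(2, ℝ)`. -/
abbrev G0 (N : ℕ) : Subgroup (GL (Fin 2) ℝ) := Subgroup.map (mapGL ℝ) (Gamma0 N)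

lemma mapGL_mem_G0_iff (N : ℕ) (γ : SL(2, ℤ)) : mapGL ℝ γ ∈ G0 N ↔ γ ∈ Gamma0 N := by
  constructor
  · rintro ⟨γ', hγ', h⟩
    have : γ' = γ := mapGL_injective h
    rwa [← this]
  · intro h
    exact Subgroup.mem_map_of_mem _ h

lemma relIndex_G0 (hd : d.Prime) (hM : M ≠ 0) (hdM : ¬ d ∣ M) :
    (G0 (d * M)).relIndex (G0 M) = d + 1 := by
  have : Fact d.Prime := ⟨hd⟩
  rw [Subgroup.relIndex_map_map_of_injective _ _ mapGL_injective]
  exact Fermat.Agent.Lib.Gamma0Count.relIndex_of_not_dvd hM hdM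

lemma isFiniteRelIndex_G0 (hd : d.Prime) (hM : M ≠ 0) (hdM : ¬ d ∣ M) :
    (G0 (d * M)).IsFiniteRelIndex (G0 M) :=
  ⟨by rw [relIndex_G0 hd hM hdM]; omega⟩

/-- The representatives of the cosets, as elements of `Γ₀(M) ⊆ GL(2, ℝ)`: `1` and `β_j⁻¹`. -/
def rep (o : Option (Fin d)) : ↥(G0 M) :=
  match o with
  | none => 1
  | some j => ⟨mapGL ℝ (beta d M a b c δ hdet (j : ℕ))⁻¹,
      (mapGL_mem_G0_iff M _).mpr (inv_mem (beta_mem hdet _))⟩

lemma rep_injective (hd : d.Prime) (hM : M ≠ 0) :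
    Function.Injective fun o : Option (Fin d) =>
      (QuotientGroup.mk (rep hdet o) : ↥(G0 M) ⧸ (G0 (d * M)).subgroupOf (G0 M)) := by
  intro o o' h
  rw [QuotientGroup.eq, Subgroup.mem_subgroupOf] at h
  rcases o with _ | j <;> rcases o' with _ | j'
  · rfl
  · exfalso
    simp only [rep, inv_one, one_mul] at h
    rw [mapGL_mem_G0_iff] at h
    exact beta_not_mem hdet hd hM ((j' : ℕ) : ℤ) (by simpa using inv_mem h)
  · exfalso
    simp only [rep, mul_one, Subgroup.coe_inv] at h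
    rw [← map_inv, mapGL_mem_G0_iff, inv_inv] at h
    exact beta_not_mem hdet hd hM _ h
  · simp only [rep, Subgroup.coe_mul, Subgroup.coe_inv] at h
    rw [← map_inv, ← map_mul, mapGL_mem_G0_iff, inv_inv, beta_mul_inv_mem_iff hdet hd hM] at h
    have h1 : (d : ℤ) ∣ ((j' : ℕ) : ℤ) - ((j : ℕ) : ℤ) := h
    have hj := j.2
    have hj' := j'.2
    have h2 : ((j' : ℕ) : ℤ) - ((j : ℕ) : ℤ) = 0 := by
      apply Int.eq_zero_of_abs_lt_dvd h1
      rw [abs_lt]; constructor <;> omega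
    congr 1
    ext
    omega

lemma rep_bijective (hd : d.Prime) (hM : M ≠ 0) (hdM : ¬ d ∣ M) :
    Function.Bijective fun o : Option (Fin d) =>
      (QuotientGroup.mk (rep hdet o) : ↥(G0 M) ⧸ (G0 (d * M)).subgroupOf (G0 M)) := by
  have := isFiniteRelIndex_G0 hd hM hdM
  let _ : Fintype (↥(G0 M) ⧸ (G0 (d * M)).subgroupOf (G0 M)) := Fintype.ofFinite _
  rw [Fintype.bijective_iff_injective_and_card]
  refine ⟨rep_injective hdet hd hM, ?_⟩
  rw [Fintype.card_option, Fintype.card_fin, ← Nat.card_eq_fintype_card, ← Subgroup.index_eq_card]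
  exact (relIndex_G0 hd hM hdM).symm


/-- The slash of `F` by `β_j`, in terms of `Fb`. -/
lemma slash_beta (hd : d.Prime) {k : ℤ} (F Fb : ℍ → ℂ)
    (hFb : ∀ τ τ' : ℍ, (τ' : ℂ) = ((d : ℂ) * a * τ + b) / ((d : ℂ) * M * c * τ + d * δ) →
      Fb τ = ((M : ℂ) * c * τ + δ) ^ (-k) * F τ') (j : ℕ) (τ : ℍ) :
    (F ∣[k] beta d M a b c δ hdet (j : ℤ)) τ =
      (d : ℂ) ^ (-k) * Fb (ModularForm.heckeMatrix d j • τ) := by
  have hd0 : d ≠ 0 := hd.ne_zero
  have hdC : (d : ℂ) ≠ 0 := by exact_mod_cast hd0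
  rw [SL_slash_apply]
  set u := ModularForm.heckeMatrix d j • τ with hu
  have hu' : (u : ℂ) = ((τ : ℂ) + j) / d := ModularForm.coe_heckeMatrix_smul hd0 j τ
  have hden : denom (beta d M a b c δ hdet (j : ℤ)) τ =
      (d : ℂ) * ((M : ℂ) * c * u + δ) := by
    rw [ModularGroup.denom_apply, hu']
    simp only [beta_10, beta_11]
    push_cast
    field_simp
    ring
  have hne : (d : ℂ) * ((M : ℂ) * c * u + δ) ≠ 0 := by
    rw [← hden]; exact denom_ne_zero _ τ
  have hne2 : (M : ℂ) * c * u + δ ≠ 0 := right_ne_zero_of_mul hne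
  have hpt : ((beta d M a b c δ hdet (j : ℤ) • τ : ℍ) : ℂ) =
      ((d : ℂ) * a * u + b) / ((d : ℂ) * M * c * u + d * δ) := by
    rw [coe_specialLinearGroup_apply, hu']
    simp only [beta_00, beta_01, beta_10, beta_11, algebraMap_int_eq, eq_intCast]
    push_cast
    congr 1
    · field_simp
      ring
    · field_simp
      ring
  rw [hFb u _ hpt, hden, mul_zpow]
  have h1 : ((M : ℂ) * c * u + δ) ^ (-k) * ((M : ℂ) * c * u + δ) ^ k = 1 := by
    rw [← zpow_add₀ hne2]; simp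
  calc F (beta d M a b c δ hdet (j : ℤ) • τ) * ((d : ℂ) ^ (-k) * ((M : ℂ) * c * u + δ) ^ (-k))
      = (d : ℂ) ^ (-k) * (((M : ℂ) * c * u + δ) ^ (-k) * F (beta d M a b c δ hdet (j : ℤ) • τ)) := by
        ring


end Trace

open Trace SlashInvariantForm in
/-- **P4**: the trace from `Γ₀(dM)` to `Γ₀(M)` at a prime `d ∤ M`. -/
theorem tracePrimeIndex : TracePrimeIndex := by
  intro d M hd hM hdM k F Fb a b c δ hdet hFb
  have hfin := isFiniteRelIndex_G0 hd hM hdM
  have hd0 : d ≠ 0 := hd.ne_zero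
  have hdC : (d : ℂ) ≠ 0 := by exact_mod_cast hd0
  refine ⟨ModularForm.trace (G0 M) F, fun τ => ?_⟩
  let _ : Fintype (↥(G0 M) ⧸ (G0 (d * M)).subgroupOf (G0 M)) := Fintype.ofFinite _
  have hsum : (ModularForm.trace (G0 M) F : ℍ → ℂ) =
      ∑ o : Option (Fin d), quotientFunc F
        (QuotientGroup.mk (rep hdet o) : ↥(G0 M) ⧸ (G0 (d * M)).subgroupOf (G0 M)) := by
    rw [ModularForm.coe_trace]
    exact ((Equiv.ofBijective _ (rep_bijective hdet hd hM hdM)).sum_comp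
      (fun q => quotientFunc F q)).symm
  rw [hsum, Fintype.sum_option, Pi.add_apply, Finset.sum_apply]
  congr 1
  · change (quotientFunc F (⟦rep hdet none⟧)) τ = F τ
    rw [quotientFunc_mk]
    simp [rep]
  · rw [ModularForm.heckeU_apply k hd0, ← mul_assoc, Finset.mul_sum, ← Fin.sum_univ_eq_sum_range
      (fun j => (d : ℂ) ^ (1 - k) * (d : ℂ)⁻¹ * Fb (ModularForm.heckeMatrix d j • τ))]
    refine Finset.sum_congr rfl fun j _ => ?_
    change (quotientFunc F (⟦rep hdet (some j)⟧)) τ = _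
    rw [quotientFunc_mk]
    have h1 : ((rep hdet (some j) : ↥(G0 M)) : GL (Fin 2) ℝ)⁻¹ =
        mapGL ℝ (beta d M a b c δ hdet ((j : ℕ) : ℤ)) := by
      simp [rep]
    rw [h1]
    change ((F : ℍ → ℂ) ∣[k] beta d M a b c δ hdet ((j : ℕ) : ℤ)) τ = _
    rw [slash_beta hdet hd (F : ℍ → ℂ) Fb hFb]
    congr 1
    rw [zpow_sub₀ hdC, zpow_one, div_eq_mul_inv, mul_comm, ← zpow_neg, ← mul_assoc,
      inv_mul_cancel₀ hdC, one_mul]

end

end Fermat.Agent.S16.ThetaLower
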