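import Fermat.Agent.S16.ThetaLower.ThetaSeries
import Fermat.Agent.S16.ThetaLower.ThetaS
import Fermat.Agent.S16.ThetaLower.ThetaChar
import Fermat.Agent.S16.ThetaLower.Trace
import Fermat.Agent.S16.ThetaLower.Fd
import Fermat.Agent.S16.ThetaLower.Arith
import Fermat.Agent.S16.ThetaLower.FormOne
import Fermat.Agent.S16.ThetaLower.Lower
import Fermat.Agent.S16.ThetaLower.CuspZero
import Fermat.Agent.Lib.AuxPrime
import Fermat.Agent.S16.EisForm
import Fermat.Agent.S16.Glue

/-!
# S16, theta route: final assembly of the lower bound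

`thetaForm` : for a prime `p ≥ 5` there is `F₁ ∈ M₂(Γ₀(p))` with `a₀ = 1`, `a_n ∈ 2ℤ` (`n ≥ 1`)
(binary theta series of discriminant `-d` for an auxiliary prime `d ≡ 3 mod 4`, `(p/d) = -1`).

`lowerBound` : `Fermat.Agent.S16.LowerBound p` for every prime `p`
(`n = (p-1)/gcd(p-1,12)` divides the Eisenstein eigenvalue of every Hecke polynomial killing
`S₂(Γ₀(p))`), with no hypotheses.
-/

set_option autoImplicit false

namespace Fermat.Agent.S16.ThetaLower

open CongruenceSubgroup

/-- The theta form `F₁ = (F_d + U_d F_d)/2` of level `p`, unconditionally. -/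
theorem thetaForm {p : ℕ} (hp : p.Prime) (hp5 : 5 ≤ p) : Fermat.Agent.S16.ThetaFormStmt p :=
  thetaForm_of hp (Fermat.Agent.Lib.AuxPrime.auxPrime hp hp5)
    (fun _ hd hd4 hpd => fdStmt hp hd hd4 hpd (thetaBasics hd hd4)
      (thetaChar hd hd4 (thetaBasics hd hd4) (thetaSLaw hd hd4 (thetaBasics hd hd4)))
      (repArith hp hd hd4 hpd))
    (fun _ hd hd4 hpd => repArith hp hd hd4 hpd) tracePrimeIndex

/-- A cusp form of weight 2 and level `p` congruent to the Eisenstein series modulo
`n = eisensteinNumerator p`. -/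
theorem exists_congSigma (p : ℕ) [Fact p.Prime] :
    ∃ f : CuspForm (Gamma0 p) 2, ∀ k : ℕ, 1 ≤ k → ∃ c : ℤ,
      ModularFormClass.qCoeff (⇑f) k =
        (Fermat.Agent.S16.sigmaP p k : ℂ) + (ModularCurve.eisensteinNumerator p : ℂ) * (c : ℂ) :=
  congSigma_of_theta p (fun h5 => thetaForm Fact.out h5) (Fermat.Agent.S16.eisForm p)
    (cuspForm_of_coeff_zero p)

/-- **The lower bound of S16 (theta route), unconditionally.** -/
theorem lowerBound (p : ℕ) [Fact p.Prime] : Fermat.Agent.S16.LowerBound p := by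
  obtain ⟨f, hf⟩ := exists_congSigma p
  exact Fermat.Agent.S16.lowerBound_of_congSigma p f hf

end Fermat.Agent.S16.ThetaLower
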