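import Mathlib
import Fermat.Agent.S16.ThetaLower.Contracts

/-!
# S16, theta lower bound — package P1: basic analysis of the coset theta series

Contract: `Fermat.Agent.S16.ThetaLower.thetaBasics : ThetaBasics d` (helper60's
`ThetaLower/Contracts.lean`).  All auxiliary statements live in the sub-namespace
`Fermat.Agent.S16.ThetaLower.ThetaSeries` (so that they cannot clash with the other packages of
the theta route); they include the `HasSum` forms
`hasSum_thetaCoset`, `hasSum_thetaD`, `hasSum_thetaD_q`, the Gaussian majorants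
`summable_cosetMajorant`, `norm_thetaCoset_term_le`, and the symmetries
`thetaCoset_add_int_mul`, `thetaCoset_emod`, `thetaCoset_neg`.
-/

set_option autoImplicit false

namespace Fermat.Agent.S16.ThetaLower.ThetaSeries

open UpperHalfPlane hiding I
open ModularForm CongruenceSubgroup Complex
open scoped MatrixGroups ModularForm Manifold Real

noncomputable section

/-! ## Arithmetic of `cosetNum` and `qf` -/

theorem four_mul_qf {d : ℕ} (hd : d % 4 = 3) (v : ℤ × ℤ) :
    4 * qf d v = (2 * v.1 + v.2) ^ 2 + (d : ℤ) * v.2 ^ 2 := by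
  have h4 : (4 : ℤ) * (((d + 1) / 4 : ℕ) : ℤ) = (d : ℤ) + 1 := by
    have : 4 * ((d + 1) / 4) = d + 1 := by omega
    exact_mod_cast this
  unfold qf
  linear_combination v.2 ^ 2 * h4

theorem qf_nonneg {d : ℕ} (hd : d % 4 = 3) (v : ℤ × ℤ) : 0 ≤ qf d v := by
  have h := four_mul_qf hd v
  nlinarith [sq_nonneg (2 * v.1 + v.2), sq_nonneg v.2, Int.natCast_nonneg d]

theorem cosetNum_zero {d : ℕ} (hd : d % 4 = 3) (v : ℤ × ℤ) :
    cosetNum d 0 v = 4 * (d : ℤ) * qf d v := by
  have h := four_mul_qf hd v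
  unfold cosetNum
  linear_combination (-(d : ℤ)) * h

theorem cosetNum_nonneg (d : ℕ) (h : ℤ) (v : ℤ × ℤ) : 0 ≤ cosetNum d h v := by
  unfold cosetNum
  positivity

/-- `cosetNum d h v ≡ 4 h² mod 4 d`. -/
theorem cosetNum_eq {d : ℕ} (hd : d % 4 = 3) (h : ℤ) (v : ℤ × ℤ) :
    cosetNum d h v = 4 * h ^ 2 + 4 * (d : ℤ) * (qf d v + h * v.2) := by
  have h4 := four_mul_qf hd v
  unfold cosetNum
  linear_combination (-(d : ℤ)) * h4

theorem cosetNum_add (d : ℕ) (h : ℤ) (v : ℤ × ℤ) :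
    cosetNum d (h + d) v = cosetNum d h (v.1 - 1, v.2 + 2) := by
  unfold cosetNum
  ring

/-- The substitution `(x, y) ↦ (2x + y, d y + 2 h)` is injective. -/
theorem cosetMap_injective {d : ℕ} (hd : d ≠ 0) (h : ℤ) :
    Function.Injective (fun v : ℤ × ℤ => ((2 * v.1 + v.2, (d : ℤ) * v.2 + 2 * h) : ℤ × ℤ)) := by
  rintro ⟨x, y⟩ ⟨x', y'⟩ hv
  simp only [Prod.mk.injEq] at hv
  obtain ⟨h1, h2⟩ := hv
  have hd' : (d : ℤ) ≠ 0 := by exact_mod_cast hd
  have hy : y = y' := by
    have : (d : ℤ) * y = (d : ℤ) * y' := by linarith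
    exact mul_left_cancel₀ hd' this
  subst hy
  have hx : x = x' := by linarith
  subst hx
  rfl

/-! ## Gaussian majorants -/

theorem summable_gauss {a : ℝ} (ha : 0 < a) : Summable fun n : ℤ => Real.exp (-a * (n : ℝ) ^ 2) := by
  have h1 := ((summable_jacobiTheta₂_term_iff 0 ((a / π : ℝ) * I)).mpr (by simpa using div_pos ha Real.pi_pos)).norm
  refine h1.congr fun n => ?_
  rw [norm_jacobiTheta₂_term]
  congr 1
  simp
  field_simp

theorem summable_gauss2 {a b : ℝ} (ha : 0 < a) (hb : 0 < b) :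
    Summable fun v : ℤ × ℤ => Real.exp (-(a * (v.1 : ℝ) ^ 2 + b * (v.2 : ℝ) ^ 2)) := by
  have h := (summable_gauss ha).mul_of_nonneg (summable_gauss hb)
    (fun _ => (Real.exp_pos _).le) (fun _ => (Real.exp_pos _).le)
  refine h.congr fun v => ?_
  rw [← Real.exp_add]
  congr 1
  ring

/-- The real majorant of the terms of `thetaCoset d h` on `{Im τ ≥ ε}`. -/
theorem summable_cosetMajorant {d : ℕ} (hd : d ≠ 0) (h : ℤ) {ε : ℝ} (hε : 0 < ε) :
    Summable fun v : ℤ × ℤ =>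
      Real.exp (-(2 * π * ((cosetNum d h v : ℝ) / (4 * (d : ℝ))) * ε)) := by
  have hd' : (0 : ℝ) < d := by exact_mod_cast Nat.pos_of_ne_zero hd
  have h1 := (summable_gauss2 (a := π * ε / 2) (b := π * ε / (2 * d)) (by positivity)
    (by positivity)).comp_injective (cosetMap_injective hd h)
  refine h1.congr fun v => ?_
  simp only [Function.comp_apply, cosetNum]
  congr 1
  push_cast
  field_simp
  ring

theorem norm_cexp_two_pi_mul (r : ℝ) (τ : ℂ) :
    ‖cexp (2 * π * I * (r : ℂ) * τ)‖ = Real.exp (-(2 * π * r * τ.im)) := by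
  rw [Complex.norm_exp]
  congr 1
  have : (2 * π * I * (r : ℂ) * τ) = ((2 * π * r : ℝ) : ℂ) * (I * τ) := by push_cast; ring
  rw [this, Complex.re_ofReal_mul]
  simp

theorem cosetNum_div_cast (d : ℕ) (h : ℤ) (v : ℤ × ℤ) :
    ((cosetNum d h v : ℂ) / (4 * (d : ℂ))) = (((cosetNum d h v : ℝ) / (4 * (d : ℝ)) : ℝ) : ℂ) := by
  push_cast
  rfl

theorem norm_thetaCoset_term (d : ℕ) (h : ℤ) (v : ℤ × ℤ) (τ : ℂ) :
    ‖cexp (2 * π * I * ((cosetNum d h v : ℂ) / (4 * (d : ℂ))) * τ)‖ =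
      Real.exp (-(2 * π * ((cosetNum d h v : ℝ) / (4 * (d : ℝ))) * τ.im)) := by
  rw [cosetNum_div_cast, norm_cexp_two_pi_mul]

theorem norm_thetaCoset_term_le (d : ℕ) (h : ℤ) (v : ℤ × ℤ) {τ : ℂ} {ε : ℝ} (hτ : ε ≤ τ.im) :
    ‖cexp (2 * π * I * ((cosetNum d h v : ℂ) / (4 * (d : ℂ))) * τ)‖ ≤
      Real.exp (-(2 * π * ((cosetNum d h v : ℝ) / (4 * (d : ℝ))) * ε)) := by
  rw [norm_thetaCoset_term]
  apply Real.exp_le_exp.mpr
  have h0 : (0 : ℝ) ≤ (cosetNum d h v : ℝ) / (4 * (d : ℝ)) := by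
    have : (0 : ℝ) ≤ (cosetNum d h v : ℝ) := by exact_mod_cast cosetNum_nonneg d h v
    positivity
  have : 2 * π * ((cosetNum d h v : ℝ) / (4 * (d : ℝ))) * ε ≤
      2 * π * ((cosetNum d h v : ℝ) / (4 * (d : ℝ))) * τ.im := by
    have : (0 : ℝ) ≤ 2 * π * ((cosetNum d h v : ℝ) / (4 * (d : ℝ))) := by positivity
    exact mul_le_mul_of_nonneg_left hτ this
  linarith

/-! ## P1 statements -/

theorem summable_thetaCoset_of_ne {d : ℕ} (hd : d ≠ 0) (h : ℤ) (τ : ℍ) :
    Summable fun v : ℤ × ℤ => cexp (2 * π * I * ((cosetNum d h v : ℂ) / (4 * (d : ℂ))) * τ) := by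
  refine Summable.of_norm ?_
  refine (summable_cosetMajorant hd h τ.im_pos).congr fun v => ?_
  rw [norm_thetaCoset_term]
  rfl

theorem summable_thetaCoset {d : ℕ} (hd : d % 4 = 3) (h : ℤ) (τ : ℍ) :
    Summable fun v : ℤ × ℤ => cexp (2 * π * I * ((cosetNum d h v : ℂ) / (4 * (d : ℂ))) * τ) :=
  summable_thetaCoset_of_ne (by omega) h τ

theorem hasSum_thetaCoset {d : ℕ} (hd : d ≠ 0) (h : ℤ) (τ : ℍ) :
    HasSum (fun v : ℤ × ℤ => cexp (2 * π * I * ((cosetNum d h v : ℂ) / (4 * (d : ℂ))) * τ))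
      (thetaCoset d h τ) :=
  (summable_thetaCoset_of_ne hd h τ).hasSum

theorem cosetNum_zero_div {d : ℕ} (hd : d % 4 = 3) (v : ℤ × ℤ) :
    ((cosetNum d 0 v : ℂ) / (4 * (d : ℂ))) = (qf d v : ℂ) := by
  have hd0 : (d : ℂ) ≠ 0 := by
    have : d ≠ 0 := by omega
    exact_mod_cast this
  rw [cosetNum_zero hd]
  push_cast
  field_simp

theorem thetaCoset_zero {d : ℕ} (hd : d % 4 = 3) : thetaCoset d 0 = thetaD d := by
  funext τ
  unfold thetaCoset thetaD
  refine tsum_congr fun v => ?_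
  rw [cosetNum_zero_div hd]

theorem summable_thetaD {d : ℕ} (hd : d % 4 = 3) (τ : ℍ) :
    Summable fun v : ℤ × ℤ => cexp (2 * π * I * (qf d v : ℂ) * τ) := by
  refine (summable_thetaCoset hd 0 τ).congr fun v => ?_
  rw [cosetNum_zero_div hd]

theorem hasSum_thetaD {d : ℕ} (hd : d % 4 = 3) (τ : ℍ) :
    HasSum (fun v : ℤ × ℤ => cexp (2 * π * I * (qf d v : ℂ) * τ)) (thetaD d τ) :=
  (summable_thetaD hd τ).hasSum

/-- Dependence on `h` mod `d` only. -/
theorem thetaCoset_add {d : ℕ} (hd : d % 4 = 3) (h : ℤ) : thetaCoset d (h + d) = thetaCoset d h := by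
  have _ := hd
  funext τ
  unfold thetaCoset
  let e : ℤ × ℤ ≃ ℤ × ℤ :=
    { toFun := fun v => (v.1 - 1, v.2 + 2)
      invFun := fun v => (v.1 + 1, v.2 - 2)
      left_inv := fun v => by simp
      right_inv := fun v => by simp }
  have he := e.tsum_eq
    (fun v : ℤ × ℤ => cexp (2 * π * I * ((cosetNum d h v : ℂ) / (4 * (d : ℂ))) * τ))
  rw [← he]
  refine tsum_congr fun v => ?_
  rw [cosetNum_add]
  rfl

theorem mdiff_thetaCoset {d : ℕ} (hd : d % 4 = 3) (h : ℤ) : MDiff (thetaCoset d h) := by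
  rw [UpperHalfPlane.mdifferentiable_iff]
  intro z hz
  have hz0 : 0 < z.im := hz
  apply DifferentiableAt.differentiableWithinAt
  have hU : IsOpen {w : ℂ | z.im / 2 < w.im} := isOpen_lt continuous_const Complex.continuous_im
  have key : DifferentiableOn ℂ (fun w : ℂ => ∑' v : ℤ × ℤ,
      cexp (2 * π * I * ((cosetNum d h v : ℂ) / (4 * (d : ℂ))) * w)) {w : ℂ | z.im / 2 < w.im} :=
    differentiableOn_tsum_of_summable_norm (summable_cosetMajorant (by omega) h (half_pos hz0))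
      (fun v => (by fun_prop : Differentiable ℂ _).differentiableOn) hU
      (fun v w hw => norm_thetaCoset_term_le d h v (le_of_lt hw))
  have hz' : z ∈ {w : ℂ | z.im / 2 < w.im} := by
    show z.im / 2 < z.im
    linarith
  have hev : (thetaCoset d h ∘ ofComplex) =ᶠ[nhds z] (fun w : ℂ => ∑' v : ℤ × ℤ,
      cexp (2 * π * I * ((cosetNum d h v : ℂ) / (4 * (d : ℂ))) * w)) := by
    filter_upwards [(isOpen_lt continuous_const Complex.continuous_im).mem_nhds hz0] with w hw
    simp only [Function.comp_apply, ofComplex_apply_of_im_pos hw, thetaCoset]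
  exact ((key z hz').differentiableAt (hU.mem_nhds hz')).congr_of_eventuallyEq hev

/-- T-law: `ϑ_h(τ + 1) = e(h²/d) ϑ_h(τ)`. -/
theorem thetaCoset_T {d : ℕ} (hd : d % 4 = 3) (h : ℤ) (τ τ' : ℍ) (hτ : (τ' : ℂ) = τ + 1) :
    thetaCoset d h τ' = cexp (2 * π * I * ((h : ℂ) ^ 2 / d)) * thetaCoset d h τ := by
  have hd0 : (d : ℂ) ≠ 0 := by
    have : d ≠ 0 := by omega
    exact_mod_cast this
  unfold thetaCoset
  rw [← tsum_mul_left]
  refine tsum_congr fun v => ?_
  rw [hτ, ← Complex.exp_add]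
  have hN : ((cosetNum d h v : ℂ) / (4 * (d : ℂ))) =
      (h : ℂ) ^ 2 / d + ((qf d v + h * v.2 : ℤ) : ℂ) := by
    rw [cosetNum_eq hd]
    push_cast
    field_simp
  rw [hN]
  have h2 : 2 * π * I * ((h : ℂ) ^ 2 / d + ((qf d v + h * v.2 : ℤ) : ℂ)) * ((τ : ℂ) + 1) =
      (2 * π * I * ((h : ℂ) ^ 2 / d) +
        2 * π * I * ((h : ℂ) ^ 2 / d + ((qf d v + h * v.2 : ℤ) : ℂ)) * τ) +
      ((qf d v + h * v.2 : ℤ) : ℂ) * (2 * π * I) := by ring
  rw [h2, Complex.exp_add _ (((qf d v + h * v.2 : ℤ) : ℂ) * (2 * π * I)),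
    Complex.exp_int_mul_two_pi_mul_I, mul_one]

theorem isBoundedAtImInfty_thetaCoset {d : ℕ} (hd : d % 4 = 3) (h : ℤ) :
    IsBoundedAtImInfty (thetaCoset d h) := by
  rw [UpperHalfPlane.isBoundedAtImInfty_iff]
  have hd0 : d ≠ 0 := by omega
  refine ⟨∑' v : ℤ × ℤ, Real.exp (-(2 * π * ((cosetNum d h v : ℝ) / (4 * (d : ℝ))) * 1)), 1,
    fun z hz => ?_⟩
  unfold thetaCoset
  have hs := summable_cosetMajorant hd0 h one_pos
  have hn : Summable fun v : ℤ × ℤ =>
      ‖cexp (2 * π * I * ((cosetNum d h v : ℂ) / (4 * (d : ℂ))) * z)‖ :=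
    (summable_thetaCoset hd h z).norm
  refine (norm_tsum_le_tsum_norm hn).trans (hn.tsum_mono hs fun v => ?_)
  exact norm_thetaCoset_term_le d h v (by simpa using hz)

theorem finite_rep {d : ℕ} (hd : d % 4 = 3) (n : ℕ) :
    Finite {v : ℤ × ℤ // qf d v = (n : ℤ)} := by
  have hfin : Set.Finite {v : ℤ × ℤ | qf d v = (n : ℤ)} := by
    refine Set.Finite.subset ((Set.finite_Icc (-(4 * (n : ℤ))) (4 * n)).prod
      (Set.finite_Icc (-(4 * (n : ℤ))) (4 * n))) ?_
    rintro ⟨x, y⟩ hv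
    have hv : qf d (x, y) = (n : ℤ) := hv
    have h4 := four_mul_qf hd (x, y)
    rw [hv] at h4
    simp only at h4
    have hd1 : (1 : ℤ) ≤ d := by
      have : 1 ≤ d := by omega
      exact_mod_cast this
    have hy2 : y ^ 2 ≤ 4 * n := by nlinarith [sq_nonneg (2 * x + y), sq_nonneg y]
    have hu2 : (2 * x + y) ^ 2 ≤ 4 * n := by nlinarith [sq_nonneg (2 * x + y), sq_nonneg y]
    have hy1 : y ≤ 4 * n := (Int.le_self_sq y).trans hy2
    have hneg : ∀ t : ℤ, -t ≤ t ^ 2 := fun t => by simpa using Int.le_self_sq (-t)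
    have hy1' : -y ≤ 4 * n := (hneg y).trans hy2
    have hu1 : 2 * x + y ≤ 4 * n := (Int.le_self_sq _).trans hu2
    have hu1' : -(2 * x + y) ≤ 4 * n := (hneg _).trans hu2
    simp only [Set.mem_prod, Set.mem_Icc]
    refine ⟨⟨by linarith, by linarith⟩, ⟨by linarith, by linarith⟩⟩
  exact hfin.to_subtype

theorem thetaD_periodic {d : ℕ} (hd : d % 4 = 3) :
    Function.Periodic (thetaD d ∘ UpperHalfPlane.ofComplex) 1 := by
  have _ := hd
  intro w
  by_cases hw : 0 < w.im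
  · have hw1 : 0 < (w + 1).im := by simpa using hw
    simp only [Function.comp_apply, ofComplex_apply_of_im_pos hw1, ofComplex_apply_of_im_pos hw]
    unfold thetaD
    refine tsum_congr fun v => ?_
    show cexp (2 * π * I * (qf d v : ℂ) * (w + 1)) = cexp (2 * π * I * (qf d v : ℂ) * w)
    rw [mul_add, Complex.exp_add, mul_one,
      (by ring : 2 * π * I * (qf d v : ℂ) = (qf d v : ℂ) * (2 * π * I)),
      Complex.exp_int_mul_two_pi_mul_I, mul_one]
  · have hw1 : (w + 1).im ≤ 0 := by simpa using not_lt.mp hw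
    simp only [Function.comp_apply, ofComplex_apply_of_im_nonpos hw1,
      ofComplex_apply_of_im_nonpos (not_lt.mp hw)]

/-! ## The `q`-expansion of `θ_d` -/

theorem thetaD_term_eq_pow {d : ℕ} (hd : d % 4 = 3) (v : ℤ × ℤ) (τ : ℍ) :
    cexp (2 * π * I * (qf d v : ℂ) * τ) = Function.Periodic.qParam 1 τ ^ (qf d v).toNat := by
  have h0 := qf_nonneg hd v
  have hc : (qf d v : ℂ) = (((qf d v).toNat : ℕ) : ℂ) := by
    have : qf d v = (((qf d v).toNat : ℕ) : ℤ) := (Int.toNat_of_nonneg h0).symm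
    exact_mod_cast congrArg (Int.cast : ℤ → ℂ) this
  rw [Function.Periodic.qParam, ← Complex.exp_nat_mul, hc]
  congr 1
  push_cast
  ring

theorem toNat_qf_eq_iff {d : ℕ} (hd : d % 4 = 3) (v : ℤ × ℤ) (n : ℕ) :
    (qf d v).toNat = n ↔ qf d v = (n : ℤ) := by
  have h0 := qf_nonneg hd v
  omega

theorem repCount_eq_card_toNat {d : ℕ} (hd : d % 4 = 3) (n : ℕ) :
    repCount d n = Nat.card {v : ℤ × ℤ // (qf d v).toNat = n} :=
  Nat.card_congr (Equiv.subtypeEquivRight fun v => (toNat_qf_eq_iff hd v n).symm)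

/-- `θ_d(τ) = ∑ₙ r_d(n) qⁿ`. -/
theorem hasSum_thetaD_q {d : ℕ} (hd : d % 4 = 3) (τ : ℍ) :
    HasSum (fun n : ℕ => (repCount d n : ℂ) • Function.Periodic.qParam 1 τ ^ n) (thetaD d τ) := by
  set q : ℂ := Function.Periodic.qParam 1 τ with hq
  have h1 : HasSum (fun v : ℤ × ℤ => q ^ (qf d v).toNat) (thetaD d τ) := by
    have := hasSum_thetaD hd τ
    simpa only [thetaD_term_eq_pow hd] using this
  let φ : ℤ × ℤ → ℕ := fun v => (qf d v).toNat
  have h2 : HasSum (fun x : Σ n : ℕ, {v : ℤ × ℤ // φ v = n} => q ^ x.1) (thetaD d τ) := by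
    have h := (Equiv.sigmaFiberEquiv φ).hasSum_iff.mpr h1
    convert h using 1
    funext x
    obtain ⟨n, v, hv⟩ := x
    simp only [Function.comp_apply, Equiv.sigmaFiberEquiv_apply]
    rw [← hv]
  have h3 : ∀ n : ℕ, HasSum (fun _ : {v : ℤ × ℤ // φ v = n} => q ^ n)
      ((repCount d n : ℂ) • q ^ n) := by
    intro n
    have : Finite {v : ℤ × ℤ // φ v = n} :=
      Finite.of_equiv _ (Equiv.subtypeEquivRight fun v => (toNat_qf_eq_iff hd v n).symm)
        (h := finite_rep hd n)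
    have := Fintype.ofFinite {v : ℤ × ℤ // φ v = n}
    have h := hasSum_fintype (fun _ : {v : ℤ × ℤ // φ v = n} => q ^ n)
    convert h using 1
    rw [Finset.sum_const, Finset.card_univ, ← Nat.cast_smul_eq_nsmul ℂ, repCount_eq_card_toNat hd,
      Nat.card_eq_fintype_card]
  exact h2.sigma h3

theorem isBoundedAtImInfty_thetaD {d : ℕ} (hd : d % 4 = 3) : IsBoundedAtImInfty (thetaD d) :=
  thetaCoset_zero hd ▸ isBoundedAtImInfty_thetaCoset hd 0

theorem mdiff_thetaD {d : ℕ} (hd : d % 4 = 3) : MDiff (thetaD d) :=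
  thetaCoset_zero hd ▸ mdiff_thetaCoset hd 0

theorem analyticAt_cuspFunction_thetaD {d : ℕ} (hd : d % 4 = 3) :
    AnalyticAt ℂ (cuspFunction 1 (thetaD d)) 0 :=
  UpperHalfPlane.analyticAt_cuspFunction_zero one_pos (thetaD_periodic hd) (mdiff_thetaD hd)
    (isBoundedAtImInfty_thetaD hd)

/-- Uniqueness of `q`-expansion coefficients, for plain functions on `ℍ`. -/
theorem qExpansion_coeff_eq_of_hasSum {h : ℝ} {f : ℍ → ℂ} {c : ℕ → ℂ} (hh : 0 < h)
    (hfanalytic : AnalyticAt ℂ (cuspFunction h f) 0)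
    (hf : ∀ τ : ℍ, HasSum (fun m ↦ c m • Function.Periodic.qParam h τ ^ m) (f τ)) (m : ℕ) :
    (qExpansion h f).coeff m = c m := by
  have h1 := (hasFPowerSeriesOnBall_cuspFunction hh hfanalytic hf).hasFPowerSeriesAt
  have h2 : HasFPowerSeriesAt (cuspFunction h f)
      (.ofScalars ℂ fun m => (qExpansion h f).coeff m) 0 := by
    simpa [qExpansion_coeff, div_eq_mul_inv, mul_comm] using hfanalytic.hasFPowerSeriesAt
  simpa [FormalMultilinearSeries.coeff_ofScalars] using
    (congr_arg (FormalMultilinearSeries.coeff · m) (h1.eq_formalMultilinearSeries h2)).symm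

/-- The `q`-expansion of `θ_d`: the `n`-th coefficient is the representation number `r_d(n)`. -/
theorem thetaD_qExpansion_coeff {d : ℕ} (hd : d % 4 = 3) (n : ℕ) :
    (qExpansion 1 (thetaD d)).coeff n = (repCount d n : ℂ) :=
  qExpansion_coeff_eq_of_hasSum (c := fun n => (repCount d n : ℂ)) one_pos
    (analyticAt_cuspFunction_thetaD hd) (hasSum_thetaD_q hd) n

/-! ## The sum over the cosets -/

theorem cosetNum_eq_four_qf {d : ℕ} (hd : d % 4 = 3) {κ : ℤ} (hκ : 2 * κ + 1 = d) (h : ℤ)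
    (v : ℤ × ℤ) : cosetNum d h v = 4 * qf d (κ * v.2 + h - v.1, 2 * v.1 + v.2) := by
  have h4 := four_mul_qf hd (κ * v.2 + h - v.1, 2 * v.1 + v.2)
  simp only at h4
  have h5 : 2 * (κ * v.2 + h - v.1) + (2 * v.1 + v.2) = (d : ℤ) * v.2 + 2 * h := by
    linear_combination v.2 * hκ
  rw [h4, h5]
  unfold cosetNum
  ring

/-- `∑_{h mod d} ϑ_h(dτ) = θ_d(τ)` (the dual lattice, rescaled by `d`, is the lattice). -/
theorem sum_thetaCoset_mul {d : ℕ} (hd : d % 4 = 3) (τ τ' : ℍ) (hτ : (τ' : ℂ) = (d : ℂ) * τ) :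
    ∑ h ∈ Finset.range d, thetaCoset d (h : ℤ) τ' = thetaD d τ := by
  have hd0 : d ≠ 0 := by omega
  have hdC : (d : ℂ) ≠ 0 := by exact_mod_cast hd0
  have hdZ : (d : ℤ) ≠ 0 := by exact_mod_cast hd0
  have hdpos : (0 : ℤ) < d := by exact_mod_cast Nat.pos_of_ne_zero hd0
  obtain ⟨κ, hκ⟩ : ∃ κ : ℤ, 2 * κ + 1 = d := ⟨(((d - 1) / 2 : ℕ) : ℤ), by
    have : 2 * ((d - 1) / 2) + 1 = d := by omega
    exact_mod_cast this⟩
  let g : ℤ × ℤ → ℂ := fun V => cexp (2 * π * I * (qf d V : ℂ) * τ)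
  have hg : HasSum g (thetaD d τ) := hasSum_thetaD hd τ
  let Φ : ℤ → ℤ × ℤ → ℤ × ℤ := fun h v => (κ * v.2 + h - v.1, 2 * v.1 + v.2)
  have hΦinj : ∀ h, Function.Injective (Φ h) := by
    rintro h ⟨x, y⟩ ⟨x', y'⟩ hv
    simp only [Φ, Prod.mk.injEq] at hv
    obtain ⟨h1, h2⟩ := hv
    have hx : x = x' := by
      have h3 : (d : ℤ) * (x' - x) = 0 := by
        rw [← hκ]
        linear_combination h1 - κ * h2
      rcases mul_eq_zero.mp h3 with h4 | h4
      · exact absurd h4 hdZ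
      · linarith
    subst hx
    have hy : y = y' := by linarith
    subst hy
    rfl
  have hterm : ∀ (h : ℤ) (v : ℤ × ℤ),
      cexp (2 * π * I * ((cosetNum d h v : ℂ) / (4 * (d : ℂ))) * τ') = g (Φ h v) := by
    intro h v
    simp only [g, Φ]
    rw [hτ, cosetNum_eq_four_qf hd hκ]
    congr 1
    push_cast
    field_simp
  have hrange : ∀ (h : ℤ) (V : ℤ × ℤ), V ∈ Set.range (Φ h) ↔ (d : ℤ) ∣ V.1 - κ * V.2 - h := by
    intro h V
    constructor
    · rintro ⟨⟨x, y⟩, rfl⟩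
      refine ⟨-x, ?_⟩
      simp only [Φ]
      rw [← hκ]
      ring
    · rintro ⟨m, hm⟩
      refine ⟨(-m, V.2 + 2 * m), ?_⟩
      simp only [Φ]
      refine Prod.ext ?_ ?_
      · simp only
        have : (2 * κ + 1) * m = V.1 - κ * V.2 - h := by rw [hκ]; exact hm.symm
        linear_combination this
      · simp only
        ring
  have hS : ∀ h : ℤ, HasSum ((Set.range (Φ h)).indicator g) (thetaCoset d h τ') := by
    intro h
    have h1 : HasSum (g ∘ Φ h) (thetaCoset d h τ') := by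
      have h2 := hasSum_thetaCoset hd0 h τ'
      simp only [hterm] at h2
      exact h2
    have h3 := (hΦinj h).hasSum_iff (f := (Set.range (Φ h)).indicator g) (a := thetaCoset d h τ')
      (fun x hx => Set.indicator_of_notMem hx _)
    rw [← h3]
    convert h1 using 1
    funext v
    simp only [Function.comp_apply]
    exact Set.indicator_of_mem (Set.mem_range_self v) g
  have hsum := hasSum_sum (s := Finset.range d) (fun (h : ℕ) _ => hS (h : ℤ))
  have hfun : (fun V : ℤ × ℤ => ∑ h ∈ Finset.range d, (Set.range (Φ (h : ℤ))).indicator g V)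
      = g := by
    funext V
    set A : ℤ := V.1 - κ * V.2 with hA
    have hr0 : 0 ≤ A % (d : ℤ) := Int.emod_nonneg _ hdZ
    have hr1 : A % (d : ℤ) < d := Int.emod_lt_of_pos _ hdpos
    have hr2 : ((A % (d : ℤ)).toNat : ℤ) = A % (d : ℤ) := Int.toNat_of_nonneg hr0
    rw [Finset.sum_eq_single (A % (d : ℤ)).toNat]
    · apply Set.indicator_of_mem
      rw [hrange, hr2]
      refine ⟨A / (d : ℤ), ?_⟩
      have := Int.mul_ediv_add_emod A (d : ℤ)
      linarith
    · intro b hb hne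
      apply Set.indicator_of_notMem
      rw [hrange]
      rintro ⟨m, hm⟩
      apply hne
      have hb' : (b : ℤ) < d := by exact_mod_cast Finset.mem_range.mp hb
      have hAb : A = (b : ℤ) + (d : ℤ) * m := by linarith
      have : A % (d : ℤ) = b := by
        rw [hAb, Int.add_mul_emod_self_left]
        exact Int.emod_eq_of_lt (Int.natCast_nonneg b) hb'
      rw [this]
      simp
    · intro hnot
      exfalso
      apply hnot
      rw [Finset.mem_range]
      have : ((A % (d : ℤ)).toNat : ℤ) < d := by rw [hr2]; exact hr1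
      exact_mod_cast this
  rw [hfun] at hsum
  exact hsum.unique hg

/-! ## Further symmetries in `h` (for the `Γ₀(d)` character law) -/

theorem thetaCoset_add_int_mul {d : ℕ} (hd : d % 4 = 3) (h k : ℤ) :
    thetaCoset d (h + k * d) = thetaCoset d h := by
  induction k using Int.induction_on with
  | zero => simp
  | succ n ih =>
    have : h + ((n : ℤ) + 1) * d = (h + (n : ℤ) * d) + d := by ring
    rw [this, thetaCoset_add hd, ih]
  | pred n ih =>
    have h1 := thetaCoset_add hd (h + (-(n : ℤ) - 1) * d)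
    have : h + (-(n : ℤ) - 1) * d + d = h + -(n : ℤ) * d := by ring
    rw [this] at h1
    rw [← h1, ih]

theorem thetaCoset_emod {d : ℕ} (hd : d % 4 = 3) (h : ℤ) :
    thetaCoset d (h % (d : ℤ)) = thetaCoset d h := by
  have h1 := thetaCoset_add_int_mul hd (h % (d : ℤ)) (h / (d : ℤ))
  have h2 : h % (d : ℤ) + h / (d : ℤ) * (d : ℤ) = h := by
    have := Int.mul_ediv_add_emod h (d : ℤ)
    linarith
  rw [h2] at h1
  exact h1.symm

theorem thetaCoset_neg (d : ℕ) (h : ℤ) : thetaCoset d (-h) = thetaCoset d h := by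
  funext τ
  unfold thetaCoset
  have he := (Equiv.neg (ℤ × ℤ)).tsum_eq
    (fun v : ℤ × ℤ => cexp (2 * π * I * ((cosetNum d h v : ℂ) / (4 * (d : ℂ))) * τ))
  rw [← he]
  refine tsum_congr fun v => ?_
  have : cosetNum d (-h) v = cosetNum d h (-v) := by
    unfold cosetNum
    simp only [Prod.fst_neg, Prod.snd_neg]
    ring
  rw [this]
  rfl

end

end Fermat.Agent.S16.ThetaLower.ThetaSeries

namespace Fermat.Agent.S16.ThetaLower

open ThetaSeries in
/-- Package P1 of the theta lower bound: the basic analysis of the coset theta series. -/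
theorem thetaBasics {d : ℕ} (hd : d.Prime) (hd4 : d % 4 = 3) : ThetaBasics d := by
  have _ := hd
  exact
    { summable := summable_thetaCoset hd4
      coset_zero := thetaCoset_zero hd4
      coset_add := thetaCoset_add hd4
      mdiff := mdiff_thetaCoset hd4
      tLaw := thetaCoset_T hd4
      bdd := isBoundedAtImInfty_thetaCoset hd4
      qexp := thetaD_qExpansion_coeff hd4
      sum_mul := sum_thetaCoset_mul hd4 }

end Fermat.Agent.S16.ThetaLower
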